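import Mathlib.NumberTheory.ModularForms.CongruenceSubgroups
import Mathlib.NumberTheory.Modular
import Mathlib.Data.Nat.PrimeFin
import Mathlib.Data.Nat.Prime.Int
import Mathlib.Tactic.LinearCombination

/-!
# `Γ₁(N)` is generated by a principal congruence subgroup and parabolic elements
-/

set_option autoImplicit false

open scoped MatrixGroups
open CongruenceSubgroup

namespace FLTA.DeligneSerre

/-- A translate of `a` by a multiple of `c` prime to `n`. -/
theorem exists_int_add_mul_isCoprime {a c : ℤ} (h : IsCoprime a c) {n : ℕ} (hn : n ≠ 0) :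
    ∃ k : ℤ, IsCoprime (a + k * c) (n : ℤ) := by
  classical
  let K : ℕ := ∏ p ∈ n.primeFactors.filter fun p : ℕ => ¬ ((p : ℤ) ∣ a), p
  refine ⟨(K : ℤ), Int.isCoprime_iff_gcd_eq_one.2 ?_⟩
  rw [Int.gcd_def, Int.natAbs_natCast]
  refine Nat.coprime_of_dvd fun p hp hp1 hp2 => ?_
  have hp1' : (p : ℤ) ∣ a + K * c := Int.natCast_dvd.2 hp1
  have hmem : p ∈ n.primeFactors := Nat.mem_primeFactors.2 ⟨hp, hp2, hn⟩
  by_cases hpa : (p : ℤ) ∣ a
  · rw [dvd_add_right hpa] at hp1'
    rcases (Nat.prime_iff_prime_int.1 hp).dvd_or_dvd hp1' with hk | hc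
    · rw [Int.natCast_dvd_natCast] at hk
      obtain ⟨q, hq, hpq⟩ := (Prime.dvd_finsetProd_iff hp.prime _).1 hk
      rw [Finset.mem_filter, Nat.mem_primeFactors] at hq
      rw [(Nat.prime_dvd_prime_iff_eq hp hq.1.1).1 hpq] at hpa
      exact hq.2 hpa
    · exact (Nat.prime_iff_prime_int.1 hp).not_isUnit (h.isUnit_of_dvd' hpa hc)
  · have hk : (p : ℤ) ∣ (K : ℤ) :=
      Int.natCast_dvd_natCast.2 (Finset.dvd_prod_of_mem _ (Finset.mem_filter.2 ⟨hmem, hpa⟩))
    exact hpa ((dvd_add_left (dvd_mul_of_dvd_left hk c)).1 hp1')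

/-- The upper unipotent element. -/
def upperUnip (b : ℤ) : SL(2, ℤ) := ⟨!![1, b; 0, 1], by simp [Matrix.det_fin_two_of]⟩

/-- The lower unipotent element. -/
def lowerUnip (c : ℤ) : SL(2, ℤ) := ⟨!![1, 0; c, 1], by simp [Matrix.det_fin_two_of]⟩

theorem upperUnip_mem_gamma1 (N : ℕ) (b : ℤ) : upperUnip b ∈ Gamma1 N := by
  rw [Gamma1_mem]; simp [upperUnip]

theorem lowerUnip_mem_gamma1 (N : ℕ) (c : ℤ) : lowerUnip ((N : ℤ) * c) ∈ Gamma1 N := by
  rw [Gamma1_mem]; simp [lowerUnip]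

/-- A character of `Γ₁(N)` trivial on parabolic elements and on some `Γ(N')` is trivial. -/
theorem eq_one_of_trivial_on_gamma {G : Type*} [Group G] {N N' : ℕ} [NeZero N] [NeZero N']
    (δ : Gamma1 N →* G)
    (hpar : ∀ γ : Gamma1 N, ((γ : SL(2, ℤ)).1.trace) ^ 2 = 4 → δ γ = 1)
    (hN' : ∀ γ : Gamma1 N, (γ : SL(2, ℤ)) ∈ Gamma N' → δ γ = 1) : δ = 1 := by
  have hU : ∀ b : ℤ, δ ⟨upperUnip b, upperUnip_mem_gamma1 N b⟩ = 1 := fun b =>
    hpar _ (by simp [upperUnip, Matrix.trace_fin_two])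
  have hL : ∀ c : ℤ, δ ⟨lowerUnip ((N : ℤ) * c), lowerUnip_mem_gamma1 N c⟩ = 1 := fun c =>
    hpar _ (by simp [lowerUnip, Matrix.trace_fin_two])
  refine MonoidHom.ext fun g => ?_
  rw [MonoidHom.one_apply]
  -- reduce to a product of unipotents modulo `N * N'`
  obtain ⟨g, hg⟩ := g
  obtain ⟨ha1, -, hc0⟩ := (Gamma1_mem N g).1 hg
  set a := g.1 0 0 with ha
  set b := g.1 0 1 with hb
  set c := g.1 1 0 with hc
  set d := g.1 1 1 with hd
  have hdet : a * d - b * c = 1 := by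
    have := g.2
    rw [Matrix.det_fin_two] at this
    exact this
  obtain ⟨c', hc'⟩ : (N : ℤ) ∣ c := (ZMod.intCast_zmod_eq_zero_iff_dvd c N).1 hc0
  obtain ⟨k, hk⟩ := exists_int_add_mul_isCoprime
    (⟨d, -b, by linear_combination hdet⟩ : IsCoprime a c)
    (Nat.mul_ne_zero (NeZero.ne N) (NeZero.ne N'))
  set a₁ := a + k * c with ha₁
  obtain ⟨x, hx⟩ : (N : ℤ) ∣ a₁ - 1 := by
    rw [← ZMod.intCast_zmod_eq_zero_iff_dvd]
    push_cast [ha₁]
    rw [ha1, hc0]
    ring
  obtain ⟨a', t, hat⟩ := hk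
  push_cast at hat
  set b₁ := b + k * d with hb₁
  -- `T^k g ≡ L(c a') · L(-N a') T^x L(N) T^(-x a') · T^(b₁ a')`
  let p : Gamma1 N :=
    ⟨upperUnip (-k), upperUnip_mem_gamma1 N _⟩ *
    ⟨lowerUnip ((N : ℤ) * (c' * a')), lowerUnip_mem_gamma1 N _⟩ *
    (⟨lowerUnip ((N : ℤ) * (-a')), lowerUnip_mem_gamma1 N _⟩ *
     ⟨upperUnip x, upperUnip_mem_gamma1 N _⟩ *
     ⟨lowerUnip ((N : ℤ) * 1), lowerUnip_mem_gamma1 N _⟩ *
     ⟨upperUnip (-(x * a')), upperUnip_mem_gamma1 N _⟩) *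
    ⟨upperUnip (b₁ * a'), upperUnip_mem_gamma1 N _⟩
  have hp : δ p = 1 := by
    simp only [p, map_mul, hU, hL]
    simp
  have hmod : Matrix.SpecialLinearGroup.map (Int.castRingHom (ZMod N')) (p : SL(2, ℤ)) =
      Matrix.SpecialLinearGroup.map (Int.castRingHom (ZMod N')) g := by
    have e1 : (a' : ZMod N') * (a₁ : ZMod N') = 1 := by
      have h := congrArg (Int.cast : ℤ → ZMod N') hat
      push_cast at h
      rwa [ZMod.natCast_self N', mul_zero, mul_zero, add_zero] at h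
    have e2 : (a₁ : ZMod N') = 1 + N * x := by
      have h := congrArg (Int.cast : ℤ → ZMod N') hx
      push_cast at h
      linear_combination h
    have e3 : (a : ZMod N') = a₁ - k * c := by push_cast [ha₁]; ring
    have e4 : (b : ZMod N') = b₁ - k * d := by push_cast [hb₁]; ring
    have e5 : (c : ZMod N') = N * c' := by push_cast [hc']; ring
    have e6 : (a : ZMod N') * d - b * c = 1 := by
      exact_mod_cast congrArg (Int.cast : ℤ → ZMod N') hdet
    rw [e3, e4] at e6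
    have e6' : (a₁ : ZMod N') * d - b₁ * (N * c') = 1 := by
      rw [← e5]
      linear_combination e6
    let Q : SL(2, ℤ) →* Matrix (Fin 2) (Fin 2) (ZMod N') :=
      { toFun := fun M => (Int.castRingHom (ZMod N')).mapMatrix (M : Matrix (Fin 2) (Fin 2) ℤ)
        map_one' := by simp
        map_mul' := fun M M' => by rw [Matrix.SpecialLinearGroup.coe_mul, map_mul] }
    have hQU : ∀ z : ℤ, Q (upperUnip z) = !![1, (z : ZMod N'); 0, 1] := fun z => by
      ext i j; fin_cases i <;> fin_cases j <;> simp [Q, upperUnip]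
    have hQL : ∀ z : ℤ, Q (lowerUnip z) = !![1, 0; (z : ZMod N'), 1] := fun z => by
      ext i j; fin_cases i <;> fin_cases j <;> simp [Q, lowerUnip]
    have hQg : Q g = !![(a₁ : ZMod N') - k * c, b₁ - k * d; N * c', d] := by
      rw [← e3, ← e4, ← e5]
      ext i j; fin_cases i <;> fin_cases j <;> simp [Q, ha, hb, hc, hd]
    have hD : !![1, 0; (N : ZMod N') * -a', 1] * !![1, (x : ZMod N'); 0, 1] *
        !![1, 0; (N : ZMod N'), 1] * !![1, -((x : ZMod N') * a'); 0, 1] =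
        !![(a₁ : ZMod N'), 0; 0, a'] := by
      ext i j
      fin_cases i <;> fin_cases j <;> simp [Matrix.mul_apply, Fin.sum_univ_two]
      · linear_combination -e2
      · linear_combination (-(x : ZMod N')) * e1 + ((a' : ZMod N') * x) * e2
      · linear_combination (N * a' : ZMod N') * e2 - (N : ZMod N') * e1
      · linear_combination (a' : ZMod N') * e2 - e1 -
          ((N : ZMod N') * a' * x) * ((a' : ZMod N') * e2 - e1)
    refine Matrix.SpecialLinearGroup.ext _ _ fun i j => ?_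
    show Q (p : SL(2, ℤ)) i j = Q g i j
    have hprod : Q (p : SL(2, ℤ)) =
        !![1, -(k : ZMod N'); 0, 1] * !![1, 0; (N : ZMod N') * (c' * a'), 1] *
        !![(a₁ : ZMod N'), 0; 0, a'] * !![1, (b₁ : ZMod N') * a'; 0, 1] := by
      rw [← hD]
      simp only [p, Subgroup.coe_mul, map_mul, hQU, hQL]
      simp [mul_assoc]
    rw [hprod, hQg, e5]
    fin_cases i <;> fin_cases j <;> simp [Matrix.mul_apply, Fin.sum_univ_two]
    · linear_combination -((k : ZMod N') * N * c') * e1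
    · linear_combination (b₁ : ZMod N') * e1 -
        (k : ZMod N') * (((N : ZMod N') * c' * b₁ * a' + d) * e1 - (a' : ZMod N') * e6')
    · linear_combination ((N : ZMod N') * c') * e1
    · linear_combination ((N : ZMod N') * c' * b₁ * a' + d) * e1 - (a' : ZMod N') * e6'
  have hrest : ((p⁻¹ * ⟨g, hg⟩ : Gamma1 N) : SL(2, ℤ)) ∈ Gamma N' := by
    rw [Gamma, MonoidHom.mem_ker, Subgroup.coe_mul, Subgroup.coe_inv, map_mul, map_inv, hmod,
      inv_mul_cancel]
  have := hN' _ hrest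
  rwa [map_mul, map_inv, hp, inv_one, one_mul] at this

end FLTA.DeligneSerre
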