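import Fermat.Agent.DeligneSerre.Rigidity.FromBaseCusp

/-!
# The base data from the structure of level `N` functions

`Z = baseZ M ∘ poleRep`, `W = 1 / cuspFun M ∘ poleRep`, `e = N / M`.
-/

set_option autoImplicit false

noncomputable section

open scoped MatrixGroups
open UpperHalfPlane CongruenceSubgroup Polynomial

namespace FLTA.DeligneSerre

local notation "Qb" => AlgebraicClosure ℚ

theorem invariant_compHom_inv {M : ℕ} {F : ℍ → ℂ} (g : SL(2, ℤ))
    (hinv : ∀ γ ∈ Gamma M, ∀ τ : ℍ, F (γ • τ) = F τ) :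
    ∀ γ ∈ Gamma M, ∀ τ : ℍ, compHom g F (γ • τ) = compHom g F τ := fun γ hγ τ => by
  have h := hinv _ ((Gamma_normal M).conj_mem γ hγ g) (g • τ)
  simpa [compHom_apply, ← mul_smul, mul_assoc] using h

theorem nonempty_baseData {N M : ℕ} [NeZero N] [NeZero M] (hM : M = 2 ∨ M = 3) (hMN : M ∣ N)
    {l : ℕ} (hl : l.Prime) (hlN : ¬ l ∣ N) {A : ValuationSubring Qb} (hA : A.LiesOverPrime l) :
    Nonempty (BaseData A N) := by
  classical
  have hlM : ¬ l ∣ M := fun h => hlN (h.trans hMN)
  have hk : NeZero (N / M) := ⟨fun h => NeZero.ne N (by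
    rw [← Nat.div_mul_cancel hMN, h, zero_mul])⟩
  have hN : N = M * (N / M) := (Nat.mul_div_cancel' hMN).symm
  have hzP := fn_le_perFn (baseZ_mem hM)
  have hint := isIntFn_baseZ hM hl hlM hA
  choose a ha using fun r : SL(2, ℤ) => hint r 0
  choose! c hc using fun (r : SL(2, ℤ)) (hr : ¬ CuspRel M poleRep r) =>
    exists_mul_sub_eq_one hM hl hlM hA hr
  -- the parameter, its polynomial and the inverse
  set P : A[X] := ∏ r ∈ cuspReps M, (X - C (a r)) with hP
  set W : ℍ → ℂ := compHom poleRep (∏ r ∈ cuspReps M,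
    algebraMap ℂ (ℍ → ℂ) (iota (c r : Qb)) * compHom (baseShift r) (baseInv M)) with hWdef
  have hcuspPoly : P.map (iotaA A) = (cuspPoly M).map iota := by
    rw [hP, cuspPoly, Polynomial.map_prod, Polynomial.map_prod]
    refine Finset.prod_congr rfl fun r _ => ?_
    simp [iota_cuspVal hM, iotaA_apply, ha]
  have hW : ∀ τ : ℍ, W τ * cuspFun M (poleRep • τ) = 1 := fun τ => by
    rw [hWdef, compHom_apply, cuspFun_eq_prod hM, Finset.prod_apply, ← Finset.prod_mul_distrib]
    exact Finset.prod_eq_one fun r hr => hc r (not_cuspRel_poleRep hM hr) _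
  have hZmem : baseZ M ∈ BRing A N := mem_bRing_of_level hMN (baseZ_mem hM) hint
  have hWmem : W ∈ BRing A N :=
    compHom_mem_bRing (prod_mem fun r _ => mul_mem (const_mem_bRing (c r)) (compHom_mem_bRing
      (mem_bRing_of_level hMN (baseInv_mem hM) (isIntFn_baseInv hM hl hlM hA)) _)) _
  have hcexp : ∀ g, cexp N (compHom poleRep (baseZ M)) g =
      ModularCurve.qExpand ℂ (N / M) (cexp M (baseZ M) (poleRep * g)) := fun g => by
    rw [← cexp_mul_level (N / M) hN hzP]
    exact cexp_comp (baseZ M) poleRep g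
  have hlead : (cexp N (compHom poleRep (baseZ M)) 1).coeff (-((N / M : ℕ) : ℤ)) =
      poleCoeff M poleRep := by
    rw [hcexp, mul_one, show -((N / M : ℕ) : ℤ) = ((N / M : ℕ) : ℤ) * (-1) by ring,
      ModularCurve.qExpand_coeff_mul]
    rfl
  obtain ⟨n, u, w, hu, hw, huw, hsep⟩ := exists_separability hM hMN
  obtain ⟨hreps, hone, huniq⟩ := levReps_spec hM hMN
  refine ⟨{
    M := M
    e := N / M
    hN := hN
    hlev := gamma_le_of_dvd hMN
    reps := levReps N M
    reps_mem := hreps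
    one_mem_reps := hone
    reps_unique := huniq
    Z := compHom poleRep (baseZ M)
    W := W
    P := P
    P_monic := monic_prod_of_monic _ _ fun _ _ => monic_X_sub_C _
    P_zero := ?_
    Z_mem := compHom_mem_bRing hZmem _
    W_mem := hWmem
    Z_inv := invariant_compHom_inv _ (baseZ_smul hM)
    W_mul := fun τ => by rw [hcuspPoly]; exact hW τ
    Z_order := ?_
    Z_lead := by
      obtain ⟨b, hb, hb'⟩ := isUnit_poleCoeff hM hl hlM hA (cuspRel_self (M := M) poleRep)
      exact ⟨b, hb, hb'.trans hlead.symm⟩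
    Z_order_nonneg := ?_
    surj := ?_
    deriv_ne := fun τ => by
      rw [show compHom poleRep (baseZ M) = fun σ : ℍ => baseZ M (poleRep • σ) from rfl,
        deriv_comp_smul (baseZ_mem hM).1]
      exact div_ne_zero (deriv_baseZ_ne_zero hM _) (pow_ne_zero _ (denom_ne_zero _ _))
    repr_int := ?_
    repr_alg := ?_
    m := n
    u := u
    w := w
    u_mem := fun j => ⟨(hu j).1, fn_le_perFn (hu j).1, (huw l hl hlN A hA).1 j⟩
    w_mem := fun j => ⟨(hw j).1, fn_le_perFn (hw j).1, (huw l hl hlN A hA).2 j⟩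
    separ := hsep
    scale := ?_
    denom := ?_ }⟩
  · -- the value `0` at the cusp of `S`
    have hS : ModularGroup.S ∈ cuspReps M := by
      rcases hM with rfl | rfl <;> simp [cuspReps]
    have haS : a ModularGroup.S = 0 := iotaA_injective A (by
      rw [map_zero, iotaA_apply, ha]
      exact coeff_zero_baseZ_of_zero hM (by simp [ModularGroup.coe_S]))
    rw [hP, Polynomial.coeff_zero_prod]
    exact Finset.prod_eq_zero hS (by simp [haS])
  · refine order_eq_of_coeff (fun m hm => ?_) ?_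
    · rw [hcexp, mul_one]
      by_cases hd : ((N / M : ℕ) : ℤ) ∣ m
      · obtain ⟨i, rfl⟩ := hd
        rw [ModularCurve.qExpand_coeff_mul]
        refine HahnSeries.coeff_eq_zero_of_lt_order ?_
        rw [order_baseZ_pole hM (cuspRel_self _)]
        exact lt_of_mul_lt_mul_left (hm.trans_eq (by ring)) (Int.natCast_nonneg _)
      · exact ModularCurve.qExpand_coeff_of_not_dvd _ _ hd
    · rw [hlead]
      exact poleCoeff_ne_zero hM (cuspRel_self _)
  · intro g hg
    refine FLTA.Bridge.order_nonneg_of_forall_coeff fun m hm => ?_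
    rw [hcexp]
    by_cases hd : ((N / M : ℕ) : ℤ) ∣ m
    · obtain ⟨i, rfl⟩ := hd
      rw [ModularCurve.qExpand_coeff_mul]
      refine HahnSeries.coeff_eq_zero_of_lt_order (lt_of_lt_of_le
        (show i < 0 from neg_of_mul_neg_right hm (Int.natCast_nonneg _))
        (order_baseZ_nonneg hM fun h => hg ?_))
      have h1 : CuspRel M 1 g := by simpa [CuspRel, ← mul_assoc] using h
      obtain ⟨k, hk⟩ := h1.exists_eq_mul hM
      exact ⟨-k, by simpa [zpow_neg] using hk⟩
    · exact ModularCurve.qExpand_coeff_of_not_dvd _ _ hd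
  · intro z₀ hz
    rw [hcuspPoly] at hz
    obtain ⟨τ, hτ⟩ := exists_baseZ_eq hM z₀ hz
    exact ⟨poleRep⁻¹ • τ, by rw [compHom_apply, smul_inv_smul, hτ]⟩
  · intro F hF hinv
    have hF' := compHom_mem_bRing hF poleRep⁻¹
    obtain ⟨p, k, hp⟩ := exists_poly_of_invariant_int hM hMN hl hlN hA hF'.1 hF'.2.2
      (invariant_compHom_inv _ hinv)
    refine ⟨p, k, fun τ => ?_⟩
    have h := hp (poleRep • τ)
    rw [compHom_apply, inv_smul_smul] at h
    show F τ = W τ ^ k * (p.map (iota.comp A.subtype)).eval (baseZ M (poleRep • τ))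
    rw [← h, mul_comm (F τ), ← mul_assoc, ← mul_pow, hW, one_pow, one_mul]
  · intro F hF hinv
    have hF' := compHom_mem_bAlg hF poleRep⁻¹
    obtain ⟨p, k, hp⟩ := exists_poly_of_invariant_alg hM hMN hF'.1 hF'.2.2
      (invariant_compHom_inv _ hinv)
    refine ⟨p, k, fun τ => ?_⟩
    have h := hp (poleRep • τ)
    rw [compHom_apply, inv_smul_smul] at h
    show F τ = W τ ^ k * (p.map iota).eval (baseZ M (poleRep • τ))
    rw [← h, mul_comm (F τ), ← mul_assoc, ← mul_pow, hW, one_pow, one_mul]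
  · intro F hF h0
    obtain ⟨c, hc0, hci, hcg⟩ := exists_scale hM hMN hl hlN hA hF.1 hF.2.2 h0
    have hm : iota c • F ∈ Fn N := Subalgebra.smul_mem _ hF.1 _
    exact ⟨c, hc0, ⟨hm, fn_le_perFn hm, hci⟩, hcg⟩
  · intro F hF
    obtain ⟨D, hD, hD'⟩ := exists_denom hM hMN hF.1 hF.2.2
    refine ⟨(D : A), fun h => hD ?_, ?_⟩
    · exact_mod_cast (congrArg Subtype.val h : ((D : A) : Qb) = 0)
    have hm : iota ((D : A) : Qb) • F ∈ Fn N := Subalgebra.smul_mem _ hF.1 _
    refine ⟨hm, fn_le_perFn hm, fun g k => ?_⟩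
    obtain ⟨b, hb, hb'⟩ := hD' g k
    refine ⟨⟨b, Galois.mem_of_isIntegral hb⟩, ?_⟩
    rw [cexp_smul hF.2.1, HahnSeries.coeff_smul, smul_eq_mul, hb']
    simp

end FLTA.DeligneSerre
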