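import Fermat.Agent.DeligneSerre.Rigidity.Main
import Fermat.Agent.DeligneSerre.Rigidity.FromBase

/-!
# Rigidity of characters of order prime to the residue characteristic

Assembled from `Rigidity/Main` and the base data `Rigidity/FromBase`.
-/

set_option autoImplicit false

noncomputable section

open scoped MatrixGroups
open UpperHalfPlane CongruenceSubgroup

namespace FLTA.DeligneSerre

local notation "Qb" => AlgebraicClosure ℚ

variable {N M : ℕ} [NeZero N] [NeZero M] (hM : M = 2 ∨ M = 3) (hMN : M ∣ N)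
  {l : ℕ} (hl : l.Prime) (hlN : ¬ l ∣ N) {A : ValuationSubring Qb} (hA : A.LiesOverPrime l)

include hM hMN hl hlN hA

/-- The reduction at infinity is injective (irreducibility of the reduction). -/
theorem redExp_ne_zero {F : ℍ → ℂ} (hF : F ∈ Fn N) (hi : IsIntFn A N F)
    (h : ∃ g, redExp A N F g ≠ 0) (g : SL(2, ℤ)) : redExp A N F g ≠ 0 := by
  obtain ⟨D⟩ := nonempty_baseData hM hMN hl hlN hA
  obtain ⟨g₀, hg₀⟩ := h
  let B : BRing A N := ⟨F, hF, fn_le_perFn hF, hi⟩
  have := D.redAt_ne_zero hl hA B (g₀ := g₀) (by rw [redAt_apply]; exact hg₀) g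
  rwa [redAt_apply] at this

variable {n : ℕ} [NeZero n] (hln : ¬ l ∣ n) {δ : Gamma N →* ℂ} (hδ : ∀ γ, δ γ ^ n = 1)
  (hpar : ParTriv N δ)

include hln hδ hpar

/-- A twisted function whose `n`-th power is integral is integral. -/
theorem isIntFn_of_pow {f : ℍ → ℂ} (hf : f ∈ Tw N δ) (hi : IsIntFn A N (f ^ n)) :
    IsIntFn A N f := by
  obtain ⟨D⟩ := nonempty_baseData hM hMN hl hlN hA
  exact D.isIntFn_of_pow_tw hpar hl hA hln hδ hf hi

/-- Rigidity: a twisted function which reduces to an invariant one is invariant. -/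
theorem eq_one_of_redExp_eq {f b : ℍ → ℂ} (hf : f ∈ Tw N δ) (hfi : IsIntFn A N f)
    (hb : b ∈ Fn N) (hbi : IsIntFn A N b) (heq : redExp A N f 1 = redExp A N b 1)
    (hne : redExp A N f 1 ≠ 0) : δ = 1 := by
  obtain ⟨D⟩ := nonempty_baseData hM hMN hl hlN hA
  exact D.eq_one_of_redExp hpar hl hA hln hδ hf hfi ⟨b, hb, fn_le_perFn hb, hbi⟩ heq hne

end FLTA.DeligneSerre
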