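import Fermat.Agent.DeligneSerre.Rigidity.Setting
import Mathlib.Analysis.Complex.RemovableSingularity
import Mathlib.Analysis.Calculus.Deriv.Inverse

/-!
# Dividing by `Z - z₀`

Owner: helper5.

A twisted function which vanishes at every zero of `Z - z₀` is `(Z - z₀)` times a twisted function.
-/

set_option autoImplicit false

noncomputable section

open scoped MatrixGroups Topology
open UpperHalfPlane hiding I
open CongruenceSubgroup Filter Function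

namespace FLTA.DeligneSerre

open FLTA.Bridge (Hol GrowthInfty HolInfty)
open ModularCurve (coeffMap)

local notation "Qb" => AlgebraicClosure ℚ
local notation "𝕢" => Function.Periodic.qParam

theorem hasDerivAt_of_hol {F : ℍ → ℂ} (hF : F ∈ Hol) (τ : ℍ) :
    HasDerivAt (F ∘ ofComplex) (deriv (F ∘ ofComplex) (τ : ℂ)) (τ : ℂ) :=
  (FLTA.Bridge.analyticAt_of_mem_hol hF τ).differentiableAt.hasDerivAt

/-- Dividing by a function with simple zeros. -/
theorem exists_hol_div {F t : ℍ → ℂ} (hF : F ∈ Hol) (ht : t ∈ Hol)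
    (hsimple : ∀ τ, t τ = 0 → deriv (t ∘ ofComplex) (τ : ℂ) ≠ 0)
    (hzero : ∀ τ, t τ = 0 → F τ = 0) : ∃ ψ ∈ Hol, F = t * ψ := by
  classical
  set f := F ∘ ofComplex with hf
  set s := t ∘ ofComplex with hs
  set φ : ℂ → ℂ := fun w => if s w = 0 then deriv f w / deriv s w else f w / s w with hφ
  refine ⟨fun τ => φ τ, ?_, funext fun τ => ?_⟩
  · rw [FLTA.Bridge.mem_hol_iff_differentiableOn]
    intro a ha
    refine (DifferentiableAt.congr_of_eventuallyEq (f := φ) ?_ ?_).differentiableWithinAt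
    rotate_left
    · filter_upwards [isOpen_upperHalfPlaneSet.mem_nhds ha] with w hw
      simp only [comp_apply, ofComplex_apply_of_im_pos hw]
    have hU := isOpen_upperHalfPlaneSet.mem_nhds ha
    have hfd : DifferentiableOn ℂ f {z | 0 < z.im} :=
      FLTA.Bridge.mem_hol_iff_differentiableOn.1 hF
    have hsd : DifferentiableOn ℂ s {z | 0 < z.im} :=
      FLTA.Bridge.mem_hol_iff_differentiableOn.1 ht
    by_cases h0 : s a = 0
    · have ht0 : t ⟨a, ha⟩ = 0 := by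
        rw [← h0]; simp [hs, ofComplex_apply_of_im_pos ha]
      have hd : deriv s a ≠ 0 := hsimple ⟨a, ha⟩ ht0
      have hf0 : f a = 0 := by
        rw [hf, comp_apply, ofComplex_apply_of_im_pos ha]; exact hzero _ ht0
      have h1 := ((Complex.differentiableOn_dslope hU).2 hfd).differentiableAt hU
      have h2 := ((Complex.differentiableOn_dslope hU).2 hsd).differentiableAt hU
      have hne : dslope s a a ≠ 0 := by rwa [dslope_same]
      refine (h1.div h2 hne).congr_of_eventuallyEq ?_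
      filter_upwards [h2.continuousAt.eventually_ne hne] with w hw
      rcases eq_or_ne w a with rfl | hwa
      · simp only [hφ, if_pos h0, Pi.div_apply, dslope_same]
      · have e1 : ∀ g : ℂ → ℂ, g a = 0 → dslope g a w = g w / (w - a) := fun g hg => by
          rw [dslope_of_ne _ hwa, slope_def_field, hg, sub_zero]
        have hwa' : w - a ≠ 0 := sub_ne_zero.2 hwa
        rw [e1 s h0] at hw
        have hsw : s w ≠ 0 := fun h => hw (by rw [h, zero_div])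
        simp only [hφ, if_neg hsw, Pi.div_apply, e1 f hf0, e1 s h0]
        field_simp
    · refine ((hfd.differentiableAt hU).div (hsd.differentiableAt hU) h0).congr_of_eventuallyEq ?_
      filter_upwards [(hsd.differentiableAt hU).continuousAt.eventually_ne h0] with w hw
      simp only [hφ, if_neg hw, Pi.div_apply]
  · simp only [Pi.mul_apply, hφ, hf, hs, comp_apply, ofComplex_apply]
    split_ifs with h0
    · rw [hzero τ h0, h0, zero_mul]
    · rw [mul_div_cancel₀ _ h0]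

/-- A nonzero periodic function is bounded below by a power of `q` near `i∞`. -/
theorem growthInfty_inv {h : ℕ} [NeZero h] {T : ℍ → ℂ} (hT : T ∈ HolInfty h) (h0 : T ≠ 0) :
    GrowthInfty T⁻¹ ∧ ∀ᶠ τ in atImInfty, T τ ≠ 0 := by
  obtain ⟨n, hn⟩ := hT.2.2
  set G : ℍ → ℂ := fun τ => 𝕢 1 τ ^ n * T τ with hG
  have hGm : G ∈ HolInfty h := FLTA.Bridge.qParam_pow_mul_mem h hT n
  have hh := FLTA.Bridge.natCast_period_pos h
  have hper : Periodic (G ∘ ofComplex) ((h : ℝ) : ℂ) := by simpa using hGm.2.1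
  have hga := FLTA.Bridge.analyticAt_cuspFunction h hGm hn
  have hnev : ¬ ∀ᶠ w in 𝓝 (0 : ℂ), cuspFunction (h : ℝ) G w = 0 := by
    intro hev
    have hq : qExpansion (h : ℝ) G = 0 := by
      ext m
      have h3 : iteratedDeriv m (cuspFunction (h : ℝ) G) 0 =
          iteratedDeriv m (fun _ : ℂ => (0 : ℂ)) 0 :=
        Filter.EventuallyEq.iteratedDeriv_eq m hev
      rw [qExpansion_coeff, h3, iteratedDeriv_const]
      simp
    rw [qExpansion_eq_zero_iff hh hper hGm.1 hn] at hq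
    refine h0 (funext fun τ => ?_)
    simpa [hG, Periodic.qParam_ne_zero] using congrFun hq τ
  obtain ⟨r, u, hu, hu0, hev⟩ := hga.exists_eventuallyEq_pow_smul_nonzero_iff.2 hnev
  have hlim : Tendsto (fun τ : ℍ => 𝕢 (h : ℝ) τ) atImInfty (𝓝 0) := qParam_tendsto_atImInfty hh
  have hc : (0 : ℝ) < ‖u 0‖ := norm_pos_iff.2 hu0
  have hbig : ∀ᶠ w in 𝓝 (0 : ℂ), ‖u 0‖ / 2 ≤ ‖u w‖ :=
    (hu.continuousAt.norm.eventually_const_lt (half_lt_self hc)).mono fun w hw => hw.le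
  have hkey : ∀ᶠ τ : ℍ in atImInfty, ‖𝕢 (h : ℝ) τ‖ ^ r * (‖u 0‖ / 2) ≤ ‖G τ‖ := by
    filter_upwards [hlim.eventually (hev.and hbig)] with τ hτ
    rw [eq_cuspFunction τ hh.ne' hper] at hτ
    rw [hτ.1, sub_zero, norm_smul, norm_pow]
    exact mul_le_mul_of_nonneg_left hτ.2 (by positivity)
  have hne : ∀ᶠ τ : ℍ in atImInfty, T τ ≠ 0 := by
    filter_upwards [hkey] with τ hτ h1
    rw [hG] at hτ
    simp only [h1, mul_zero, norm_zero] at hτ
    have : (0 : ℝ) < ‖𝕢 (h : ℝ) (τ : ℂ)‖ ^ r * (‖u 0‖ / 2) := by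
      have := norm_pos_iff.2 (Periodic.qParam_ne_zero (h := (h : ℝ)) (τ : ℂ))
      positivity
    linarith
  refine ⟨⟨r, ?_⟩, hne⟩
  refine Asymptotics.IsBigO.of_bound (2 / ‖u 0‖) ?_
  filter_upwards [hkey, hne] with τ hτ hτ0
  simp only [Pi.one_apply, norm_one, mul_one, Pi.inv_apply, norm_mul, norm_pow, norm_inv]
  have hT0 : (0 : ℝ) < ‖T τ‖ := norm_pos_iff.2 hτ0
  have hq1 : ‖𝕢 1 (τ : ℂ)‖ ≤ 1 := (norm_qParam_lt_one_of_im_pos τ).le
  have hqh : ‖𝕢 (h : ℝ) (τ : ℂ)‖ ≤ 1 := by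
    rw [Periodic.norm_qParam, Real.exp_le_one_iff]
    have := τ.im_pos
    have h2 : -2 * Real.pi * (τ : ℂ).im ≤ 0 := by
      rw [coe_im]; nlinarith [Real.pi_pos]
    exact div_nonpos_of_nonpos_of_nonneg h2 hh.le
  have hqle : ‖𝕢 1 (τ : ℂ)‖ ^ r ≤ ‖𝕢 (h : ℝ) (τ : ℂ)‖ ^ r := by
    refine pow_le_pow_left₀ (norm_nonneg _) ?_ r
    rw [FLTA.Bridge.qParam_one_eq_pow h, norm_pow]
    exact pow_le_of_le_one (norm_nonneg _) hqh (NeZero.ne h)
  have hGle : ‖G τ‖ ≤ ‖T τ‖ := by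
    rw [hG, norm_mul, norm_pow]
    exact mul_le_of_le_one_left hT0.le (pow_le_one₀ (norm_nonneg _) hq1)
  rw [mul_inv_le_iff₀ hT0, div_mul_eq_mul_div, le_div_iff₀ hc]
  nlinarith [mul_le_mul_of_nonneg_right hqle hc.le]
where
  norm_qParam_lt_one_of_im_pos (τ : ℍ) : ‖𝕢 1 (τ : ℂ)‖ < 1 := by
    rw [Periodic.norm_qParam, Real.exp_lt_one_iff, div_one, coe_im]
    nlinarith [Real.pi_pos, τ.im_pos]

variable {A : ValuationSubring Qb} {N : ℕ} [NeZero N]

/-- Algebraicity of a quotient. -/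
theorem isAlgFn_of_mul {x y : ℍ → ℂ} (hx : x ∈ PerFn N) (hy : y ∈ AlgFn N) (hy0 : y ≠ 0)
    (hxy : x * y ∈ AlgFn N) : x ∈ AlgFn N := by
  refine ⟨hx, isAlgFn_iff.2 fun g => ?_⟩
  obtain ⟨Y, hY⟩ := isAlgFn_iff.1 hy.2 g
  obtain ⟨X, hX⟩ := isAlgFn_iff.1 hxy.2 g
  have hne : cexp N y g ≠ 0 := fun h => hy0 ((cexp_eq_zero_iff hy.1 g).1 h)
  refine ⟨X * Y⁻¹, ?_⟩
  rw [map_mul, map_inv₀, hX, hY, cexp_mul hx hy.1, mul_assoc, mul_inv_cancel₀ hne, mul_one]

namespace BaseData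

variable (D : BaseData A N)

theorem hol_sub_const (z₀ : ℂ) : D.Z - algebraMap ℂ (ℍ → ℂ) z₀ ∈ Hol :=
  sub_mem D.Z_mem.1.1 (Subalgebra.algebraMap_mem _ _)

theorem Z_sub_const_ne_zero (z₀ : ℂ) : D.Z - algebraMap ℂ (ℍ → ℂ) z₀ ≠ 0 := by
  intro h
  refine D.deriv_ne UpperHalfPlane.I ?_
  rw [sub_eq_zero] at h
  rw [h]
  exact deriv_const _ _

theorem deriv_Z_sub_const (z₀ : ℂ) (τ : ℍ) :
    deriv ((D.Z - algebraMap ℂ (ℍ → ℂ) z₀) ∘ ofComplex) (τ : ℂ) ≠ 0 := by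
  rw [show (D.Z - algebraMap ℂ (ℍ → ℂ) z₀) ∘ ofComplex = fun w => (D.Z ∘ ofComplex) w - z₀ from rfl,
    deriv_sub_const]
  exact D.deriv_ne τ

/-- Division of a twisted function by `Z - z₀`. -/
theorem exists_tw_div {δ : Gamma N →* ℂ} {F : ℍ → ℂ} (hF : F ∈ Tw N δ) (z₀ : ℂ)
    (hzero : ∀ τ, D.Z τ = z₀ → F τ = 0) :
    ∃ ψ ∈ Tw N δ, F = (D.Z - algebraMap ℂ (ℍ → ℂ) z₀) * ψ := by
  set t := D.Z - algebraMap ℂ (ℍ → ℂ) z₀ with ht
  obtain ⟨ψ, hψ, hFψ⟩ := exists_hol_div hF.1 (D.hol_sub_const z₀)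
    (fun τ _ => D.deriv_Z_sub_const z₀ τ) (fun τ hτ => hzero τ (sub_eq_zero.1 hτ))
  rw [← ht] at hFψ
  refine ⟨ψ, ⟨hψ, fun γ τ => ?_, fun g => ?_⟩, hFψ⟩
  · have hinv : ∀ σ : ℍ, t ((γ : SL(2, ℤ)) • σ) = t σ := fun σ =>
      congrArg (· - z₀) (D.Z_inv _ (D.hlev γ.2) σ)
    have h1 : (⟨fun σ => ψ ((γ : SL(2, ℤ)) • σ), comp_smul_mem_hol' hψ _⟩ : Hol) *
        ⟨t, D.hol_sub_const z₀⟩ = ⟨δ γ • ψ, Hol.smul_mem hψ _⟩ * ⟨t, D.hol_sub_const z₀⟩ :=
      Subtype.ext (funext fun σ => by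
        have e := hF.2.1 γ σ
        rw [hFψ] at e
        simp only [Pi.mul_apply, hinv] at e
        show ψ ((γ : SL(2, ℤ)) • σ) * t σ = δ γ * ψ σ * t σ
        rw [mul_comm, e]
        ring)
    have h2 := mul_right_cancel₀
      (fun h => D.Z_sub_const_ne_zero z₀ (congrArg Subtype.val h)) h1
    exact congrFun (congrArg Subtype.val h2) τ
  · have htg : (fun σ : ℍ => t (g • σ)) ∈ HolInfty N :=
      sub_mem (D.Z_mem.2.1 g) (Subalgebra.algebraMap_mem _ _)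
    have htg0 : (fun σ : ℍ => t (g • σ)) ≠ 0 := fun h => D.Z_sub_const_ne_zero z₀ (funext fun σ => by
      have e := congrFun h (g⁻¹ • σ)
      simp only [← mul_smul, mul_inv_cancel, one_smul] at e
      exact e)
    obtain ⟨hinvg, hne⟩ := growthInfty_inv htg htg0
    obtain ⟨m, hm⟩ := (hF.2.2 g).mul hinvg
    refine ⟨m, hm.congr' ?_ EventuallyEq.rfl⟩
    filter_upwards [hne] with σ hσ
    show 𝕢 1 (σ : ℂ) ^ m * (F (g • σ) * (t (g • σ))⁻¹) = 𝕢 1 (σ : ℂ) ^ m * ψ (g • σ)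
    rw [hFψ, Pi.mul_apply, mul_comm (t _) _, mul_assoc, mul_inv_cancel₀ hσ, mul_one]

/-- Division in the algebraic invariant functions. -/
theorem exists_bAlg_div {F : ℍ → ℂ} (hF : F ∈ BAlg N) (z₀ : Qb)
    (hzero : ∀ τ, D.Z τ = iota z₀ → F τ = 0) :
    ∃ ψ ∈ BAlg N, F = (D.Z - algebraMap ℂ (ℍ → ℂ) (iota z₀)) * ψ := by
  obtain ⟨ψ, hψ, hFψ⟩ := D.exists_tw_div (mem_tw_one_iff.2 hF.1) (iota z₀) hzero
  have hψn := mem_tw_one_iff.1 hψ
  exact ⟨ψ, ⟨hψn, isAlgFn_of_mul (fn_le_perFn hψn)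
    (sub_mem (bRing_le_bAlg D.Z_mem).2 (const_mem_algFn z₀)) (D.Z_sub_const_ne_zero _)
    (by rw [mul_comm, ← hFψ]; exact hF.2)⟩, hFψ⟩

end BaseData

end FLTA.DeligneSerre
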