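import Fermat.Agent.DeligneSerre.Rigidity.RedRing

/-!
# The points above a value of `Z`

Owner: helper5.

* `exists_eq_comp_of_agree`: a ring map on `BRing` into a field which agrees on the invariant
  functions with another one is one of its conjugates.
* `exists_rep_apply_eq`: all points above a value of `Z` are, for `BAlg`, among the translates
  `h • τ` of one of them.
* values at a point above an algebraic (integral) value of `Z` are algebraic (integral).
* `exists_point_delta`: an integral function which is `1` at one translate and `0` at the others.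
-/

set_option autoImplicit false

noncomputable section

open scoped MatrixGroups
open UpperHalfPlane hiding I
open CongruenceSubgroup Polynomial

namespace FLTA.DeligneSerre

local notation "Qb" => AlgebraicClosure ℚ

variable {A : ValuationSubring Qb} {N : ℕ} [NeZero N]

/-- Complex roots of polynomials over the algebraic numbers are algebraic. -/
theorem exists_qb_of_root {p : Qb[X]} (hp : p ≠ 0) {z : ℂ} (hz : (p.map iota).IsRoot z) :
    ∃ a : Qb, iota a = z := by
  have h : z ∈ (p.map iota).roots :=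
    (Polynomial.mem_roots (Polynomial.map_ne_zero hp)).2 hz
  rw [← Polynomial.roots_map_of_injective_of_card_eq_natDegree iota.injective
    (IsAlgClosed.card_roots_eq_natDegree), Multiset.mem_map] at h
  obtain ⟨a, -, ha⟩ := h
  exact ⟨a, ha⟩

/-- Evaluation at a point, on `BRing`. -/
def pointEval (τ : ℍ) : BRing A N →+* ℂ :=
  (Pi.evalRingHom (fun _ : ℍ => ℂ) τ).comp (BRing A N).subtype

theorem pointEval_apply (τ : ℍ) (F : BRing A N) : pointEval τ F = (F : ℍ → ℂ) τ := rfl

namespace BaseData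

variable (D : BaseData A N)

/-- A ring map into a field agreeing with `ev` on invariant functions is a conjugate of `ev`. -/
theorem exists_eq_comp_of_agree {K : Type*} [Field K] (ev χ : BRing A N →+* K)
    (hag : ∀ F : BRing A N, (∀ γ ∈ Gamma D.M, compHom γ (F : ℍ → ℂ) = F) → χ F = ev F) :
    ∃ h ∈ D.reps, ∀ y : BRing A N, χ y = ev ⟨compHom h y, compHom_mem_bRing y.2 h⟩ := by
  classical
  let σ : SL(2, ℤ) → BRing A N → BRing A N := fun h y => ⟨_, compHom_mem_bRing y.2 h⟩
  let U : Fin D.m → BRing A N := fun j => ⟨D.u j, D.u_mem j⟩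
  let W : Fin D.m → BRing A N := fun j => ⟨D.w j, D.w_mem j⟩
  let c : SL(2, ℤ) → K := fun h => ∑ j, ev (σ h (W j)) * χ (U j)
  have hσ : ∀ h (a b : BRing A N), σ h (a * b) = σ h a * σ h b := fun h a b =>
    Subtype.ext (map_mul (compHom h) (a : ℍ → ℂ) b)
  have hmain : ∀ y : BRing A N, χ y = ∑ h ∈ D.reps, ev (σ h y) * c h := by
    intro y
    have hy : y = ∑ j, ⟨D.tr ((y : ℍ → ℂ) * D.w j), D.tr_mem (mul_mem y.2 (D.w_mem j))⟩ * U j :=
      Subtype.ext (by rw [AddSubmonoidClass.coe_finsetSum]; exact D.eq_sum_tr y)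
    have htr : ∀ j, (⟨D.tr ((y : ℍ → ℂ) * D.w j), D.tr_mem (mul_mem y.2 (D.w_mem j))⟩ :
        BRing A N) = ∑ h ∈ D.reps, σ h (y * W j) :=
      fun j => Subtype.ext (by rw [AddSubmonoidClass.coe_finsetSum]; rfl)
    conv_lhs => rw [hy, map_sum]
    simp only [map_mul, c, Finset.mul_sum]
    rw [Finset.sum_comm]
    refine Finset.sum_congr rfl fun j _ => ?_
    rw [hag _ (D.compHom_tr_mul y (W j)), htr, map_sum, Finset.sum_mul]
    exact Finset.sum_congr rfl fun h _ => by rw [hσ, map_mul]; ring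
  have hsep : ∀ h ∈ D.reps, ∀ h' ∈ D.reps,
      (∑ j, ev (σ h (W j)) * ev (σ h' (U j))) = if h' = h then 1 else 0 := by
    intro h hh h' hh'
    have := congrArg ev (D.separ_fun hh' hh)
    rw [map_sum, apply_ite ev, map_one, map_zero] at this
    rw [← this]
    exact Finset.sum_congr rfl fun j _ => by rw [map_mul]; ring
  have hmul : ∀ h ∈ D.reps, ∀ y, c h * χ y = ev (σ h y) * c h := by
    intro h hh y
    calc c h * χ y = ∑ j, ev (σ h (W j)) * χ (U j * y) := by
          simp only [c, Finset.sum_mul, map_mul, mul_assoc]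
      _ = ∑ h' ∈ D.reps,
            (∑ j, ev (σ h (W j)) * ev (σ h' (U j))) * (ev (σ h' y) * c h') := by
          simp only [hmain (_ * y), hσ, map_mul, Finset.mul_sum, Finset.sum_mul]
          rw [Finset.sum_comm]
          exact Finset.sum_congr rfl fun _ _ => Finset.sum_congr rfl fun _ _ => by ring
      _ = ev (σ h y) * c h := by
          rw [Finset.sum_eq_single_of_mem h hh fun b hb hne => by
            rw [hsep h hh b hb, if_neg hne, zero_mul]]
          rw [hsep h hh h hh, if_pos rfl, one_mul]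
  obtain ⟨h, hh, hc⟩ : ∃ h ∈ D.reps, c h ≠ 0 := by
    by_contra hc
    push Not at hc
    have := hmain 1
    rw [map_one, Finset.sum_eq_zero fun h hh => by rw [hc h hh, mul_zero]] at this
    exact one_ne_zero this
  exact ⟨h, hh, fun y => mul_left_cancel₀ hc (by rw [hmul h hh y]; ring)⟩

theorem W_eq_of_Z_eq {τ τ' : ℍ} (h : D.Z τ' = D.Z τ) : D.W τ' = D.W τ := by
  have h1 := D.W_mul τ'
  rw [h] at h1
  exact mul_right_cancel₀ (right_ne_zero_of_mul_eq_one (D.W_mul τ)) (h1.trans (D.W_mul τ).symm)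

/-- Invariant functions take equal values above a value of `Z`. -/
theorem invariant_apply_eq {F : BRing A N} (hF : ∀ γ ∈ Gamma D.M, compHom γ (F : ℍ → ℂ) = F)
    {τ τ' : ℍ} (h : D.Z τ' = D.Z τ) : (F : ℍ → ℂ) τ' = (F : ℍ → ℂ) τ := by
  obtain ⟨p, K, hp⟩ := D.exists_inv'_of_invariant F.2 hF
  rw [hp]
  simp only [inv', Pi.mul_apply, Pi.pow_apply, polyZ_apply, h, D.W_eq_of_Z_eq h]

theorem eq_div_of_smul {c : A} (hc : c ≠ 0) {F : ℍ → ℂ} (τ : ℍ) :
    F τ = (iota (c : Qb))⁻¹ * (iota (c : Qb) • F) τ := by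
  have : iota (c : Qb) ≠ 0 := fun h0 =>
    hc (Subtype.ext (iota.injective (h0.trans (map_zero iota).symm)))
  rw [Pi.smul_apply, smul_eq_mul, inv_mul_cancel_left₀ this]

/-- The points above a value of `Z` are translates of one of them. -/
theorem exists_rep_apply_eq {τ τ' : ℍ} (h : D.Z τ' = D.Z τ) :
    ∃ g ∈ D.reps, ∀ F ∈ BAlg N, F τ' = F (g • τ) := by
  obtain ⟨g, hg, hy⟩ := D.exists_eq_comp_of_agree (pointEval τ) (pointEval τ')
    fun F hF => D.invariant_apply_eq hF h
  refine ⟨g, hg, fun F hF => ?_⟩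
  obtain ⟨c, hc, hmem⟩ := D.denom F hF
  rw [eq_div_of_smul hc (F := F) τ', eq_div_of_smul hc (F := F) (g • τ)]
  have := hy ⟨_, hmem⟩
  simp only [pointEval_apply, compHom_apply] at this
  rw [this]

/-- The values at a point above an algebraic value of `Z` are algebraic. -/
theorem exists_iota_eq_apply {τ : ℍ} {z₀ : Qb} (hz : D.Z τ = iota z₀) {F : ℍ → ℂ}
    (hF : F ∈ BAlg N) : ∃ a : Qb, iota a = F τ := by
  suffices key : ∀ y : BRing A N, ∃ a : Qb, iota a = (y : ℍ → ℂ) τ by
    obtain ⟨c, hc, hmem⟩ := D.denom F hF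
    obtain ⟨a, ha⟩ := key ⟨_, hmem⟩
    exact ⟨(c : Qb)⁻¹ * a, by rw [map_mul, map_inv₀, ha, ← eq_div_of_smul hc τ]⟩
  intro y
  let p : (BRing A N)[X] := ∏ g ∈ D.reps,
    (Polynomial.X - C (⟨compHom g y, compHom_mem_bRing y.2 g⟩ : BRing A N))
  have hmon : p.Monic := monic_prod_of_monic _ _ fun _ _ => monic_X_sub_C _
  have hinv : ∀ i, ∀ γ ∈ Gamma D.M, compHom γ ((p.coeff i : BRing A N) : ℍ → ℂ) = p.coeff i := by
    intro i γ hγ
    have hp : p.map (BRing A N).subtype = D.charp y := by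
      rw [Polynomial.map_prod, charp]
      exact Finset.prod_congr rfl fun g _ => by simp
    have hc := D.charp_coeff_inv y.2.1 hγ i
    rwa [← hp, Polynomial.coeff_map] at hc
  have hP : (D.P.map A.subtype).eval z₀ ≠ 0 := fun h0 => by
    have h1 := D.W_mul τ
    rw [hz, iotaA, ← Polynomial.map_map, Polynomial.eval_map_apply, h0, map_zero, mul_zero] at h1
    exact zero_ne_one h1
  have hl : p.map (pointEval τ) ∈ Polynomial.lifts iota := by
    rw [Polynomial.lifts_iff_coeff_lifts]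
    intro i
    rw [Polynomial.coeff_map, pointEval_apply]
    obtain ⟨q, K, hq⟩ := D.exists_inv'_of_invariant (p.coeff i).2 (hinv i)
    refine ⟨((D.P.map A.subtype).eval z₀)⁻¹ ^ K * (q.map A.subtype).eval z₀, ?_⟩
    rw [hq, inv', Pi.mul_apply, Pi.pow_apply, polyZ_apply,
      eq_inv_of_mul_eq_one_left (D.W_mul τ), hz, iotaA, ← Polynomial.map_map, ← Polynomial.map_map,
      Polynomial.eval_map_apply, Polynomial.eval_map_apply, map_mul, map_pow, map_inv₀]
  obtain ⟨q, hq, -, hqm⟩ := Polynomial.lifts_and_degree_eq_and_monic hl (hmon.map _)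
  refine exists_qb_of_root hqm.ne_zero ?_
  rw [Polynomial.IsRoot, hq, Polynomial.eval_map, ← compHom_one (y : ℍ → ℂ)]
  rw [show compHom 1 (y : ℍ → ℂ) τ = pointEval τ (⟨_, compHom_mem_bRing y.2 1⟩ : BRing A N) from rfl,
    Polynomial.eval₂_hom, Polynomial.eval_prod, Finset.prod_eq_zero D.one_mem_reps (by simp),
    map_zero]

theorem W_apply {τ : ℍ} {z₀ : A} (hz : D.Z τ = iota (z₀ : Qb)) :
    D.W τ = (iota ((D.P.eval z₀ : A) : Qb))⁻¹ := by
  refine eq_inv_of_mul_eq_one_left ?_
  have h := D.W_mul τ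
  rwa [hz, ← iotaA_apply, Polynomial.eval_map_apply, iotaA_apply] at h

theorem inv'_apply {τ : ℍ} {z₀ : A} (hz : D.Z τ = iota (z₀ : Qb)) (p : A[X]) (K : ℕ) :
    D.inv' p K τ = (iota ((D.P.eval z₀ : A) : Qb))⁻¹ ^ K * iota ((p.eval z₀ : A) : Qb) := by
  rw [inv', Pi.mul_apply, Pi.pow_apply, polyZ_apply, D.W_apply hz, hz, ← iotaA_apply A z₀,
    Polynomial.eval_map_apply]
  rfl

/-- The values of `BRing` at a point above an integral value of `Z` off the cusps are integral. -/
theorem exists_iotaA_eq_apply {τ : ℍ} {z₀ : A} (hz : D.Z τ = iota (z₀ : Qb))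
    (hP : IsUnit (D.P.eval z₀)) (y : BRing A N) : ∃ a : A, iota (a : Qb) = (y : ℍ → ℂ) τ := by
  obtain ⟨b, hb⟩ := D.exists_iota_eq_apply hz (bRing_le_bAlg y.2)
  let p : (BRing A N)[X] := ∏ g ∈ D.reps,
    (Polynomial.X - C (⟨compHom g y, compHom_mem_bRing y.2 g⟩ : BRing A N))
  have hmon : p.Monic := monic_prod_of_monic _ _ fun _ _ => monic_X_sub_C _
  have hp : p.map (BRing A N).subtype = D.charp y := by
    rw [Polynomial.map_prod, charp]
    exact Finset.prod_congr rfl fun g _ => by simp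
  have hl : p.map (pointEval τ) ∈ Polynomial.lifts (iotaA A) := by
    rw [Polynomial.lifts_iff_coeff_lifts]
    intro i
    rw [Polynomial.coeff_map, pointEval_apply]
    have hinv : ∀ γ ∈ Gamma D.M, compHom γ ((p.coeff i : BRing A N) : ℍ → ℂ) = p.coeff i := by
      intro γ hγ
      have hc := D.charp_coeff_inv y.2.1 hγ i
      rwa [← hp, Polynomial.coeff_map] at hc
    obtain ⟨q, K, hq⟩ := D.exists_inv'_of_invariant (p.coeff i).2 hinv
    obtain ⟨v, hv⟩ := hP
    refine ⟨(↑v⁻¹ : A) ^ K * q.eval z₀, ?_⟩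
    rw [hq, D.inv'_apply hz, map_mul, map_pow, ← hv]
    simp only [iotaA_apply]
    congr 2
    refine eq_inv_of_mul_eq_one_left ?_
    rw [← map_mul, ← MulMemClass.coe_mul, Units.inv_mul]
    simp
  obtain ⟨q, hq, -, hqm⟩ := Polynomial.lifts_and_degree_eq_and_monic hl (hmon.map _)
  have hroot : (q.map A.subtype).IsRoot b := by
    refine iota.injective ?_
    rw [map_zero, ← Polynomial.eval₂_hom, ← Polynomial.eval_map, Polynomial.map_map, ← iotaA, hq,
      hb, show (y : ℍ → ℂ) τ = pointEval τ (⟨_, compHom_mem_bRing y.2 1⟩ : BRing A N) by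
        rw [pointEval_apply]; exact (congrFun (compHom_one (y : ℍ → ℂ)) τ).symm,
      Polynomial.eval_map, Polynomial.eval₂_hom, Polynomial.eval_prod,
      Finset.prod_eq_zero D.one_mem_reps (by simp), map_zero]
  exact ⟨⟨b, mem_of_monic_root q hqm hroot⟩, hb⟩

/-- An integral function which is `1` at `g₀ • τ` and `0` at the other translates. -/
theorem exists_point_delta {τ : ℍ} {z₀ : A} (hz : D.Z τ = iota (z₀ : Qb))
    (hP : IsUnit (D.P.eval z₀)) {g₀ : SL(2, ℤ)} (hg₀ : g₀ ∈ D.reps) :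
    ∃ E : BRing A N, ∀ g ∈ D.reps, (E : ℍ → ℂ) (g • τ) = if g = g₀ then 1 else 0 := by
  have hz' : D.Z (g₀ • τ) = iota (z₀ : Qb) := by rw [D.Z_inv g₀ (D.reps_mem g₀ hg₀), hz]
  choose a ha using fun j => D.exists_iotaA_eq_apply hz' hP ⟨D.w j, D.w_mem j⟩
  refine ⟨⟨∑ j, iota (a j : Qb) • D.u j, sum_mem fun j _ => smul_mem_bRing (a j) (D.u_mem j)⟩,
    fun g hg => ?_⟩
  rw [← D.separ g hg g₀ hg₀ τ]
  show (∑ j, iota (a j : Qb) • D.u j) (g • τ) = _
  rw [Finset.sum_apply]
  exact Finset.sum_congr rfl fun j _ => by rw [Pi.smul_apply, smul_eq_mul, ha, mul_comm]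

end BaseData

end FLTA.DeligneSerre
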