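import Fermat.Agent.DeligneSerre.Rigidity.Twist
import Fermat.Agent.DeligneSerre.Rigidity.Points
import Fermat.Agent.DeligneSerre.Rigidity.Divide

/-!
# Twisted functions not vanishing at given points of the affine chart

Owner: helper5.

Induction on the multiplicity of `z` as a root of the reduced norm polynomial of `g ^ n`: if it is
positive, `g` vanishes at a point `h • τ` above a lift `z₀` of `z`; with `E` integral, `1` at that
point and `0` at the others above `z₀`, the function `g * (E² + (Z - z₀) (1 - E)) / (Z - z₀)` is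
twisted, integral, and the multiplicity has dropped by `n`.
-/

set_option autoImplicit false

noncomputable section

open scoped MatrixGroups Topology
open UpperHalfPlane hiding I
open CongruenceSubgroup Polynomial Filter

namespace FLTA.DeligneSerre.BaseData

local notation "Qb" => AlgebraicClosure ℚ

variable {A : ValuationSubring Qb} {N : ℕ} [NeZero N] (D : BaseData A N)

/-! ## Algebra of `inv'` -/

theorem inv'_mul_inv' (p q : A[X]) (K L : ℕ) :
    D.inv' p K * D.inv' q L = D.inv' (p * q) (K + L) := by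
  simp only [inv', map_mul, pow_add]
  ring

theorem inv'_pow (p : A[X]) (K n : ℕ) : D.inv' p K ^ n = D.inv' (p ^ n) (K * n) := by
  simp only [inv', map_pow, mul_pow, pow_mul]

theorem polyZ_X_sub_C (a : A) :
    D.polyZ (X - C a) = D.Z - algebraMap ℂ (ℍ → ℂ) (iota (a : Qb)) := by
  simp [polyZ, iotaA_apply]

theorem norm_pow' (F : ℍ → ℂ) (k : ℕ) : D.norm (F ^ k) = D.norm F ^ k := by
  simp only [norm, map_pow, Finset.prod_pow]

theorem norm_polyZ (p : A[X]) : D.norm (D.polyZ p) = D.polyZ p ^ D.reps.card := by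
  rw [norm, Finset.prod_congr rfl fun h hh => ?_, Finset.prod_const]
  funext τ
  rw [compHom_apply, polyZ_apply, polyZ_apply, D.Z_inv h (D.reps_mem h hh)]

theorem redAt_norm (F : BRing A N) :
    redAt 1 ⟨D.norm F, D.norm_mem F.2⟩ = ∏ h ∈ D.reps, redAt h F := by
  rw [show (⟨D.norm F, D.norm_mem F.2⟩ : BRing A N) =
      ∏ h ∈ D.reps, ⟨compHom h F, compHom_mem_bRing F.2 h⟩ from
    Subtype.ext (by rw [SubmonoidClass.coe_finsetProd]; rfl), map_prod]
  exact Finset.prod_congr rfl fun h _ => by rw [redAt_comp, mul_one]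

/-- Equal functions `W ^ K * p(Z)` have equal reduced polynomials, up to powers of the reduced
`P`. -/
theorem map_eq_of_inv'_eq {a b : A[X]} {K L : ℕ} (h : D.inv' a K = D.inv' b L) :
    a.map (IsLocalRing.residue A) * D.rP ^ L = b.map (IsLocalRing.residue A) * D.rP ^ K := by
  have e : redAt 1 ⟨D.inv' a K, D.inv'_mem a K⟩ = redAt 1 ⟨D.inv' b L, D.inv'_mem b L⟩ :=
    congrArg (redAt 1) (Subtype.ext h)
  rw [redAt_inv', redAt_inv', inv_pow, inv_pow] at e
  have hP := D.aeval_rP_ne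
  field_simp at e
  by_contra hne
  refine aeval_ne_zero_of_order_neg D.rZ_order_neg (sub_ne_zero.2 hne) ?_
  rw [map_sub, map_mul, map_mul, map_pow, map_pow]
  linear_combination e

/-! ## The local computation -/

/-- The norm of `E² + (Z - z₀) (1 - E)`: a zero of exact order `d - 1` at `z₀`, unit cofactor. -/
theorem exists_norm_factor {τ : ℍ} {z₀ : A} (hz : D.Z τ = iota (z₀ : Qb))
    {g₀ : SL(2, ℤ)} (hg₀ : g₀ ∈ D.reps) (E : BRing A N)
    (hE : ∀ g ∈ D.reps, (E : ℍ → ℂ) (g • τ) = if g = g₀ then 1 else 0)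
    (r : A[X]) (L : ℕ)
    (hr : D.norm ((E : ℍ → ℂ) ^ 2 + D.polyZ (X - C z₀) * (1 - (E : ℍ → ℂ))) = D.inv' r L) :
    ∃ q : A[X], r = (X - C z₀) ^ (D.reps.card - 1) * q ∧ q.eval z₀ = D.P.eval z₀ ^ L := by
  classical
  set T := D.polyZ (X - C z₀) with hT
  set E₂ := (E : ℍ → ℂ) ^ 2 + T * (1 - (E : ℍ → ℂ)) with hE₂
  set d := D.reps.card
  have hd : (D.reps.erase g₀).card = d - 1 := Finset.card_erase_of_mem hg₀
  have hTm : T ∈ Fn N := (D.polyZ_mem _).1
  have hT0 : T τ = 0 := by simp [hT, polyZ_X_sub_C, hz]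
  set s := T ∘ ofComplex with hs
  have hsd : HasDerivAt s (deriv s (τ : ℂ)) (τ : ℂ) := hasDerivAt_of_hol hTm.1 τ
  have hsd0 : deriv s (τ : ℂ) ≠ 0 := by
    rw [hs, hT, polyZ_X_sub_C]; exact D.deriv_Z_sub_const _ τ
  have hsne : ∀ᶠ w in 𝓝[≠] (τ : ℂ), s w ≠ 0 := hsd.eventually_ne hsd0
  have hs0 : s (τ : ℂ) = 0 := by simp [hs, ofComplex_apply, hT0]
  have hTinv : ∀ g ∈ D.reps, ∀ σ : ℍ, T (g • σ) = T σ := fun g hg σ => by
    rw [hT, polyZ_X_sub_C]
    exact congrArg (· - _) (D.Z_inv g (D.reps_mem g hg) σ)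
  have hcont : ∀ {F : ℍ → ℂ}, F ∈ FLTA.Bridge.Hol →
      Tendsto (F ∘ ofComplex) (𝓝[≠] (τ : ℂ)) (𝓝 (F τ)) := fun {F} hF => by
    have := (FLTA.Bridge.analyticAt_of_mem_hol hF τ).continuousAt.tendsto
    simp only [Function.comp_apply, ofComplex_apply] at this
    exact this.mono_left nhdsWithin_le_nhds
  have hfactor : ∀ g ∈ D.reps, g ≠ g₀ →
      Tendsto (fun w => (compHom g E₂ ∘ ofComplex) w / s w) (𝓝[≠] (τ : ℂ)) (𝓝 1) := by
    intro g hg hne
    set e := compHom g (E : ℍ → ℂ) ∘ ofComplex with he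
    have hem : compHom g (E : ℍ → ℂ) ∈ FLTA.Bridge.Hol := (compHom_mem_bRing E.2 g).1.1
    have hed : HasDerivAt e (deriv e (τ : ℂ)) (τ : ℂ) := hasDerivAt_of_hol hem τ
    have he0 : e (τ : ℂ) = 0 := by
      rw [he, Function.comp_apply, ofComplex_apply, compHom_apply, hE g hg, if_neg hne]
    have h1 := (hasDerivAt_iff_tendsto_slope.1 hed).div (hasDerivAt_iff_tendsto_slope.1 hsd) hsd0
    have h2 : Tendsto e (𝓝[≠] (τ : ℂ)) (𝓝 0) := by
      rw [← he0]; exact hed.continuousAt.tendsto.mono_left nhdsWithin_le_nhds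
    have h3 := (h2.mul h1).add ((tendsto_const_nhds (x := (1 : ℂ))).sub h2)
    rw [zero_mul, sub_zero, zero_add] at h3
    refine h3.congr' ?_
    filter_upwards [hsne, self_mem_nhdsWithin] with w hw hwa
    have hwa' : w - (τ : ℂ) ≠ 0 := sub_ne_zero.2 hwa
    have hv : (compHom g E₂ ∘ ofComplex) w = e w ^ 2 + s w * (1 - e w) := by
      simp only [he, hs, hE₂, Function.comp_apply, compHom_apply, Pi.add_apply, Pi.mul_apply,
        Pi.pow_apply, Pi.sub_apply, Pi.one_apply, hTinv g hg]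
    rw [hv, Pi.div_apply, slope_def_field, slope_def_field, he0, hs0, sub_zero, sub_zero]
    field_simp
  have hlim : Tendsto (fun w => (D.norm E₂ ∘ ofComplex) w / s w ^ (d - 1))
      (𝓝[≠] (τ : ℂ)) (𝓝 1) := by
    have h0 : compHom g₀ E₂ τ = 1 := by
      simp only [hE₂, compHom_apply, Pi.add_apply, Pi.mul_apply, Pi.pow_apply, Pi.sub_apply,
        Pi.one_apply, hTinv g₀ hg₀, hT0, hE g₀ hg₀, if_pos]
      ring
    have hm : compHom g₀ E₂ ∈ FLTA.Bridge.Hol := by
      show (fun σ : ℍ => E₂ (g₀ • σ)) ∈ FLTA.Bridge.Hol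
      refine comp_smul_mem_hol' ?_ g₀
      exact add_mem (pow_mem E.2.1.1 2) (mul_mem hTm.1 (sub_mem (one_mem _) E.2.1.1))
    have h1 := (tendsto_finsetProd (D.reps.erase g₀) fun g hg =>
      hfactor g (Finset.mem_of_mem_erase hg) (Finset.ne_of_mem_erase hg)).mul (hcont hm)
    rw [Finset.prod_const_one, one_mul, h0] at h1
    refine h1.congr fun w => ?_
    rw [Finset.prod_div_distrib, Finset.prod_const, hd, div_mul_eq_mul_div]
    congr 1
    simp only [Function.comp_apply, norm, Finset.prod_apply]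
    exact Finset.prod_erase_mul _ (fun g => compHom g E₂ (ofComplex w)) hg₀
  rw [hr] at hlim
  have hr0 : r ≠ 0 := by
    rintro rfl
    refine zero_ne_one (tendsto_nhds_unique ?_ hlim : (0 : ℂ) = 1)
    simp [inv']
  obtain ⟨q, hq, hq0⟩ := exists_eq_pow_rootMultiplicity_mul_and_not_dvd r hr0 z₀
  set m := r.rootMultiplicity z₀
  rw [dvd_iff_isRoot] at hq0
  have hu := hcont (F := D.inv' q L) (D.inv'_mem q L).1.1
  have hu0 : D.inv' q L τ ≠ 0 := by
    rw [D.inv'_apply hz]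
    refine mul_ne_zero (pow_ne_zero _ (inv_ne_zero fun h0 => ?_)) fun h0 =>
      hq0 (Subtype.ext (iota.injective (h0.trans (map_zero iota).symm)))
    have h1 := D.W_mul τ
    rw [hz, ← iotaA_apply, eval_map_apply, iotaA_apply, h0, mul_zero] at h1
    exact zero_ne_one h1
  have hprod : ∀ w, (D.inv' r L ∘ ofComplex) w = s w ^ m * (D.inv' q L ∘ ofComplex) w := fun w => by
    rw [hq]
    simp only [Function.comp_apply, inv', hs, hT, map_mul, map_pow, Pi.mul_apply, Pi.pow_apply]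
    ring
  have hst : Tendsto s (𝓝[≠] (τ : ℂ)) (𝓝 0) := by
    rw [← hs0]; exact hsd.continuousAt.tendsto.mono_left nhdsWithin_le_nhds
  rcases lt_or_ge m (d - 1) with hlt | hge
  · exfalso
    obtain ⟨k, hk⟩ := Nat.exists_eq_add_of_lt hlt
    have h1 : Tendsto (D.inv' q L ∘ ofComplex) (𝓝[≠] (τ : ℂ)) (𝓝 ((0 : ℂ) ^ (k + 1) * 1)) := by
      refine ((hst.pow (k + 1)).mul hlim).congr' ?_
      filter_upwards [hsne] with w hw
      rw [hprod, hk, show m + k + 1 = m + (k + 1) by omega, pow_add]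
      field_simp
      ring
    rw [zero_pow (Nat.succ_ne_zero k), zero_mul] at h1
    exact hu0 (tendsto_nhds_unique hu h1)
  · obtain ⟨k, hk⟩ := Nat.exists_eq_add_of_le hge
    have h1 : Tendsto (fun w => (D.inv' r L ∘ ofComplex) w / s w ^ (d - 1))
        (𝓝[≠] (τ : ℂ)) (𝓝 ((0 : ℂ) ^ k * D.inv' q L τ)) := by
      refine ((hst.pow k).mul hu).congr' ?_
      filter_upwards [hsne] with w hw
      rw [hprod, hk, pow_add]
      field_simp
    have h2 := tendsto_nhds_unique h1 hlim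
    have hk0 : k = 0 := by
      by_contra hk0
      rw [zero_pow hk0, zero_mul] at h2
      exact zero_ne_one h2
    subst hk0
    refine ⟨q, by rw [hq, hk, add_zero], Subtype.ext (iota.injective ?_)⟩
    rw [pow_zero, one_mul, D.inv'_apply hz, inv_pow] at h2
    rw [SubmonoidClass.coe_pow, map_pow]
    exact (eq_of_inv_mul_eq_one h2).symm

variable {δ : Gamma N →* ℂ} (hpar : ParTriv N δ) {l : ℕ} (hl : l.Prime) (hA : A.LiesOverPrime l)
  {n : ℕ} [NeZero n] (hln : ¬ l ∣ n) (hδ : ∀ γ, δ γ ^ n = 1)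

include D hpar hl hA hln hδ

/-- One step of the descent. -/
theorem exists_lower_mult {z : IsLocalRing.ResidueField A} (hz : D.rP.eval z ≠ 0) {g : ℍ → ℂ}
    (hg : g ∈ Tw N δ) (G : BRing A N) (hG : (G : ℍ → ℂ) = g ^ n) (p : A[X]) (K : ℕ)
    (hN : D.norm G = D.inv' p K) (hp : p.map (IsLocalRing.residue A) ≠ 0)
    (hroot : (p.map (IsLocalRing.residue A)).IsRoot z) :
    ∃ g' ∈ Tw N δ, IsIntFn A N g' ∧ ∃ (G' : BRing A N) (p' : A[X]) (K' : ℕ),
      (G' : ℍ → ℂ) = g' ^ n ∧ D.norm G' = D.inv' p' K' ∧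
        p'.map (IsLocalRing.residue A) ≠ 0 ∧
        (p'.map (IsLocalRing.residue A)).rootMultiplicity z <
          (p.map (IsLocalRing.residue A)).rootMultiplicity z := by
  classical
  have hn : n ≠ 0 := NeZero.ne n
  obtain ⟨z₀, hz₀, hres⟩ := exists_root_lifting p hp hroot
  have hPu : IsUnit (D.P.eval z₀) := by
    rw [← IsLocalRing.residue_ne_zero_iff_isUnit, ← eval_map_apply, hres]
    exact hz
  obtain ⟨τ, hτ⟩ := D.surj (iota (z₀ : Qb)) (by
    rw [← iotaA_apply, eval_map_apply, map_ne_zero_iff _ (iotaA_injective A)]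
    exact hPu.ne_zero)
  -- a zero above `z₀`
  have hnorm0 : D.norm G τ = 0 := by
    rw [hN, D.inv'_apply hτ, show p.eval z₀ = 0 from hz₀]
    simp
  obtain ⟨g₀, hg₀, hG0⟩ : ∃ h ∈ D.reps, (G : ℍ → ℂ) (h • τ) = 0 := by
    rw [norm, Finset.prod_apply] at hnorm0
    exact Finset.prod_eq_zero_iff.1 hnorm0
  obtain ⟨E, hE⟩ := D.exists_point_delta hτ hPu hg₀
  set T : BRing A N := ⟨D.polyZ (X - C z₀), D.polyZ_mem _⟩ with hT
  set E₂ : BRing A N := E ^ 2 + T * (1 - E) with hE₂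
  have hTfun : (T : ℍ → ℂ) = D.Z - algebraMap ℂ (ℍ → ℂ) (iota (z₀ : Qb)) := D.polyZ_X_sub_C z₀
  have hzero : ∀ τ', D.Z τ' = iota (z₀ : Qb) → (g * (E₂ : ℍ → ℂ)) τ' = 0 := by
    intro τ' hτ'
    obtain ⟨h, hh, hval⟩ := D.exists_rep_apply_eq (τ := τ) (hτ'.trans hτ.symm)
    rw [Pi.mul_apply]
    by_cases hh0 : h = g₀
    · have h1 := hval G (bRing_le_bAlg G.2)
      rw [hh0, hG0, hG, Pi.pow_apply] at h1
      rw [(pow_eq_zero_iff hn).1 h1, zero_mul]
    · rw [hval E₂ (bRing_le_bAlg E₂.2)]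
      have e1 : (T : ℍ → ℂ) (h • τ) = 0 := by
        rw [hTfun, Pi.sub_apply, D.Z_inv h (D.reps_mem h hh), hτ]
        exact sub_self _
      simp only [hE₂, Subring.coe_add, Subring.coe_mul, SubmonoidClass.coe_pow,
        AddSubgroupClass.coe_sub, Pi.add_apply, Pi.mul_apply, Pi.pow_apply, e1, hE h hh,
        if_neg hh0, zero_pow two_ne_zero, zero_mul, add_zero, mul_zero]
  obtain ⟨g', hg', hgg'⟩ := D.exists_tw_div (mul_one δ ▸ mul_mem_tw hg (mem_tw_one_iff.2 E₂.2.1))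
    (iota (z₀ : Qb)) hzero
  rw [← hTfun] at hgg'
  have hkey : g' ^ n * (T : ℍ → ℂ) ^ n = (G : ℍ → ℂ) * (E₂ : ℍ → ℂ) ^ n := by
    rw [hG, ← mul_pow, ← mul_pow, hgg', mul_comm]
  have hT0 : (T : ℍ → ℂ) ≠ 0 := hTfun ▸ D.Z_sub_const_ne_zero _
  have hredT : redAt 1 T ≠ 0 := by
    rw [hT, redAt_polyZ, Polynomial.map_sub, map_X, map_C, hres]
    exact aeval_ne_zero_of_order_neg D.rZ_order_neg (X_sub_C_ne_zero z)
  have hTn0 : ((T ^ n : BRing A N) : ℍ → ℂ) ≠ 0 := fun h => by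
    have h1 : (T ^ n : BRing A N) = 0 := Subtype.ext h
    exact pow_ne_zero n hredT (by rw [← map_pow, h1, map_zero])
  have hg'n := pow_mem_fn hδ hg'
  have hprodmem : g' ^ n * ((T ^ n : BRing A N) : ℍ → ℂ) ∈ BRing A N := by
    rw [SubmonoidClass.coe_pow, hkey]
    exact mul_mem G.2 (pow_mem E₂.2 n)
  have hG'alg : g' ^ n ∈ BAlg N :=
    ⟨hg'n, isAlgFn_of_mul (fn_le_perFn hg'n) (bRing_le_bAlg (T ^ n).2).2 hTn0
      (bRing_le_bAlg hprodmem).2⟩
  have hG'mem : g' ^ n ∈ BRing A N := D.mem_bRing_of_mul_mem hl hA hG'alg (T ^ n) (g₀ := 1)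
    (by rw [map_pow]; exact pow_ne_zero _ hredT) hprodmem
  obtain ⟨p', K', hp'⟩ := D.exists_inv'_of_invariant (D.norm_mem hG'mem)
    fun γ hγ => D.compHom_norm hG'mem.1 hγ
  obtain ⟨r, L, hr⟩ := D.exists_inv'_of_invariant (D.norm_mem E₂.2)
    fun γ hγ => D.compHom_norm E₂.2.1 hγ
  obtain ⟨q, hq, hqz⟩ := D.exists_norm_factor hτ hg₀ E hE r L hr
  -- the polynomial identity
  have hid : D.inv' (p' * ((X - C z₀) ^ D.reps.card) ^ n) K' =
      D.inv' (p * r ^ n) (K + L * n) := by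
    have h1 := congrArg D.norm hkey
    rw [D.norm_mul, D.norm_mul, hp', norm_pow', norm_pow', hN, hr, inv'_pow,
      inv'_mul_inv', hT, norm_polyZ, ← map_pow, ← map_pow] at h1
    rw [← h1, inv', inv', map_mul, mul_assoc]
  have hbar := D.map_eq_of_inv'_eq hid
  set res := IsLocalRing.residue A
  rw [Polynomial.map_mul, Polynomial.map_mul, Polynomial.map_pow, Polynomial.map_pow,
    Polynomial.map_pow, Polynomial.map_sub, map_X, map_C, hres, hq, Polynomial.map_mul,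
    Polynomial.map_pow, Polynomial.map_sub, map_X, map_C, hres] at hbar
  have hqz' : ¬ (q.map res).IsRoot z := by
    rw [IsRoot, ← hres, eval_map_apply, hqz, map_pow, ← eval_map_apply, hres]
    exact pow_ne_zero _ hz
  have hq0 : q.map res ≠ 0 := fun h => hqz' (by rw [h]; simp)
  have hP0 : D.rP ≠ 0 := D.rP_monic.ne_zero
  have hrhs : p.map res * ((X - C z) ^ (D.reps.card - 1) * q.map res) ^ n * D.rP ^ K' ≠ 0 :=
    mul_ne_zero (mul_ne_zero hp (pow_ne_zero _ (mul_ne_zero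
      (pow_ne_zero _ (X_sub_C_ne_zero z)) hq0))) (pow_ne_zero _ hP0)
  have hp'0 : p'.map res ≠ 0 := fun h => hrhs (by rw [← hbar, h, zero_mul, zero_mul])
  refine ⟨g', hg', D.isIntFn_of_pow_tw hpar hl hA hln hδ hg' hG'mem.2.2, ⟨g' ^ n, hG'mem⟩, p', K',
    rfl, hp', hp'0, ?_⟩
  have hmP : ∀ k, (D.rP ^ k).rootMultiplicity z = 0 := fun k =>
    rootMultiplicity_eq_zero (by rw [IsRoot, eval_pow]; exact pow_ne_zero _ hz)
  have hmq : ((q.map res) ^ n).rootMultiplicity z = 0 :=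
    rootMultiplicity_eq_zero (by rw [IsRoot, eval_pow]; exact pow_ne_zero _ hqz')
  have h1 := congrArg (fun f => f.rootMultiplicity z) hbar
  simp only [mul_pow, ← pow_mul] at h1 hrhs
  rw [rootMultiplicity_mul (mul_ne_zero (mul_ne_zero hp'0
      (pow_ne_zero _ (X_sub_C_ne_zero z))) (pow_ne_zero _ hP0)),
    rootMultiplicity_mul (mul_ne_zero hp'0 (pow_ne_zero _ (X_sub_C_ne_zero z))),
    rootMultiplicity_mul hrhs, rootMultiplicity_mul (left_ne_zero_of_mul hrhs),
    rootMultiplicity_mul (right_ne_zero_of_mul (left_ne_zero_of_mul hrhs)),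
    rootMultiplicity_X_sub_C_pow, rootMultiplicity_X_sub_C_pow, hmP, hmP, hmq] at h1
  have hd : 0 < D.reps.card := Finset.card_pos.2 ⟨_, hg₀⟩
  have hlt : (D.reps.card - 1) * n < D.reps.card * n :=
    Nat.mul_lt_mul_of_lt_of_le (by omega) le_rfl (Nat.pos_of_ne_zero hn)
  omega

/-- Over every point `z` of the reduced affine base off the cusps, some integral twisted function
has an `n`-th power whose norm does not vanish. -/
theorem exists_norm_ne_zero_at {f : ℍ → ℂ} (hf : f ∈ Tw N δ) (hfi : IsIntFn A N f)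
    (hf0 : redExp A N f 1 ≠ 0) (z : IsLocalRing.ResidueField A) (hz : D.rP.eval z ≠ 0) :
    ∃ g ∈ Tw N δ, IsIntFn A N g ∧ ∃ (G : BRing A N) (p : A[X]) (K : ℕ),
      (G : ℍ → ℂ) = g ^ n ∧ D.norm G = D.inv' p K ∧
        (p.map (IsLocalRing.residue A)).eval z ≠ 0 := by
  suffices key : ∀ (m : ℕ) (g : ℍ → ℂ), g ∈ Tw N δ → IsIntFn A N g → ∀ (G : BRing A N) (p : A[X])
      (K : ℕ), (G : ℍ → ℂ) = g ^ n → D.norm G = D.inv' p K →
      p.map (IsLocalRing.residue A) ≠ 0 →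
      (p.map (IsLocalRing.residue A)).rootMultiplicity z = m →
      ∃ g ∈ Tw N δ, IsIntFn A N g ∧ ∃ (G : BRing A N) (p : A[X]) (K : ℕ),
        (G : ℍ → ℂ) = g ^ n ∧ D.norm G = D.inv' p K ∧
          (p.map (IsLocalRing.residue A)).eval z ≠ 0 by
    have hfP := Tw.mem_perFn hpar hf
    have hfI : f ∈ IntFn A N := ⟨hfP, hfi⟩
    set G : BRing A N := ⟨f ^ n, pow_mem_fn hδ hf, pow_mem hfI n⟩
    obtain ⟨p, K, hp⟩ := D.exists_inv'_of_invariant (D.norm_mem G.2)
      fun γ hγ => D.compHom_norm G.2.1 hγ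
    have hG0 : redAt 1 G ≠ 0 := by
      rw [redAt_apply, show redExp A N ((G : BRing A N) : ℍ → ℂ) 1 = redExp A N f 1 ^ n from
        redExp_pow hfI n 1]
      exact pow_ne_zero _ hf0
    refine key _ f hf hfi G p K rfl hp (fun h => ?_) rfl
    have e : redAt 1 ⟨D.norm G, D.norm_mem G.2⟩ = 0 := by
      rw [show (⟨D.norm G, D.norm_mem G.2⟩ : BRing A N) = ⟨D.inv' p K, D.inv'_mem p K⟩ from
        Subtype.ext hp, redAt_inv', h, map_zero, mul_zero]
    rw [redAt_norm, Finset.prod_eq_zero_iff] at e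
    obtain ⟨h', -, h0⟩ := e
    exact D.redAt_ne_zero hl hA G hG0 h' h0
  intro m
  induction m using Nat.strong_induction_on with
  | _ m ih =>
    intro g hg hgi G p K hG hN hp hm
    by_cases hroot : (p.map (IsLocalRing.residue A)).IsRoot z
    · obtain ⟨g', hg', hgi', G', p', K', hG', hN', hp', hlt⟩ :=
        D.exists_lower_mult hpar hl hA hln hδ hz hg G hG p K hN hp hroot
      exact ih _ (hm ▸ hlt) g' hg' hgi' G' p' K' hG' hN' hp' rfl
    · exact ⟨g, hg, hgi, G, p, K, hG, hN, hroot⟩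

end FLTA.DeligneSerre.BaseData
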