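import Fermat.Agent.DeligneSerre.Level.Series
import Mathlib.NumberTheory.ModularForms.NormTrace
import Mathlib.FieldTheory.IsAlgClosed.Basic

/-!
# Functions without poles are constant
-/

set_option autoImplicit false

noncomputable section

open scoped MatrixGroups ModularForm Manifold
open UpperHalfPlane hiding I
open CongruenceSubgroup

namespace FLTA.DeligneSerre

open FLTA.Bridge (Hol)

variable {N : ℕ} [NeZero N]

/-- A `Γ(N)`-invariant function regular at every cusp is constant. -/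
theorem exists_eq_const_of_order_nonneg {F : ℍ → ℂ} (hF : F ∈ Fn N)
    (h : ∀ g : SL(2, ℤ), 0 ≤ (cexp N F g).order) : ∃ c : ℂ, F = algebraMap ℂ (ℍ → ℂ) c := by
  let f : ModularForm (Gamma N : Subgroup (GL (Fin 2) ℝ)) 0 :=
    { toFun := F
      slash_action_eq' := by
        rintro _ ⟨γ, hγ, rfl⟩
        funext τ
        have e := ModularForm.SL_slash_apply (f := F) (k := (0 : ℤ)) γ τ
        simp only [neg_zero, zpow_zero, mul_one] at e
        exact e.trans (hF.2.1 γ hγ τ)
      holo' := hF.1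
      bdd_at_cusps' := fun hc => by
        rw [OnePoint.isBoundedAt_iff_forall_SL2Z (hc.mono (Subgroup.map_le_range _ _))]
        intro γ _
        have e : F ∣[(0 : ℤ)] γ = fun τ : ℍ => F (γ • τ) := by
          funext τ
          rw [ModularForm.SL_slash_apply]
          simp
        rw [e]
        exact (isBoundedAtImInfty_iff_cexp_order (fn_le_perFn hF)).2 (h γ) }
  obtain ⟨c, hc⟩ := ModularForm.eq_const_of_weight_zero f
  exact ⟨c, hc⟩

/-- A holomorphic function with constant `n`-th power is constant. -/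
theorem exists_eq_const_of_pow {f : ℍ → ℂ} (hf : f ∈ Hol) {n : ℕ} (hn : n ≠ 0) {c : ℂ}
    (h : f ^ n = algebraMap ℂ (ℍ → ℂ) c) : ∃ c' : ℂ, f = algebraMap ℂ (ℍ → ℂ) c' := by
  set x : Hol := ⟨f, hf⟩
  have hpow : x ^ n = algebraMap ℂ Hol c := Subtype.ext h
  have hint : IsIntegral ℂ x := ⟨Polynomial.X ^ n - Polynomial.C c,
    Polynomial.monic_X_pow_sub_C c hn, by simp [hpow]⟩
  have hdeg := IsAlgClosed.degree_eq_one_of_irreducible ℂ (minpoly.irreducible hint)
  obtain ⟨c', hc'⟩ := minpoly.natDegree_eq_one_iff.1 (Polynomial.natDegree_eq_of_degree_eq_some hdeg)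
  exact ⟨c', (congrArg Subtype.val hc').symm⟩

/-- A regular twisted function is a constant, zero unless the twist is trivial. -/
theorem tw_eq_zero_or_eq_one {δ : Gamma N →* ℂ} (hpar : ParTriv N δ) {n : ℕ} (hn : n ≠ 0)
    (hδ : ∀ γ, δ γ ^ n = 1) {f : ℍ → ℂ} (hf : f ∈ Tw N δ)
    (h : ∀ g : SL(2, ℤ), 0 ≤ (cexp N f g).order) : f = 0 ∨ δ = 1 := by
  have hP := Tw.mem_perFn hpar hf
  have hfn : f ^ n ∈ Fn N := by
    refine ⟨pow_mem hf.1 n, fun γ hγ τ => ?_, fun g => ?_⟩
    · show f (γ • τ) ^ n = f τ ^ n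
      rw [hf.2.1 ⟨γ, hγ⟩ τ, mul_pow, hδ, one_mul]
    · exact (pow_mem hP n g).2.2
  have hord : ∀ g, 0 ≤ (cexp N (f ^ n) g).order := fun g => by
    rw [cexp_pow hP, HahnSeries.order_pow]
    exact nsmul_nonneg (h g) n
  obtain ⟨c, hc⟩ := exists_eq_const_of_order_nonneg hfn hord
  obtain ⟨c', hc'⟩ := exists_eq_const_of_pow hf.1 hn hc
  rcases eq_or_ne c' 0 with rfl | hne
  · exact Or.inl (by simpa using hc')
  · refine Or.inr (MonoidHom.ext fun γ => ?_)
    have e := hf.2.1 γ UpperHalfPlane.I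
    rw [hc'] at e
    exact (mul_eq_right₀ (show algebraMap ℂ (ℍ → ℂ) c' UpperHalfPlane.I ≠ 0 from hne)).1 e.symm

end FLTA.DeligneSerre
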