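import Fermat.Agent.Galois.Places
import Fermat.Agent.BadRed.RootApprox
import Mathlib.RingTheory.LaurentSeries
import Mathlib.RingTheory.Polynomial.Basic
import Fermat.Prelude.Def_ModularCurve_LaurentCoeff

/-!
# Algebra over a place of the algebraic numbers

Owner: helper23. Interface for the rigidity files.
-/

set_option autoImplicit false

noncomputable section

open Polynomial

namespace FLTA.DeligneSerre

local notation "Qb" => AlgebraicClosure ℚ

section Place

variable {l : ℕ} {A : ValuationSubring Qb}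

theorem mem_maximalIdeal_iff_mem_nonunits (x : A) :
    x ∈ IsLocalRing.maximalIdeal A ↔ (x : Qb) ∈ A.nonunits :=
  ValuationSubring.coe_mem_nonunits_iff.symm

/-- A prime ideal containing `l` is the maximal ideal. -/
theorem mem_of_isPrime_of_natCast_mem (hl : l.Prime) (hA : A.LiesOverPrime l) (P : Ideal A)
    [P.IsPrime] (hP : (l : A) ∈ P) {x : A} (hx : x ∈ IsLocalRing.maximalIdeal A) : x ∈ P := by
  classical
  by_contra hxP
  haveI := Fact.mk hl
  have hl0 : (l : A ⧸ P) = 0 := by
    rw [← map_natCast (Ideal.Quotient.mk P)]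
    exact Ideal.Quotient.eq_zero_iff_mem.mpr hP
  haveI : CharP (A ⧸ P) l := (CharP.charP_iff_prime_eq_zero hl).mpr hl0
  letI := ZMod.algebra (A ⧸ P) l
  obtain ⟨f, hf, hfx⟩ : IsAlgebraic ℤ (x : Qb) :=
    (IsFractionRing.isAlgebraic_iff ℤ ℚ Qb).mpr
      ((AlgebraicClosure.isAlgebraic ℚ).isAlgebraic _)
  have hfA : aeval x f.primPart = 0 := by
    apply Subtype.ext
    have e := aeval_algHom_apply (A.subtype.toIntAlgHom) x f.primPart
    have e' : aeval (x : Qb) f.primPart = 0 := Polynomial.aeval_primPart_eq_zero hf hfx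
    simpa using e.symm.trans e'
  set g := f.primPart.map (Int.castRingHom (ZMod l))
  have hg : g ≠ 0 := by
    intro h
    have hd : C (l : ℤ) ∣ f.primPart := C_dvd_iff_dvd_coeff _ _ |>.mpr fun i => by
      have := congrArg (fun r : (ZMod l)[X] => r.coeff i) h
      simpa [g, ZMod.intCast_zmod_eq_zero_iff_dvd] using this
    exact (Nat.prime_iff_prime_int.mp hl).not_isUnit (f.isPrimitive_primPart _ hd)
  have halg : IsAlgebraic (ZMod l) (Ideal.Quotient.mk P x) := by
    refine ⟨g, hg, ?_⟩
    have e := congrArg (Ideal.Quotient.mk P) hfA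
    rw [map_zero, aeval_def, hom_eval₂] at e
    rw [aeval_def, eval₂_map]
    exact (congrArg (fun φ => eval₂ φ (Ideal.Quotient.mk P x) f.primPart)
      (RingHom.ext_int _ _)).trans e
  obtain ⟨r, hr, hrx⟩ := halg.exists_nonzero_coeff_and_aeval_eq_zero
    (mem_nonZeroDivisors_of_ne_zero fun h => hxP (Ideal.Quotient.eq_zero_iff_mem.mp h))
  obtain ⟨n, hn⟩ := ZMod.intCast_surjective (r.coeff 0)
  obtain ⟨y, hy⟩ := Ideal.Quotient.mk_surjective (I := P) (aeval (Ideal.Quotient.mk P x) r.divX)
  have hmem : x * y + (n : A) ∈ P := by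
    rw [← Ideal.Quotient.eq_zero_iff_mem, map_add, map_mul, hy, map_intCast]
    conv_lhs at hrx => rw [← X_mul_divX_add r]
    simpa [← hn] using hrx
  have hn' : (n : A) ∈ IsLocalRing.maximalIdeal A := by
    simpa using Ideal.sub_mem _ (IsLocalRing.le_maximalIdeal (Ideal.IsPrime.ne_top ‹_›) hmem)
      (Ideal.mul_mem_right y _ hx)
  rw [mem_maximalIdeal_iff_mem_nonunits] at hn'
  exact hr (by rw [← hn, ZMod.intCast_zmod_eq_zero_iff_dvd]
               exact (FLTA.Galois.intCast_mem_nonunits_iff hl hA n).mp (by simpa using hn'))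

/-- Rank one. -/
theorem exists_dvd_pow (hl : l.Prime) (hA : A.LiesOverPrime l) {b : A}
    (hb : b ∈ IsLocalRing.maximalIdeal A) {a : A} (ha : a ≠ 0) : ∃ k : ℕ, a ∣ b ^ k := by
  have hb' : b ∈ (Ideal.span {a}).radical := by
    rw [Ideal.radical_eq_sInf, Submodule.mem_sInf]
    rintro P ⟨haP, hP⟩
    haveI := hP
    refine mem_of_isPrime_of_natCast_mem hl hA P ?_ hb
    obtain ⟨N, hN⟩ := not_forall.mp
      fun h => ha (FLTA.BadRed.RootApprox.eq_zero_of_forall_pow_dvd hl A hA a h)
    have haN : a ∣ (l : A) ^ N := ((ValuationRing.dvd_total _ _).resolve_left hN)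
    exact hP.mem_of_pow_mem N (Ideal.mem_of_dvd _ haN (haP (Ideal.mem_span_singleton_self a)))
  obtain ⟨k, hk⟩ := hb'
  exact ⟨k, Ideal.mem_span_singleton.mp hk⟩

theorem eq_zero_of_forall_pow_dvd (hl : l.Prime) (hA : A.LiesOverPrime l) {b : A}
    (hb : b ∈ IsLocalRing.maximalIdeal A) {c : A} (h : ∀ k : ℕ, b ^ k ∣ c) : c = 0 := by
  by_contra hc
  rcases eq_or_ne b 0 with rfl | hb0
  · exact hc (zero_dvd_iff.mp (by simpa using h 1))
  · obtain ⟨k, hk⟩ := exists_dvd_pow hl hA hb hc
    have hd := (h (k + 1)).trans hk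
    rw [pow_succ'] at hd
    refine hb ?_
    exact isUnit_of_dvd_one ((mul_dvd_mul_iff_right (pow_ne_zero k hb0)).mp (by rwa [one_mul]))

theorem isUnit_natCast (hl : l.Prime) (hA : A.LiesOverPrime l) {n : ℕ} (hn : ¬ l ∣ n) :
    IsUnit (n : A) := by
  by_contra h
  have h' : (n : A) ∈ IsLocalRing.maximalIdeal A := h
  rw [mem_maximalIdeal_iff_mem_nonunits] at h'
  exact hn ((FLTA.Galois.natCast_mem_nonunits_iff hl hA n).mp (by simpa using h'))

theorem natCast_mem_maximalIdeal (hl : l.Prime) (hA : A.LiesOverPrime l) :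
    (l : A) ∈ IsLocalRing.maximalIdeal A := by
  rw [mem_maximalIdeal_iff_mem_nonunits]
  simpa using (FLTA.Galois.natCast_mem_nonunits_iff hl hA l).mpr dvd_rfl

/-- Split off a root: inside `A` it gives a factor `X - u`, outside a factor of unit reduction. -/
theorem exists_factor_of_root (p : A[X]) {z₀ : Qb} (hz : (p.map A.subtype).IsRoot z₀) :
    (∃ (u : A) (q : A[X]), (u : Qb) = z₀ ∧ p = (X - C u) * q) ∨
      ∃ (w : A) (q : A[X]), z₀ ∉ A ∧ w ≠ 0 ∧ w ∈ IsLocalRing.maximalIdeal A ∧ p = (C w * X - 1) * q := by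
  classical
  by_cases hmem : z₀ ∈ A
  · refine Or.inl ⟨⟨z₀, hmem⟩, ?_⟩
    obtain ⟨q, hq⟩ := (dvd_iff_isRoot (p := p) (a := ⟨z₀, hmem⟩)).mpr (by
      apply Subtype.coe_injective
      rw [IsRoot, eval_map, show z₀ = A.subtype ⟨z₀, hmem⟩ from rfl, eval₂_at_apply] at hz
      simpa using hz)
    exact ⟨q, rfl, hq⟩
  · refine Or.inr ?_
    have hz0 : z₀ ≠ 0 := fun h => hmem (h ▸ A.zero_mem)
    have hw : z₀⁻¹ ∈ A.nonunits := by
      by_contra h
      exact hmem (inv_inv z₀ ▸ FLTA.Galois.inv_mem_of_not_mem_nonunits h)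
    obtain ⟨q, hq⟩ := (dvd_iff_isRoot (p := p.map A.subtype) (a := z₀)).mpr hz
    set r : Qb[X] := C z₀ * q with hr
    have hfac : p.map A.subtype = (C z₀⁻¹ * X - 1) * r := by
      rw [hq, hr]
      have hcc : C z₀⁻¹ * C z₀ = (1 : Qb[X]) := by rw [← C_mul, inv_mul_cancel₀ hz0, C_1]
      linear_combination (-(X * q)) * hcc
    have hcoeff : ∀ i, r.coeff i ∈ A := by
      intro i
      induction i with
      | zero =>
        have e := congrArg (fun t : Qb[X] => t.coeff 0) hfac
        simp [coeff_map, sub_mul, mul_assoc] at e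
        rw [← neg_neg (r.coeff 0), ← e]
        exact neg_mem (p.coeff 0).2
      | succ i ih =>
        have e := congrArg (fun t : Qb[X] => t.coeff (i + 1)) hfac
        simp [coeff_map, sub_mul, mul_assoc] at e
        rw [show r.coeff (i + 1) = z₀⁻¹ * r.coeff i - (p.coeff (i + 1) : Qb) by rw [e]; ring]
        exact sub_mem (mul_mem (A.nonunits_subset hw) ih) (p.coeff (i + 1)).2
    obtain ⟨r', hr'⟩ : r ∈ lifts A.subtype :=
      (lifts_iff_coeff_lifts _).mpr fun i => ⟨⟨_, hcoeff i⟩, rfl⟩
    refine ⟨⟨z₀⁻¹, A.nonunits_subset hw⟩, r', hmem,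
      fun e => inv_ne_zero hz0 (congrArg Subtype.val e), ?_, ?_⟩
    · rwa [mem_maximalIdeal_iff_mem_nonunits]
    · apply map_injective A.subtype Subtype.coe_injective
      simp only [coe_mapRingHom] at hr'
      rw [Polynomial.map_mul, hr', hfac]
      simp

/-- The reduction of a nonzero constant has no root, so a root gives positive degree. -/
theorem exists_root_map_subtype (p : A[X]) (h : p.natDegree ≠ 0) :
    ∃ z₀ : Qb, (p.map A.subtype).IsRoot z₀ :=
  IsAlgClosed.exists_root _ (by
    rw [degree_map_eq_of_injective Subtype.coe_injective]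
    exact fun h' => h (natDegree_eq_of_degree_eq_some h'))

/-- Lifting a root of the reduction. -/
theorem exists_root_lifting (p : A[X]) (hp : p.map (IsLocalRing.residue A) ≠ 0)
    {z : IsLocalRing.ResidueField A} (hz : (p.map (IsLocalRing.residue A)).IsRoot z) :
    ∃ z₀ : A, p.IsRoot z₀ ∧ IsLocalRing.residue A z₀ = z := by
  classical
  induction hd : p.natDegree using Nat.strong_induction_on generalizing p with
  | _ d ih =>
    have hd0 : p.natDegree ≠ 0 := by
      intro h0
      rw [eq_C_of_natDegree_eq_zero h0, map_C] at hp hz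
      simp only [IsRoot, eval_C] at hz
      exact hp (by rw [hz, C_0])
    obtain ⟨z₁, hz₁⟩ := exists_root_map_subtype p hd0
    rcases exists_factor_of_root p hz₁ with ⟨u, q, -, rfl⟩ | ⟨w, q, -, hw0, hw, rfl⟩
    · rw [Polynomial.map_mul] at hp hz
      rcases root_mul.mp hz with h | h
      · refine ⟨u, by simp, ?_⟩
        simp only [Polynomial.map_sub, map_X, map_C, IsRoot, eval_sub, eval_X, eval_C] at h
        exact (sub_eq_zero.mp h).symm
      · have hq : q ≠ 0 := fun h' => hp (by simp [h'])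
        have hlt : q.natDegree < d := by
          rw [← hd, natDegree_mul (X_sub_C_ne_zero u) hq, natDegree_X_sub_C]; omega
        obtain ⟨z₀, h1, h2⟩ := ih _ hlt q (right_ne_zero_of_mul hp) h rfl
        exact ⟨z₀, root_mul_left_of_isRoot _ h1, h2⟩
    · rw [Polynomial.map_mul] at hp hz
      have hw' : (C w * X - 1 : A[X]).map (IsLocalRing.residue A) = -1 := by
        simp [IsLocalRing.residue_eq_zero_iff w |>.mpr hw]
      rw [hw', neg_one_mul, neg_ne_zero] at hp
      rw [hw'] at hz
      have hz' : (q.map (IsLocalRing.residue A)).IsRoot z := by simpa using hz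
      · have hlt : q.natDegree < d := by
          rw [← hd, natDegree_mul ?_ (fun h => hp (by simp [h]))]
          · rw [show (C w * X - 1 : A[X]) = C w * X + C (-1) by simp [sub_eq_add_neg],
              natDegree_linear hw0]
            omega
          · exact fun h => by simpa [hw'] using congrArg (Polynomial.map (IsLocalRing.residue A)) h
        obtain ⟨z₀, h1, h2⟩ := ih _ hlt q hp hz' rfl
        exact ⟨z₀, root_mul_left_of_isRoot _ h1, h2⟩

/-- A drop of the degree gives a root outside `A`. -/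
theorem exists_root_not_mem (p : A[X]) (hp : p.map (IsLocalRing.residue A) ≠ 0)
    (hdeg : (p.map (IsLocalRing.residue A)).natDegree < p.natDegree) :
    ∃ z₀ : Qb, (p.map A.subtype).IsRoot z₀ ∧ z₀ ∉ A := by
  classical
  induction hd : p.natDegree using Nat.strong_induction_on generalizing p with
  | _ d ih =>
    obtain ⟨z₁, hz₁⟩ := exists_root_map_subtype p (by omega)
    rcases exists_factor_of_root p hz₁ with ⟨u, q, -, rfl⟩ | ⟨w, q, hout, -, -, -⟩
    · rw [Polynomial.map_mul] at hp hdeg
      have hq : q ≠ 0 := fun h' => hp (by simp [h'])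
      have h1 : ((X - C u) * q).natDegree = q.natDegree + 1 := by
        rw [natDegree_mul (X_sub_C_ne_zero u) hq, natDegree_X_sub_C, add_comm]
      have h2 : ((X - C u).map (IsLocalRing.residue A) * q.map (IsLocalRing.residue A)).natDegree
          = (q.map (IsLocalRing.residue A)).natDegree + 1 := by
        rw [natDegree_mul (left_ne_zero_of_mul hp) (right_ne_zero_of_mul hp)]
        simp [add_comm]
      obtain ⟨z₀, h3, h4⟩ := ih q.natDegree (by omega) q (right_ne_zero_of_mul hp) (by omega) rfl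
      refine ⟨z₀, ?_, h4⟩
      rw [Polynomial.map_mul]
      exact root_mul_left_of_isRoot _ h3
    · exact ⟨z₁, hz₁, hout⟩

/-- Roots of monic polynomials over `A` are in `A`. -/
theorem mem_of_monic_root (p : A[X]) (hp : p.Monic) {z₀ : Qb} (hz : (p.map A.subtype).IsRoot z₀) :
    z₀ ∈ A := by
  rw [IsRoot, eval_map] at hz
  obtain ⟨y, hy⟩ := (IsIntegrallyClosed.isIntegral_iff (R := A) (K := Qb) (x := z₀)).mp
    ⟨p, hp, hz⟩
  exact hy ▸ y.2

/-- The lattice of a subspace of coordinates is finitely generated. -/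
theorem exists_lattice_span {ι : Type*} [Finite ι] (W : Submodule Qb (ι → Qb)) :
    ∃ (r : ℕ) (w : Fin r → ι → Qb), (∀ j, w j ∈ W) ∧ (∀ j i, w j i ∈ A) ∧
      ∀ x ∈ W, (∀ i, x i ∈ A) → ∃ c : Fin r → A, x = ∑ j, (c j : Qb) • w j := by
  classical
  haveI := Fintype.ofFinite ι
  induction hd : Module.finrank Qb W using Nat.strong_induction_on generalizing W with
  | _ d ih =>
    by_cases hW : W = ⊥
    · subst hW
      refine ⟨0, Fin.elim0, fun j => j.elim0, fun j => j.elim0, fun x hx _ => ⟨Fin.elim0, ?_⟩⟩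
      simpa using hx
    obtain ⟨x, hx, hx0⟩ := Submodule.exists_mem_ne_zero_of_ne_bot hW
    obtain ⟨i₀, hi₀⟩ : ∃ i, x i ≠ 0 := by
      by_contra h
      push Not at h
      exact hx0 (funext h)
    obtain ⟨j, -, hmax⟩ := Finset.exists_max_image Finset.univ (fun i => A.valuation (x i))
      ⟨i₀, Finset.mem_univ _⟩
    have hxj : x j ≠ 0 := fun h => by
      have := hmax i₀ (Finset.mem_univ _)
      rw [h, map_zero, le_zero_iff, map_eq_zero] at this
      exact hi₀ this
    set w₀ : ι → Qb := (x j)⁻¹ • x with hw₀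
    have hw₀W : w₀ ∈ W := W.smul_mem _ hx
    have hw₀A : ∀ i, w₀ i ∈ A := fun i => by
      rw [← A.valuation_le_one_iff, hw₀, Pi.smul_apply, smul_eq_mul, map_mul, map_inv₀,
        inv_mul_le_one₀ (zero_lt_iff.mpr ((_root_.map_ne_zero _).mpr hxj))]
      exact hmax i (Finset.mem_univ _)
    have hw₀j : w₀ j = 1 := by simp [hw₀, hxj]
    set W' : Submodule Qb (ι → Qb) := W ⊓ LinearMap.ker (LinearMap.proj j) with hW'
    have hlt : Module.finrank Qb W' < d := by
      rw [← hd]
      refine Submodule.finrank_lt_finrank_of_lt (lt_of_le_of_ne inf_le_left fun h => ?_)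
      have : w₀ ∈ W' := h ▸ hw₀W
      simpa [hW', hw₀j] using this.2
    obtain ⟨r, w, hwW, hwA, hspan⟩ := ih _ hlt W' rfl
    refine ⟨r + 1, Fin.cons w₀ w, Fin.cases hw₀W fun i => (hwW i).1,
      Fin.cases hw₀A hwA, fun y hy hyA => ?_⟩
    obtain ⟨c, hc⟩ := hspan (y - y j • w₀)
      ⟨W.sub_mem hy (W.smul_mem _ hw₀W), by simp [hw₀j]⟩
      (fun i => sub_mem (hyA i) (mul_mem (hyA j) (hw₀A i)))
    refine ⟨Fin.cons ⟨y j, hyA j⟩ c, ?_⟩
    rw [Fin.sum_univ_succ]
    simp only [Fin.cons_zero, Fin.cons_succ]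
    rw [← hc, add_sub_cancel]

/-- A Laurent series with unit constant term and nilpotent principal part is a unit. -/
theorem isUnit_of_isNilpotent_coeff {R : Type*} [CommRing R] (U : LaurentSeries R)
    (h0 : IsUnit (U.coeff 0)) (h : ∀ j < 0, IsNilpotent (U.coeff j)) : IsUnit U := by
  classical
  set N : LaurentSeries R := ∑ j ∈ Finset.Ico U.order 0, HahnSeries.single j (U.coeff j) with hN
  set P : LaurentSeries R :=
    HahnSeries.ofPowerSeries ℤ R (PowerSeries.mk fun i : ℕ => U.coeff (i : ℤ)) with hP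
  have hNnil : IsNilpotent N := by
    refine isNilpotent_sum fun j hj => ?_
    obtain ⟨e, he⟩ := h j (Finset.mem_Ico.mp hj).2
    exact ⟨e, by rw [HahnSeries.single_pow, he, map_zero]⟩
  have hPunit : IsUnit P := by
    refine IsUnit.map _ (PowerSeries.isUnit_iff_constantCoeff.mpr ?_)
    simpa [← PowerSeries.coeff_zero_eq_constantCoeff_apply] using h0
  have hsum : U = P + N := by
    ext k
    rw [HahnSeries.coeff_add, hN, HahnSeries.coeff_sum]
    rcases lt_or_ge k 0 with hk | hk
    · have hP0 : P.coeff k = 0 := by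
        rw [hP, HahnSeries.ofPowerSeries_apply]
        refine HahnSeries.embDomain_notin_image_support ?_
        rintro ⟨i, -, hi⟩
        simp at hi
        omega
      rw [hP0, zero_add, Finset.sum_eq_single k]
      · simp
      · exact fun b _ hb => HahnSeries.coeff_single_of_ne hb.symm
      · intro hk'
        rw [HahnSeries.coeff_single_same]
        refine HahnSeries.coeff_eq_zero_of_lt_order ?_
        simp only [Finset.mem_Ico, not_and, not_lt] at hk'
        by_contra hge
        exact absurd (hk' (not_lt.mp hge)) (not_le.mpr hk)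
    · obtain ⟨i, rfl⟩ := Int.eq_ofNat_of_zero_le hk
      rw [hP, HahnSeries.ofPowerSeries_apply_coeff, PowerSeries.coeff_mk,
        Finset.sum_eq_zero, add_zero]
      intro b hb
      exact HahnSeries.coeff_single_of_ne fun h' => by
        have := (Finset.mem_Ico.mp hb).2
        omega
  rw [hsum]
  exact hNnil.isUnit_add_left_of_commute hPunit (Commute.all _ _)

/-- Cancel a factor with nonzero constant reduction from a congruence modulo `a`. -/
theorem dvd_coeff_of_dvd_coeff_mul (hl : l.Prime) (hA : A.LiesOverPrime l) (U T : LaurentSeries A)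
    {d : IsLocalRing.ResidueField A}
    (hU : ModularCurve.coeffMap (IsLocalRing.residue A) U = HahnSeries.single 0 d) (hd : d ≠ 0)
    {a : A} (ha : a ≠ 0) (h : ∀ k : ℤ, a ∣ (U * T).coeff k) (k : ℤ) : a ∣ T.coeff k := by
  let π := Ideal.Quotient.mk (Ideal.span {a})
  have hres : ∀ j, IsLocalRing.residue A (U.coeff j) = (HahnSeries.single (0 : ℤ) d).coeff j :=
    fun j => by rw [← hU]; rfl
  have hunit : IsUnit (ModularCurve.coeffMap π U) := by
    refine isUnit_of_isNilpotent_coeff _ ?_ fun j hj => ?_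
    · rw [ModularCurve.coeffMap_coeff]
      refine IsUnit.map _ ?_
      by_contra hnu
      refine hd ?_
      rw [← HahnSeries.coeff_single_same (0 : ℤ) d, ← hres 0]
      exact (IsLocalRing.residue_eq_zero_iff _).mpr hnu
    · have hj' : U.coeff j ∈ IsLocalRing.maximalIdeal A := by
        rw [← IsLocalRing.residue_eq_zero_iff, hres j, HahnSeries.coeff_single_of_ne hj.ne]
      obtain ⟨e, he⟩ := exists_dvd_pow hl hA hj' ha
      refine ⟨e, ?_⟩
      rw [ModularCurve.coeffMap_coeff, ← map_pow]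
      exact Ideal.Quotient.eq_zero_iff_mem.mpr (Ideal.mem_span_singleton.mpr he)
  have hzero : ModularCurve.coeffMap π U * ModularCurve.coeffMap π T = 0 := by
    rw [← map_mul]
    ext j
    rw [ModularCurve.coeffMap_coeff, HahnSeries.coeff_zero]
    exact Ideal.Quotient.eq_zero_iff_mem.mpr (Ideal.mem_span_singleton.mpr (h j))
  have hT := congrArg (fun t : LaurentSeries (A ⧸ Ideal.span {a}) => t.coeff k)
    (hunit.mul_right_eq_zero.mp hzero)
  simp only [ModularCurve.coeffMap_coeff, HahnSeries.coeff_zero] at hT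
  exact Ideal.mem_span_singleton.mp (Ideal.Quotient.eq_zero_iff_mem.mp hT)

theorem coeffMap_eq_zero_of_dvd {a : A} (ha' : a ∈ IsLocalRing.maximalIdeal A)
    {T : LaurentSeries A} (h : ∀ k : ℤ, a ∣ T.coeff k) :
    ModularCurve.coeffMap (IsLocalRing.residue A) T = 0 := by
  ext k
  rw [ModularCurve.coeffMap_coeff, HahnSeries.coeff_zero, IsLocalRing.residue_eq_zero_iff]
  exact Ideal.mem_of_dvd _ (h k) ha'

/-- An approximate `n`-th root of `1` is approximately a constant root of `1`. -/
theorem exists_root_of_unity_approx (hl : l.Prime) (hA : A.LiesOverPrime l) {n : ℕ}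
    (hn : ¬ l ∣ n) (S : LaurentSeries A) {c : IsLocalRing.ResidueField A}
    (hred : ModularCurve.coeffMap (IsLocalRing.residue A) S = HahnSeries.single 0 c)
    {a : A} (ha : a ≠ 0) (ha' : a ∈ IsLocalRing.maximalIdeal A)
    (h : ∀ k : ℤ, a ∣ (S ^ n - 1).coeff k) :
    ∃ ζ : A, ζ ^ n = 1 ∧ ∀ k : ℤ, a ∣ (S - HahnSeries.single 0 ζ).coeff k := by
  classical
  have hn0 : n ≠ 0 := by rintro rfl; exact hn (dvd_zero l)
  have hcn : c ^ n = 1 := by
    have e := coeffMap_eq_zero_of_dvd ha' h
    rw [map_sub, map_pow, hred, map_one, HahnSeries.single_pow, nsmul_zero, sub_eq_zero,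
      ← HahnSeries.single_zero_one] at e
    exact HahnSeries.single_injective (Γ := ℤ) 0 e
  obtain ⟨ζ, hζ, hζc⟩ := exists_root_lifting (X ^ n - 1 : A[X])
    (by simpa using (monic_X_pow_sub_C (1 : IsLocalRing.ResidueField A) hn0).ne_zero)
    (z := c) (by simp [hcn])
  have hζn : ζ ^ n = 1 := by simpa [sub_eq_zero] using hζ
  refine ⟨ζ, hζn, dvd_coeff_of_dvd_coeff_mul hl hA
    (∑ i ∈ Finset.range n, S ^ i * HahnSeries.single 0 ζ ^ (n - 1 - i)) _
    (d := (n : IsLocalRing.ResidueField A) * c ^ (n - 1)) ?_ ?_ ha ?_⟩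
  · rw [map_sum, Finset.sum_congr rfl fun i (hi : i ∈ Finset.range n) =>
      show _ = HahnSeries.single (0 : ℤ) (c ^ (n - 1)) by
        rw [map_mul, map_pow, map_pow, hred, ModularCurve.coeffMap_single, hζc, ← pow_add,
          Nat.add_sub_cancel' (by have := Finset.mem_range.mp hi; omega), HahnSeries.single_pow,
          nsmul_zero]]
    rw [Finset.sum_const, Finset.card_range, ← HahnSeries.C_apply, ← map_nsmul, nsmul_eq_mul,
      HahnSeries.C_apply]
  · refine mul_ne_zero ?_ (pow_ne_zero _ fun hc0 => by simp [hc0, hn0] at hcn)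
    rw [← map_natCast (IsLocalRing.residue A), ne_eq, IsLocalRing.residue_eq_zero_iff]
    exact fun h' => h' (isUnit_natCast hl hA hn)
  · intro k
    rw [geom_sum₂_mul, HahnSeries.single_pow, nsmul_zero, hζn, HahnSeries.single_zero_one]
    exact h k

/-- An approximate idempotent is approximately `0` or `1`. -/
theorem exists_idempotent_approx (hl : l.Prime) (hA : A.LiesOverPrime l) (S : LaurentSeries A)
    {c : IsLocalRing.ResidueField A}
    (hred : ModularCurve.coeffMap (IsLocalRing.residue A) S = HahnSeries.single 0 c)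
    {a : A} (ha : a ≠ 0) (ha' : a ∈ IsLocalRing.maximalIdeal A)
    (h : ∀ k : ℤ, a ∣ (S ^ 2 - S).coeff k) :
    ∃ ε : A, (ε = 0 ∨ ε = 1) ∧ ∀ k : ℤ, a ∣ (S - HahnSeries.single 0 ε).coeff k := by
  classical
  have hc : c = 0 ∨ c = 1 := by
    have e := coeffMap_eq_zero_of_dvd ha' h
    rw [map_sub, map_pow, hred, HahnSeries.single_pow, nsmul_zero, sub_eq_zero] at e
    have e' : c ^ 2 = c := HahnSeries.single_injective (Γ := ℤ) 0 e
    rcases eq_or_ne c 0 with h0 | h0
    · exact Or.inl h0
    · exact Or.inr (mul_left_cancel₀ h0 (by rw [mul_one, ← pow_two, e']))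
  have main : ∀ ε : A, (ε = 0 ∨ ε = 1) → IsLocalRing.residue A ε = c →
      ∀ k : ℤ, a ∣ (S - HahnSeries.single 0 ε).coeff k := by
    intro ε hε hεc
    refine dvd_coeff_of_dvd_coeff_mul hl hA (S + HahnSeries.single 0 ε - 1) _
      (d := 2 * c - 1) ?_ ?_ ha fun k => ?_
    · rw [map_sub, map_add, hred, ModularCurve.coeffMap_single, hεc, map_one,
        ← HahnSeries.C_apply, ← HahnSeries.C_apply, ← map_add, ← map_one HahnSeries.C, ← map_sub,
        two_mul]
    · rcases hc with rfl | rfl <;> norm_num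
    · have : (S + HahnSeries.single 0 ε - 1) * (S - HahnSeries.single 0 ε) = S ^ 2 - S := by
        rcases hε with rfl | rfl
        · rw [map_zero]; ring
        · rw [HahnSeries.single_zero_one]; ring
      rw [this]
      exact h k
  rcases hc with rfl | rfl
  · exact ⟨0, Or.inl rfl, main 0 (Or.inl rfl) (map_zero _)⟩
  · exact ⟨1, Or.inr rfl, main 1 (Or.inr rfl) (map_one _)⟩

end Place

section RationalFunctions

variable {k : Type*} [Field k] {z : LaurentSeries k}

theorem order_add_algebraMap {x : LaurentSeries k} (hx : x.order < 0) (c : k) :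
    x + algebraMap k (LaurentSeries k) c ≠ 0 ∧
      (x + algebraMap k (LaurentSeries k) c).order = x.order := by
  have hx0 : x ≠ 0 := by rintro rfl; simp at hx
  have hne : (x + algebraMap k (LaurentSeries k) c).coeff x.order ≠ 0 := by
    rw [HahnSeries.coeff_add, ModularCurve.algebraMap_laurentSeries_eq_single,
      HahnSeries.coeff_single_of_ne hx.ne, add_zero]
    exact HahnSeries.coeff_order_eq_zero.not.mpr hx0
  have h0 : x + algebraMap k (LaurentSeries k) c ≠ 0 := fun h => hne (by rw [h]; rfl)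
  refine ⟨h0, le_antisymm (HahnSeries.order_le_of_coeff_ne_zero hne) ?_⟩
  by_contra hlt
  push Not at hlt
  refine HahnSeries.coeff_order_eq_zero.not.mpr h0 ?_
  rw [HahnSeries.coeff_add, HahnSeries.coeff_eq_zero_of_lt_order hlt,
    ModularCurve.algebraMap_laurentSeries_eq_single,
    ← ModularCurve.algebraMap_laurentSeries_eq_single,
    show (algebraMap k (LaurentSeries k) c).coeff (x + algebraMap k (LaurentSeries k) c).order = 0
      by rw [ModularCurve.algebraMap_laurentSeries_eq_single c (L := k),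
        HahnSeries.coeff_single_of_ne]
         rw [← ModularCurve.algebraMap_laurentSeries_eq_single]
         exact (hlt.trans hx).ne, add_zero]

theorem aeval_ne_zero_and_order_aeval (hz : z.order < 0) : ∀ (d : ℕ) (p : k[X]),
    p.natDegree = d → p ≠ 0 → aeval z p ≠ 0 ∧ (aeval z p).order = (d : ℤ) * z.order
  | 0, p, hd, hp => by
    rw [eq_C_of_natDegree_eq_zero hd] at hp ⊢
    have hc : p.coeff 0 ≠ 0 := fun h => hp (by rw [h, C_0])
    rw [aeval_C, ModularCurve.algebraMap_laurentSeries_eq_single]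
    exact ⟨HahnSeries.single_ne_zero hc, by simp [HahnSeries.order_single hc]⟩
  | d + 1, p, hd, hp => by
    have hdq : p.divX.natDegree = d := by rw [natDegree_divX_eq_natDegree_tsub_one, hd]; omega
    have hq : p.divX ≠ 0 := fun h => by
      have := congrArg natDegree (X_mul_divX_add p)
      rw [h, mul_zero, zero_add, natDegree_C, hd] at this
      omega
    obtain ⟨h1, h2⟩ := aeval_ne_zero_and_order_aeval hz d p.divX hdq hq
    have hz0 : z ≠ 0 := by rintro rfl; simp at hz
    have hord : (z * aeval z p.divX).order = ((d + 1 : ℕ) : ℤ) * z.order := by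
      rw [HahnSeries.order_mul hz0 h1, h2]
      push_cast
      ring
    have h := order_add_algebraMap (x := z * aeval z p.divX) (by rw [hord]; push_cast; nlinarith) (p.coeff 0)
    rw [hord] at h
    rw [← X_mul_divX_add p, map_add, map_mul, aeval_X, aeval_C]
    exact h

theorem aeval_ne_zero_of_order_neg (hz : z.order < 0) {p : k[X]} (hp : p ≠ 0) :
    aeval z p ≠ 0 := by
  exact (aeval_ne_zero_and_order_aeval hz _ p rfl hp).1

theorem order_aeval_of_order_neg (hz : z.order < 0) {p : k[X]} (hp : p ≠ 0) :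
    (aeval z p).order = (p.natDegree : ℤ) * z.order := by
  exact (aeval_ne_zero_and_order_aeval hz _ p rfl hp).2

/-- The ring `k[z, 1 / P(z)]` is integrally closed in `k(z)`. -/
theorem exists_eq_of_isIntegral_adjoin (hz : z.order < 0) (P : k[X]) (hP : P ≠ 0)
    {x : LaurentSeries k} {p q : k[X]} (hq : q ≠ 0) (hx : x * aeval z q = aeval z p)
    (hint : IsIntegral (Algebra.adjoin k {z, (aeval z P)⁻¹}) x) :
    ∃ (r : k[X]) (K : ℕ), x * aeval z P ^ K = aeval z r := by
  classical
  let φ : k[X] →+* LaurentSeries k := (aeval z).toRingHom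
  have hinj : Function.Injective φ := (injective_iff_map_eq_zero φ).mpr fun r hr => by
    by_contra h
    exact aeval_ne_zero_of_order_neg hz h hr
  have hP0 : φ P ≠ 0 := aeval_ne_zero_of_order_neg hz hP
  have hPmem : φ P ∈ φ.range := ⟨P, rfl⟩
  have hden : ∀ b ∈ Algebra.adjoin k {z, (aeval z P)⁻¹}, ∃ N : ℕ, b * φ P ^ N ∈ φ.range := by
    intro b hb
    induction hb using Algebra.adjoin_induction with
    | mem y hy =>
      rcases hy with rfl | rfl
      · exact ⟨0, X, by simp [φ]⟩
      · exact ⟨1, 1, by simp [φ, show aeval z P ≠ 0 from hP0]⟩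
    | algebraMap r => exact ⟨0, C r, by simp [φ]⟩
    | add u v _ _ hu hv =>
      obtain ⟨M, hM⟩ := hu
      obtain ⟨N, hN⟩ := hv
      refine ⟨M + N, ?_⟩
      rw [show (u + v) * φ P ^ (M + N) = u * φ P ^ M * φ P ^ N + v * φ P ^ N * φ P ^ M by ring]
      exact add_mem (mul_mem hM (pow_mem hPmem _)) (mul_mem hN (pow_mem hPmem _))
    | mul u v _ _ hu hv =>
      obtain ⟨M, hM⟩ := hu
      obtain ⟨N, hN⟩ := hv
      refine ⟨M + N, ?_⟩
      rw [show u * v * φ P ^ (M + N) = (u * φ P ^ M) * (v * φ P ^ N) by ring]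
      exact mul_mem hM hN
  obtain ⟨f, hf, hfx⟩ := hint
  set g : (LaurentSeries k)[X] := f.map (algebraMap _ (LaurentSeries k)) with hg
  have hgm : g.Monic := hf.map _
  have hgx : g.eval x = 0 := by rw [hg, eval_map]; exact hfx
  choose N hN using fun i => hden (g.coeff i) (by rw [hg, coeff_map]; exact (f.coeff i).2)
  set K := (Finset.range (g.natDegree + 1)).sup N with hK
  have hlift : g.scaleRoots (φ P ^ K) ∈ lifts φ := by
    refine (lifts_iff_coeff_lifts _).mpr fun i => ?_
    rw [coeff_scaleRoots]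
    rcases lt_trichotomy i g.natDegree with hi | hi | hi
    · obtain ⟨e, he⟩ := Nat.exists_eq_add_of_lt hi
      have hle : N i ≤ K := Finset.le_sup (f := N) (Finset.mem_range.mpr (by omega))
      rw [show g.natDegree - i = e + 1 by omega, ← pow_mul,
        show K * (e + 1) = N i + (K * e + (K - N i)) by rw [mul_add, mul_one]; omega,
        pow_add, ← mul_assoc]
      exact mul_mem (s := φ.range) (hN i) (pow_mem hPmem _)
    · exact ⟨1, by rw [hi, hgm.coeff_natDegree]; simp⟩
    · exact ⟨0, by rw [coeff_eq_zero_of_natDegree_lt hi]; simp⟩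
  obtain ⟨G, hG, -, hGm⟩ := lifts_and_degree_eq_and_monic hlift (monic_scaleRoots_iff _ |>.mpr hgm)
  have hroot : G.eval₂ φ (φ P ^ K * x) = 0 := by
    rw [← eval_map, hG, scaleRoots_eval_mul, hgx, mul_zero]
  let Φ : RatFunc k →+* LaurentSeries k := IsFractionRing.lift hinj
  have hΦ : ∀ r, Φ (algebraMap k[X] (RatFunc k) r) = φ r := IsFractionRing.lift_algebraMap hinj
  set u : RatFunc k :=
    algebraMap k[X] (RatFunc k) (P ^ K * p) / algebraMap k[X] (RatFunc k) q with hu
  have hΦu : Φ u = φ P ^ K * x := by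
    have hq0 : φ q ≠ 0 := aeval_ne_zero_of_order_neg hz hq
    rw [hu, map_div₀, hΦ, hΦ, map_mul, map_pow, div_eq_iff hq0, mul_assoc]
    exact congrArg _ hx.symm
  have huint : IsIntegral k[X] u := by
    refine ⟨G, hGm, Φ.injective ?_⟩
    rw [hom_eval₂, map_zero, hΦu, show Φ.comp (algebraMap k[X] (RatFunc k)) = φ from
      RingHom.ext hΦ, hroot]
  obtain ⟨r, hr⟩ := IsIntegrallyClosed.isIntegral_iff.mp huint
  refine ⟨r, K, ?_⟩
  have e := congrArg Φ hr
  rw [hΦ, hΦu] at e
  rw [mul_comm]
  exact e.symm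

end RationalFunctions

end FLTA.DeligneSerre
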