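import Fermat.Agent.DeligneSerre.Rigidity.Interp
import Fermat.Agent.DeligneSerre.Rigidity.Valuation

/-!
# The torsion of the first cohomology of a twist is bounded

Owner: helper5.

Principal parts far from `0` are all attained (`exists_interp` times a section with unit leading
coefficient); the finitely many remaining coordinates are handled by `exists_lattice_span` and
bounded denominators.
-/

set_option autoImplicit false

noncomputable section

open scoped MatrixGroups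
open UpperHalfPlane hiding I
open CongruenceSubgroup

namespace FLTA.DeligneSerre.BaseData

open ModularCurve (coeffMap)

local notation "Qb" => AlgebraicClosure ℚ

variable {A : ValuationSubring Qb} {N : ℕ} [NeZero N] (D : BaseData A N)
  {δ : Gamma N →* ℂ} (hpar : ParTriv N δ)

include hpar

include D in
/-- Sections with a unit leading coefficient in any low enough degree at a given cusp. -/
theorem exists_low_lead (c : SL(2, ℤ))
    (hlead : ∃ f ∈ Tw N δ, IsIntFn A N f ∧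
      ∃ a : A, IsUnit a ∧ iota (a : Qb) = (cexp N f c).coeff (cexp N f c).order) :
    ∃ J : ℕ, ∀ m < -(J : ℤ), ∃ H ∈ Tw N δ, IsIntFn A N H ∧ HasLead A (cexp N H c) m ∧
      ∀ g, ¬ EqInfty N (c⁻¹ * g) → ZB (cexp N H g) (-(J : ℤ)) := by
  obtain ⟨f, hf, hfi, a, ha, hfa⟩ := hlead
  have hfp := Tw.mem_perFn hpar hf
  obtain ⟨p, hp⟩ := exists_pole_bound hpar hf
  obtain ⟨J, hJ⟩ := D.exists_interp 0
  have hflead : HasLead A (cexp N f c) (cexp N f c).order :=
    hasLead_of_coeff (zb_order _) ha hfa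
  refine ⟨p + J + (-(cexp N f c).order).toNat, fun m hm => ?_⟩
  obtain ⟨i, hi⟩ : ∃ i : ℤ, i = m - (cexp N f c).order := ⟨_, rfl⟩
  have hi0 : i < 0 := by omega
  obtain ⟨y, hy, hy1, -, hy3⟩ := hJ (HahnSeries.single i 1)
  have hy' : compHom c⁻¹ y ∈ BRing A N := compHom_mem_bRing hy _
  have hylead : HasLead A (cexp N (compHom c⁻¹ y) c) i := by
    rw [cexp_compHom, inv_mul_cancel]
    refine hasLead_of_coeff (fun k hk => ?_) isUnit_one ?_
    · rw [hy1 k (hk.trans hi0), HahnSeries.coeff_single_of_ne hk.ne]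
      simp
    · rw [hy1 i hi0, HahnSeries.coeff_single_same]
  have hmem : f * compHom c⁻¹ y ∈ Tw N δ := by
    simpa using mul_mem_tw hf (bRing_tw hy')
  refine ⟨f * compHom c⁻¹ y, hmem, ?_, ?_, fun g hg => ?_⟩
  · exact (mul_mem (show f ∈ IntFn A N from ⟨hfp, hfi⟩)
      (show compHom c⁻¹ y ∈ IntFn A N from hy'.2)).2
  · rw [cexp_mul hfp (bRing_perFn hy')]
    have h := hflead.mul hylead
    rwa [show (cexp N f c).order + i = m by omega] at h
  · rw [cexp_mul hfp (bRing_perFn hy'), cexp_compHom]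
    exact ((hp g).mul (hy3 _ hg)).mono (by omega)

omit [NeZero N] hpar in
/-- Negative coefficients divisible by `a`. -/
theorem negDvd_iff {a : A} {F : ℍ → ℂ} :
    (∀ (g : SL(2, ℤ)), ∀ k < (0 : ℤ),
        ∃ b : A, iota ((a * b : A) : Qb) = (cexp N F g).coeff k) ↔
      ∀ (g : SL(2, ℤ)), ∀ k < (0 : ℤ),
        ∃ b : A, iota (a : Qb) * iota (b : Qb) = (cexp N F g).coeff k := by
  simp only [MulMemClass.coe_mul, map_mul]

/-- Removing the principal parts below `-J` at one cusp. -/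
theorem exists_reduce_at (c : SL(2, ℤ)) (J : ℕ)
    (hH : ∀ m < -(J : ℤ), ∃ H ∈ Tw N δ, IsIntFn A N H ∧ HasLead A (cexp N H c) m ∧
      ∀ g, ¬ EqInfty N (c⁻¹ * g) → ZB (cexp N H g) (-(J : ℤ)))
    (a : A) (d : ℕ) :
    ∀ f ∈ Tw N δ, IsIntFn A N f →
      (∀ (g : SL(2, ℤ)), ∀ k < (0 : ℤ),
        ∃ b : A, iota ((a * b : A) : Qb) = (cexp N f g).coeff k) →
      ZB (cexp N f c) (-(J : ℤ) - d) →
      ∃ h ∈ Tw N δ, IsIntFn A N h ∧
        ZB (cexp N (f - iota (a : Qb) • h) c) (-(J : ℤ)) ∧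
        (∀ g, ¬ EqInfty N (c⁻¹ * g) → ZB (cexp N h g) (-(J : ℤ))) := by
  induction d with
  | zero =>
    intro f hf hfi hdiv hz
    refine ⟨0, zero_mem _, ?_, by simpa using hz, fun g _ => ?_⟩
    · exact (zero_mem (IntFn A N)).2
    · rw [cexp_zero]; exact zb_zero _
  | succ d ih =>
    intro f hf hfi hdiv hz
    set m := -(J : ℤ) - ((d : ℤ) + 1) with hm
    obtain ⟨H, hHt, hHi, hHl, hHg⟩ := hH m (by omega)
    obtain ⟨u, hu, huH⟩ := hHl.coeff_eq
    obtain ⟨b, hb⟩ := hdiv c m (by omega)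
    obtain ⟨u', rfl⟩ := hu
    set t : A := b * ↑u'⁻¹ with ht
    have hfp := Tw.mem_perFn hpar hf
    have hHp := Tw.mem_perFn hpar hHt
    have hHI : H ∈ IntFn A N := ⟨hHp, hHi⟩
    have hsub : f - iota (a : Qb) • (iota (t : Qb) • H) ∈ IntFn A N :=
      sub_mem (show f ∈ IntFn A N from ⟨hfp, hfi⟩) (smul_mem_intFn a (smul_mem_intFn t hHI))
    have hexp : ∀ g, cexp N (f - iota (a : Qb) • (iota (t : Qb) • H)) g =
        cexp N f g - iota (a : Qb) • (iota (t : Qb) • cexp N H g) := fun g => by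
      rw [cexp_sub hfp (smul_mem_intFn a (smul_mem_intFn t hHI)).1,
        cexp_smul (smul_mem_intFn t hHI).1, cexp_smul hHp]
    obtain ⟨h, hht, hhi, hhz, hhg⟩ := ih (f - iota (a : Qb) • (iota (t : Qb) • H))
      (sub_mem hf (Submodule.smul_mem _ _ (Submodule.smul_mem _ _ hHt))) hsub.2
      (fun g k hk => by
        obtain ⟨b₀, hb₀⟩ := hdiv g k hk
        obtain ⟨x, hx⟩ := hHi g k
        refine ⟨b₀ - t * x, ?_⟩
        rw [hexp, HahnSeries.coeff_sub, HahnSeries.coeff_smul, HahnSeries.coeff_smul, ← hb₀,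
          ← hx]
        simp only [MulMemClass.coe_mul, AddSubgroupClass.coe_sub, map_mul, map_sub, smul_eq_mul]
        ring)
      (fun k hk => by
        rw [hexp, HahnSeries.coeff_sub, HahnSeries.coeff_smul, HahnSeries.coeff_smul]
        rcases lt_or_eq_of_le (show k ≤ m by omega) with h | h
        · rw [hz k (by omega), hHl.zb k h, smul_zero, smul_zero, sub_zero]
        · subst h
          rw [← hb, ← huH, smul_eq_mul, smul_eq_mul, ← map_mul, ← map_mul,
            ← MulMemClass.coe_mul, ← MulMemClass.coe_mul, ht, mul_assoc b, Units.inv_mul,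
            mul_one, sub_self])
    have hhp := Tw.mem_perFn hpar hht
    refine ⟨h + iota (t : Qb) • H, add_mem hht (Submodule.smul_mem _ _ hHt),
      (add_mem (show h ∈ IntFn A N from ⟨hhp, hhi⟩) (smul_mem_intFn t hHI)).2, ?_, fun g hg => ?_⟩
    · rwa [smul_add, add_comm (iota (a : Qb) • h), ← sub_sub]
    · rw [cexp_add hhp (smul_mem_intFn t hHI).1, cexp_smul hHp]
      exact (hhg g hg).add ((hHg g hg).smul _)

/-- Removing all principal parts below `-J`. -/
theorem exists_reduce (C : Finset SL(2, ℤ)) (J : ℕ)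
    (hH : ∀ c ∈ C, ∀ m < -(J : ℤ), ∃ H ∈ Tw N δ, IsIntFn A N H ∧
      HasLead A (cexp N H c) m ∧
      ∀ g, ¬ EqInfty N (c⁻¹ * g) → ZB (cexp N H g) (-(J : ℤ)))
    (a : A) {f : ℍ → ℂ} (hf : f ∈ Tw N δ) (hfi : IsIntFn A N f)
    (hdiv : ∀ (g : SL(2, ℤ)), ∀ k < (0 : ℤ),
      ∃ b : A, iota ((a * b : A) : Qb) = (cexp N f g).coeff k) :
    ∃ h ∈ Tw N δ, IsIntFn A N h ∧
      ∀ c ∈ C, ZB (cexp N (f - iota (a : Qb) • h) c) (-(J : ℤ)) := by
  classical
  induction C using Finset.induction_on with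
  | empty => exact ⟨0, zero_mem _, (zero_mem (IntFn A N)).2, fun c hc => absurd hc (by simp)⟩
  | insert c C hc ih =>
    obtain ⟨h, hht, hhi, hhz⟩ := ih fun c' hc' => hH c' (Finset.mem_insert_of_mem hc')
    set f' := f - iota (a : Qb) • h with hf'
    have hhI : h ∈ IntFn A N := ⟨Tw.mem_perFn hpar hht, hhi⟩
    have hf't : f' ∈ Tw N δ := sub_mem hf (Submodule.smul_mem _ _ hht)
    by_cases hcov : ∃ c' ∈ C, EqInfty N (c⁻¹ * c')
    · obtain ⟨c', hc', hcc⟩ := hcov
      exact ⟨h, hht, hhi, Finset.forall_mem_insert _ _ _ |>.2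
        ⟨(zb_iff_of_eqInfty hpar hf't hcc _).1 (hhz c' hc'), hhz⟩⟩
    have hf'i : IsIntFn A N f' :=
      (sub_mem (show f ∈ IntFn A N from ⟨Tw.mem_perFn hpar hf, hfi⟩)
        (smul_mem_intFn a hhI)).2
    obtain ⟨h', hh't, hh'i, hh'z, hh'g⟩ :=
      exists_reduce_at hpar c J (hH c (Finset.mem_insert_self c C)) a
        (-(J : ℤ) - (cexp N f' c).order).toNat f' hf't hf'i
        (fun g k hk => by
          obtain ⟨b₀, hb₀⟩ := hdiv g k hk
          obtain ⟨x, hx⟩ := hhi g k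
          refine ⟨b₀ - x, ?_⟩
          rw [hf', cexp_sub (Tw.mem_perFn hpar hf) (smul_mem_intFn a hhI).1,
            cexp_smul hhI.1, HahnSeries.coeff_sub, HahnSeries.coeff_smul, ← hb₀, ← hx]
          simp only [MulMemClass.coe_mul, AddSubgroupClass.coe_sub, map_mul, map_sub,
            smul_eq_mul]
          ring)
        ((zb_order _).mono (by omega))
    refine ⟨h + h', add_mem hht hh't,
      (add_mem hhI (show h' ∈ IntFn A N from ⟨Tw.mem_perFn hpar hh't, hh'i⟩)).2, ?_⟩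
    rw [Finset.forall_mem_insert, smul_add, ← sub_sub]
    refine ⟨hh'z, fun c' hc' => ?_⟩
    have hg : ¬ EqInfty N (c⁻¹ * c') := fun hE => hcov ⟨c', hc', hE⟩
    rw [cexp_sub (Tw.mem_perFn hpar hf't)
      (Tw.mem_perFn hpar (Submodule.smul_mem _ _ hh't)), cexp_smul (Tw.mem_perFn hpar hh't)]
    exact (hhz c' hc').sub ((hh'g c' hg).smul _)

include D in
/-- One `c` kills the torsion of the principal parts modulo those of twisted functions.
`hdenom` is bounded denominators in the twist, `hlead` gives a section at every cusp with unit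
leading coefficient. -/
theorem exists_torsion_bound
    (hdenom : ∀ f ∈ Tw N δ, IsAlgFn N f →
      ∃ c : A, c ≠ 0 ∧ IsIntFn A N (iota (c : Qb) • f))
    (hlead : ∀ g : SL(2, ℤ), ∃ f ∈ Tw N δ, IsIntFn A N f ∧
      ∃ a : A, IsUnit a ∧ iota (a : Qb) = (cexp N f g).coeff (cexp N f g).order) :
    ∃ c : A, c ≠ 0 ∧ ∀ a : A, a ≠ 0 → ∀ f ∈ Tw N δ, IsIntFn A N f →
      (∀ (g : SL(2, ℤ)), ∀ k < (0 : ℤ),
        ∃ b : A, iota ((a * b : A) : Qb) = (cexp N f g).coeff k) →
      ∃ h ∈ Tw N δ, IsIntFn A N h ∧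
        ∀ g : SL(2, ℤ), 0 ≤ (cexp N (iota (c : Qb) • f - iota (a : Qb) • h) g).order := by
  classical
  have : Fintype (SL(2, ℤ) ⧸ Gamma N) := Fintype.ofFinite _
  let out : SL(2, ℤ) ⧸ Gamma N → SL(2, ℤ) := Quotient.out
  choose J₁ hJ₁ using fun q : SL(2, ℤ) ⧸ Gamma N =>
    D.exists_low_lead hpar (out q) (hlead (out q))
  set J := Finset.univ.sup J₁ with hJdef
  have hle : ∀ q, J₁ q ≤ J := fun q => Finset.le_sup (f := J₁) (Finset.mem_univ q)
  have hH : ∀ c ∈ Finset.univ.image out, ∀ m < -(J : ℤ), ∃ H ∈ Tw N δ, IsIntFn A N H ∧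
      HasLead A (cexp N H c) m ∧
      ∀ g, ¬ EqInfty N (c⁻¹ * g) → ZB (cexp N H g) (-(J : ℤ)) := by
    intro c hc m hm
    obtain ⟨q, -, rfl⟩ := Finset.mem_image.1 hc
    have hq := hle q
    obtain ⟨H, h1, h2, h3, h4⟩ := hJ₁ q m (by omega)
    exact ⟨H, h1, h2, h3, fun g hg => (h4 g hg).mono (by omega)⟩
  -- the coordinates between `-J` and `-1`
  let W : Submodule Qb ((SL(2, ℤ) ⧸ Gamma N) × Fin J → Qb) :=
    { carrier := {x | ∃ F ∈ Tw N δ, IsAlgFn N F ∧ (∀ g, ZB (cexp N F g) (-(J : ℤ))) ∧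
        ∀ i, iota (x i) = (cexp N F (out i.1)).coeff (-((i.2 : ℕ) : ℤ) - 1)}
      zero_mem' := ⟨0, zero_mem _, (zero_mem (AlgFn N)).2,
        fun g => by rw [cexp_zero]; exact zb_zero _, fun i => by simp [cexp_zero]⟩
      add_mem' := by
        rintro x y ⟨F, hF, hFa, hFz, hFx⟩ ⟨G, hG, hGa, hGz, hGy⟩
        have hFp := Tw.mem_perFn hpar hF
        have hGp := Tw.mem_perFn hpar hG
        refine ⟨F + G, add_mem hF hG, (add_mem (show F ∈ AlgFn N from ⟨hFp, hFa⟩)
          (show G ∈ AlgFn N from ⟨hGp, hGa⟩)).2, fun g => ?_, fun i => ?_⟩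
        · rw [cexp_add hFp hGp]; exact (hFz g).add (hGz g)
        · rw [cexp_add hFp hGp, HahnSeries.coeff_add, Pi.add_apply, map_add, hFx, hGy]
      smul_mem' := by
        rintro a x ⟨F, hF, hFa, hFz, hFx⟩
        have hFp := Tw.mem_perFn hpar hF
        refine ⟨iota a • F, Submodule.smul_mem _ _ hF,
          (smul_mem_algFn (show F ∈ AlgFn N from ⟨hFp, hFa⟩)).2, fun g => ?_, fun i => ?_⟩
        · rw [cexp_smul hFp]; exact (hFz g).smul _
        · rw [cexp_smul hFp, HahnSeries.coeff_smul, Pi.smul_apply, smul_eq_mul, map_mul, hFx,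
            smul_eq_mul] }
  obtain ⟨r, w, hw, -, hspan⟩ := exists_lattice_span (A := A) W
  choose F hFt hFa hFz hFw using hw
  choose cd hcd0 hcd using fun j => hdenom (F j) (hFt j) (hFa j)
  set c := ∏ j, cd j with hc
  have hcF : ∀ j, iota (c : Qb) • F j ∈ IntFn A N := by
    intro j
    have h := smul_mem_intFn (∏ i ∈ Finset.univ.erase j, cd i)
      (show iota (cd j : Qb) • F j ∈ IntFn A N from
        ⟨Subalgebra.smul_mem _ (Tw.mem_perFn hpar (hFt j)) _, hcd j⟩)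
    rwa [smul_smul, ← map_mul, ← MulMemClass.coe_mul,
      Finset.prod_erase_mul _ _ (Finset.mem_univ j)] at h
  refine ⟨c, Finset.prod_ne_zero_iff.2 fun j _ => hcd0 j, fun a ha f hf hfi hdiv => ?_⟩
  obtain ⟨h₁, hh₁t, hh₁i, hh₁z⟩ := exists_reduce hpar _ J hH a hf hfi hdiv
  set f' := f - iota (a : Qb) • h₁ with hf'
  have hh₁I : h₁ ∈ IntFn A N := ⟨Tw.mem_perFn hpar hh₁t, hh₁i⟩
  have hf'I : f' ∈ IntFn A N :=
    sub_mem (show f ∈ IntFn A N from ⟨Tw.mem_perFn hpar hf, hfi⟩) (smul_mem_intFn a hh₁I)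
  have hf't : f' ∈ Tw N δ := sub_mem hf (Submodule.smul_mem _ _ hh₁t)
  have hf'z : ∀ g, ZB (cexp N f' g) (-(J : ℤ)) := fun g =>
    (zb_iff_of_eqInfty hpar hf't (eqInfty_out g) _).2
      (hh₁z _ (Finset.mem_image.2 ⟨_, Finset.mem_univ _, rfl⟩))
  have hb : ∀ i : (SL(2, ℤ) ⧸ Gamma N) × Fin J, ∃ b : A,
      iota (a : Qb) * iota (b : Qb) = (cexp N f' (out i.1)).coeff (-((i.2 : ℕ) : ℤ) - 1) := by
    intro i
    obtain ⟨b₀, hb₀⟩ := hdiv (out i.1) (-((i.2 : ℕ) : ℤ) - 1) (by omega)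
    obtain ⟨x, hx⟩ := hh₁i (out i.1) (-((i.2 : ℕ) : ℤ) - 1)
    refine ⟨b₀ - x, ?_⟩
    rw [hf', cexp_sub (Tw.mem_perFn hpar hf) (smul_mem_intFn a hh₁I).1,
      cexp_smul hh₁I.1, HahnSeries.coeff_sub, HahnSeries.coeff_smul, ← hb₀, ← hx]
    simp only [MulMemClass.coe_mul, AddSubgroupClass.coe_sub, map_mul, map_sub, smul_eq_mul]
    ring
  choose b hbb using hb
  have ha' : iota (a : Qb) ≠ 0 := fun h0 =>
    ha (Subtype.ext (iota.injective (h0.trans (map_zero iota).symm)))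
  have hxW : (fun i => (b i : Qb)) ∈ W := by
    refine ⟨iota (a : Qb)⁻¹ • f', Submodule.smul_mem _ _ hf't,
      (smul_mem_algFn (intFn_le_algFn A hf'I)).2, fun g => ?_, fun i => ?_⟩
    · rw [cexp_smul hf'I.1]; exact (hf'z g).smul _
    · rw [cexp_smul hf'I.1, HahnSeries.coeff_smul, ← hbb, smul_eq_mul, ← mul_assoc, map_inv₀,
        inv_mul_cancel₀ ha', one_mul]
  obtain ⟨d, hd⟩ := hspan _ hxW fun i => (b i).2
  set h₂ := ∑ j, iota (d j : Qb) • (iota (c : Qb) • F j) with hh₂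
  have hh₂I : h₂ ∈ IntFn A N := sum_mem fun j _ => smul_mem_intFn (d j) (hcF j)
  refine ⟨iota (c : Qb) • h₁ + h₂,
    add_mem (Submodule.smul_mem _ _ hh₁t)
      (sum_mem fun j _ => Submodule.smul_mem _ _ (Submodule.smul_mem _ _ (hFt j))),
    (add_mem (smul_mem_intFn c hh₁I) hh₂I).2, fun g => ?_⟩
  have hkey : iota (c : Qb) • f - iota (a : Qb) • (iota (c : Qb) • h₁ + h₂) =
      iota (c : Qb) • f' - iota (a : Qb) • h₂ := by
    rw [hf', smul_sub, smul_add, smul_comm (iota (a : Qb)) (iota (c : Qb)) h₁, sub_sub]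
  rw [hkey]
  have hGt : iota (c : Qb) • f' - iota (a : Qb) • h₂ ∈ Tw N δ :=
    sub_mem (Submodule.smul_mem _ _ hf't) (Submodule.smul_mem _ _
      (sum_mem fun j _ => Submodule.smul_mem _ _ (Submodule.smul_mem _ _ (hFt j))))
  refine order_nonneg_of_zb ((zb_iff_of_eqInfty hpar hGt (eqInfty_out g) 0).2 fun k hk => ?_)
  have hh₂e : ∀ g', cexp N h₂ g' =
      ∑ j, iota (d j : Qb) • (iota (c : Qb) • cexp N (F j) g') := fun g' => by
    rw [hh₂, cexp_sum Finset.univ fun j _ => (smul_mem_intFn (d j) (hcF j)).1]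
    exact Finset.sum_congr rfl fun j _ => by
      rw [cexp_smul (hcF j).1, cexp_smul (Tw.mem_perFn hpar (hFt j))]
  rw [cexp_sub (smul_mem_intFn c hf'I).1 (smul_mem_intFn a hh₂I).1, cexp_smul hf'I.1,
    cexp_smul hh₂I.1, hh₂e, HahnSeries.coeff_sub, HahnSeries.coeff_smul, HahnSeries.coeff_smul,
    HahnSeries.coeff_sum]
  simp only [HahnSeries.coeff_smul, smul_eq_mul]
  rcases lt_or_ge k (-(J : ℤ)) with hkJ | hkJ
  · rw [hf'z _ k hkJ, Finset.sum_eq_zero fun j _ => by rw [hFz j _ k hkJ, mul_zero, mul_zero]]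
    ring
  · obtain ⟨i, hi⟩ : ∃ i : Fin J, k = -((i : ℕ) : ℤ) - 1 :=
      ⟨⟨(-k - 1).toNat, by omega⟩, by simp only; omega⟩
    subst hi
    have hq := hbb ((g : SL(2, ℤ) ⧸ Gamma N), i)
    have hsum := congrArg iota (congrFun hd ((g : SL(2, ℤ) ⧸ Gamma N), i))
    simp only [Finset.sum_apply, Pi.smul_apply, smul_eq_mul, map_sum, map_mul, hFw] at hsum
    simp only [out] at hq hsum
    rw [← hq, hsum, Finset.mul_sum, Finset.mul_sum, Finset.mul_sum,
      ← Finset.sum_sub_distrib]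
    exact Finset.sum_eq_zero fun j _ => by ring

end FLTA.DeligneSerre.BaseData
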