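import Fermat.Agent.DeligneSerre.Rigidity.CuspStep

/-!
# Twisted functions with a unit leading coefficient at a cusp

Let `μ` be the sum over the cusps above `∞` of (order of the reduction − order) of `F = f ^ n`
(scaled into `BRing` with nonzero reduction).  If `0 < μ` the norm of `F` is `W ^ K * p(Z)` with a
root `z₀` of `p` outside `A`; `f` vanishes at a point above it.  Multiplying by `e'' / (1 / Z - 1 / z₀)`,
where `e''` is a primitive integral combination of interpolations vanishing at the other points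
above `z₀`, keeps `f` in the twist and lowers `μ`.
-/

set_option autoImplicit false

noncomputable section

open scoped MatrixGroups
open UpperHalfPlane CongruenceSubgroup

namespace FLTA.DeligneSerre

open ModularCurve (coeffMap)
open Polynomial hiding map_ne_zero

local notation "Qb" => AlgebraicClosure ℚ

theorem order_prod {k ι : Type*} [Field k] (s : Finset ι) (x : ι → LaurentSeries k)
    (h : ∀ i ∈ s, x i ≠ 0) : (∏ i ∈ s, x i).order = ∑ i ∈ s, (x i).order := by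
  classical
  induction s using Finset.induction_on with
  | empty => simp
  | insert i s hi ih =>
    rw [Finset.forall_mem_insert] at h
    rw [Finset.prod_insert hi, Finset.sum_insert hi,
      HahnSeries.order_mul h.1 (Finset.prod_ne_zero_iff.2 h.2), ih h.2]

theorem order_inv_laurent {k : Type*} [Field k] {x : LaurentSeries k} (hx : x ≠ 0) :
    x⁻¹.order = -x.order := by
  have h := HahnSeries.order_mul hx (inv_ne_zero hx)
  rw [mul_inv_cancel₀ hx, HahnSeries.order_one] at h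
  omega

/-- The character `γ ↦ δ (g γ g⁻¹)`. -/
def conjChar {N : ℕ} (δ : Gamma N →* ℂ) (g : SL(2, ℤ)) : Gamma N →* ℂ where
  toFun γ := δ ⟨g * γ * g⁻¹, (Gamma_normal N).conj_mem _ γ.2 g⟩
  map_one' := by
    convert map_one δ using 2
    exact Subtype.ext (by simp)
  map_mul' a b := by
    rw [← map_mul]
    exact congrArg δ (Subtype.ext (by simp [mul_assoc]))

theorem conjChar_inv {N : ℕ} (δ : Gamma N →* ℂ) (g : SL(2, ℤ)) :
    conjChar (conjChar δ g) g⁻¹ = δ :=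
  MonoidHom.ext fun γ => congrArg δ (Subtype.ext (by simp [mul_assoc]))

theorem parTriv_conjChar {N : ℕ} {δ : Gamma N →* ℂ} (h : ParTriv N δ) (g : SL(2, ℤ)) :
    ParTriv N (conjChar δ g) := fun γ g' m hγ => h _ (g * g') m (by
  show g * (γ : SL(2, ℤ)) * g⁻¹ = _
  rw [hγ]
  group)

theorem tw_comp {N : ℕ} [NeZero N] {δ : Gamma N →* ℂ} {f : ℍ → ℂ} (hf : f ∈ Tw N δ)
    (g : SL(2, ℤ)) : (fun τ : ℍ => f (g • τ)) ∈ Tw N (conjChar δ g) := by
  refine ⟨comp_smul_mem_hol' hf.1 g, fun γ τ => ?_, fun g' => ?_⟩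
  · have h := hf.2.1 ⟨g * γ * g⁻¹, (Gamma_normal N).conj_mem _ γ.2 g⟩ (g • τ)
    simp only [← mul_smul, inv_mul_cancel_right] at h ⊢
    exact h
  · simpa only [← mul_smul] using hf.2.2 (g * g')

namespace BaseData

variable {A : ValuationSubring Qb} {N : ℕ} [NeZero N] (D : BaseData A N)

/-- The sum over the cusps above `∞` of the order of the reduction minus the order. -/
def defect (G : BRing A N) : ℤ :=
  ∑ h ∈ D.reps, ((redAt h G).order - (cexp N (G : ℍ → ℂ) h).order)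

theorem defect_nonneg (G : BRing A N) (hG : ∀ g, redAt g G ≠ 0) : 0 ≤ D.defect G :=
  Finset.sum_nonneg fun h _ => sub_nonneg.2 (order_le_order_redAt h G (hG h))

theorem order_eq_of_defect_eq_zero (G : BRing A N) (hG : ∀ g, redAt g G ≠ 0)
    (h0 : D.defect G = 0) :
    ∃ a : A, IsUnit a ∧
      iota (a : Qb) = (cexp N (G : ℍ → ℂ) 1).coeff (cexp N (G : ℍ → ℂ) 1).order := by
  have h1 := (Finset.sum_eq_zero_iff_of_nonneg fun h _ =>
    sub_nonneg.2 (order_le_order_redAt h G (hG h))).1 h0 1 D.one_mem_reps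
  rw [sub_eq_zero] at h1
  obtain ⟨a, ha⟩ := G.2.2.2 1 (cexp N (G : ℍ → ℂ) 1).order
  refine ⟨a, ?_, ha⟩
  have hne := HahnSeries.coeff_order_eq_zero.not.2 (hG 1)
  rw [h1, coeff_redAt, ← ha, redC_iota] at hne
  by_contra hu
  exact hne ((IsLocalRing.residue_eq_zero_iff a).2 hu)

theorem order_cexp_polyZ {p : A[X]} (hp : p ≠ 0) :
    cexp N (D.polyZ p) 1 ≠ 0 ∧ (cexp N (D.polyZ p) 1).order = -((p.natDegree : ℤ) * D.e) := by
  set x : PerFn N := ⟨D.Z, bRing_perFn D.Z_mem⟩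
  have h1 : (aeval x (p.map (iotaA A)) : PerFn N) = ⟨D.polyZ p, bRing_perFn (D.polyZ_mem p)⟩ := by
    refine Subtype.ext ?_
    rw [← Subalgebra.aeval_coe, aeval_def, eval₂_map]
    rfl
  have h2 : cexp N (D.polyZ p) 1 = aeval (cexp N D.Z 1) (p.map (iotaA A)) := by
    rw [cexp_eq (bRing_perFn (D.polyZ_mem p)), ← h1, ← aeval_algHom_apply, ← cexp_eq]
  have hp' : p.map (iotaA A) ≠ 0 := (Polynomial.map_ne_zero_iff (iotaA_injective A)).2 hp
  have hz : (cexp N D.Z 1).order < 0 := by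
    rw [D.Z_order]
    simpa using D.e_pos
  rw [h2, order_aeval_of_order_neg hz hp', natDegree_map_eq_of_injective (iotaA_injective A),
    D.Z_order]
  exact ⟨aeval_ne_zero_of_order_neg hz hp', by ring⟩

/-- A positive defect comes from a drop of degree in the norm. -/
theorem exists_root_norm (G : BRing A N) (hG : ∀ g, redAt g G ≠ 0) (hpos : 0 < D.defect G) :
    ∃ z₀ : Qb, z₀ ∉ A ∧ ∀ τ : ℍ, D.Z τ = iota z₀ → ∃ h ∈ D.reps, (G : ℍ → ℂ) (h • τ) = 0 := by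
  obtain ⟨p, K, hp⟩ := D.exists_inv'_of_invariant (D.norm_mem G.2)
    fun γ hγ => D.compHom_norm G.2.1 hγ
  have hredn : redAt 1 ⟨D.norm G, D.norm_mem G.2⟩ = ∏ h ∈ D.reps, redAt h G := by
    rw [show (⟨D.norm G, D.norm_mem G.2⟩ : BRing A N) =
      ∏ h ∈ D.reps, (⟨_, compHom_mem_bRing G.2 h⟩ : BRing A N) from Subtype.ext (by
        rw [SubmonoidClass.coe_finsetProd]; rfl), map_prod]
    exact Finset.prod_congr rfl fun h _ => by rw [redAt_comp, mul_one]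
  have hcexpn : cexp N (D.norm G) 1 = ∏ h ∈ D.reps, cexp N (G : ℍ → ℂ) h := by
    have hm : ∀ h, compHom h (G : ℍ → ℂ) ∈ PerFn N := fun h =>
      bRing_perFn (compHom_mem_bRing G.2 h)
    rw [cexp_eq (bRing_perFn (D.norm_mem G.2)),
      show (⟨D.norm G, bRing_perFn (D.norm_mem G.2)⟩ : PerFn N) =
        ∏ h ∈ D.reps, ⟨_, hm h⟩ from Subtype.ext (by rw [SubmonoidClass.coe_finsetProd]; rfl),
      map_prod]
    exact Finset.prod_congr rfl fun h _ => by rw [← cexp_eq, cexp_compHom, mul_one]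
  rw [show (⟨D.norm G, D.norm_mem G.2⟩ : BRing A N) = ⟨D.inv' p K, D.inv'_mem p K⟩ from
    Subtype.ext hp, D.redAt_inv'] at hredn
  rw [hp] at hcexpn
  have hne0 : (∏ h ∈ D.reps, redAt h G) ≠ 0 := Finset.prod_ne_zero_iff.2 fun h _ => hG h
  have hp0 : p.map (IsLocalRing.residue A) ≠ 0 := fun h0 => hne0 (by
    rw [← hredn, h0, map_zero, mul_zero])
  have hpne : p ≠ 0 := fun h0 => hp0 (by rw [h0, Polynomial.map_zero])
  have hcW : cexp N D.W 1 = (cexp N (D.polyZ D.P) 1)⁻¹ := by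
    refine eq_inv_of_mul_eq_one_left ?_
    rw [← cexp_mul (bRing_perFn D.W_mem) (bRing_perFn (D.polyZ_mem _)), D.W_mul_polyZ, cexp_one]
  obtain ⟨hP1, hP2⟩ := D.order_cexp_polyZ D.P_monic.ne_zero
  obtain ⟨hp1, hp2⟩ := D.order_cexp_polyZ hpne
  have hexact : (∑ h ∈ D.reps, (cexp N (G : ℍ → ℂ) h).order) =
      (K : ℤ) * ((D.P.natDegree : ℤ) * D.e) - (p.natDegree : ℤ) * D.e := by
    rw [← order_prod _ _ fun h _ => cexp_ne_zero_of_redAt h G (hG h), ← hcexpn, inv',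
      cexp_mul (pow_mem (bRing_perFn D.W_mem) K) (bRing_perFn (D.polyZ_mem _)),
      cexp_pow (bRing_perFn D.W_mem), hcW,
      HahnSeries.order_mul (pow_ne_zero _ (inv_ne_zero hP1)) hp1, HahnSeries.order_pow,
      order_inv_laurent hP1, hP2, hp2, nsmul_eq_mul]
    ring
  have hred : (∑ h ∈ D.reps, (redAt h G).order) =
      (K : ℤ) * ((D.P.natDegree : ℤ) * D.e) -
        ((p.map (IsLocalRing.residue A)).natDegree : ℤ) * D.e := by
    rw [← order_prod _ _ fun h _ => hG h, ← hredn,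
      HahnSeries.order_mul (pow_ne_zero _ (inv_ne_zero D.aeval_rP_ne))
        (aeval_ne_zero_of_order_neg D.rZ_order_neg hp0), HahnSeries.order_pow,
      order_inv_laurent D.aeval_rP_ne, order_aeval_of_order_neg D.rZ_order_neg D.rP_monic.ne_zero,
      order_aeval_of_order_neg D.rZ_order_neg hp0, D.rZ_order, rP, D.P_monic.natDegree_map,
      nsmul_eq_mul]
    ring
  have hdeg : (p.map (IsLocalRing.residue A)).natDegree < p.natDegree := by
    rw [defect, Finset.sum_sub_distrib, hexact, hred] at hpos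
    by_contra hle
    have h1 : (p.natDegree : ℤ) ≤ (p.map (IsLocalRing.residue A)).natDegree := by
      exact_mod_cast not_lt.1 hle
    nlinarith [(Int.natCast_nonneg D.e)]
  obtain ⟨z₀, hroot, hz₀⟩ := exists_root_not_mem p hp0 hdeg
  refine ⟨z₀, hz₀, fun τ hτ => ?_⟩
  have h0 : D.norm G τ = 0 := by
    rw [hp, inv', Pi.mul_apply, D.polyZ_apply, hτ, eval_map_iotaA, hroot.eq_zero, map_zero,
      mul_zero]
  rw [norm, Finset.prod_apply, Finset.prod_eq_zero_iff] at h0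
  obtain ⟨h, hh, hh0⟩ := h0
  exact ⟨h, hh, hh0⟩

variable {δ : Gamma N →* ℂ} (hpar : ParTriv N δ) {l : ℕ} (hl : l.Prime) (hA : A.LiesOverPrime l)
  {n : ℕ} [NeZero n] (hln : ¬ l ∣ n) (hδ : ∀ γ, δ γ ^ n = 1)

include D hpar hl hA hδ

/-- A positive defect can be lowered. -/
theorem exists_lower {f : ℍ → ℂ} (hf : f ∈ Tw N δ) (ha : IsAlgFn N f) (hG : f ^ n ∈ BRing A N)
    (hne : ∀ g, redAt g (⟨_, hG⟩ : BRing A N) ≠ 0) (hpos : 0 < D.defect ⟨_, hG⟩) :
    ∃ q ∈ Tw N δ, IsAlgFn N q ∧ ∃ hQ : q ^ n ∈ BRing A N,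
      (∀ g, redAt g (⟨_, hQ⟩ : BRing A N) ≠ 0) ∧ D.defect ⟨_, hQ⟩ < D.defect ⟨_, hG⟩ := by
  obtain ⟨z₀, hz₀, hz⟩ := D.exists_root_norm _ hne hpos
  obtain ⟨τ, hτ⟩ := D.surj (iota z₀) (by
    rw [eval_map_iotaA, ne_eq, map_eq_zero]; exact D.eval_P_ne_zero hz₀)
  obtain ⟨h₀, hh₀, hh₀z⟩ := hz τ hτ
  obtain ⟨E, hE0, hEord, hEone⟩ := D.exists_reducer hz₀ hτ hh₀
  have hz0 : z₀ ≠ 0 := fun h => hz₀ (h ▸ A.zero_mem)
  have hs : z₀⁻¹ ∈ A.nonunits := by
    by_contra h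
    exact hz₀ (inv_inv z₀ ▸ FLTA.Galois.inv_mem_of_not_mem_nonunits h)
  set s : A := ⟨z₀⁻¹, A.nonunits_subset hs⟩ with hs_def
  have hsm : s ∈ IsLocalRing.maximalIdeal A := (mem_maximalIdeal_iff_mem_nonunits s).2 hs
  have hsne : s ≠ 0 := fun h => inv_ne_zero hz0 (congrArg Subtype.val h)
  have hZi : ∀ σ : ℍ, D.Z σ ≠ 0 ∧ D.Zi σ = (D.Z σ)⁻¹ := fun σ => by
    have h := congrFun D.Zi_mul σ
    rw [Pi.mul_apply, Pi.one_apply] at h
    exact ⟨right_ne_zero_of_mul_eq_one h, eq_inv_of_mul_eq_one_left h⟩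
  have hfib : ∀ σ : ℍ, (D.Zd s : ℍ → ℂ) σ = 0 → D.Z σ = D.Z τ := fun σ h => by
    rw [Zd_apply, (hZi σ).2, sub_eq_zero, hs_def, map_inv₀, inv_inj] at h
    rw [h, hτ]
  have hsimple : ∀ σ : ℍ, (D.Zd s : ℍ → ℂ) σ = 0 →
      deriv ((D.Zd s : ℍ → ℂ) ∘ ofComplex) (σ : ℂ) ≠ 0 := fun σ _ => by
    have hd : DifferentiableAt ℂ (D.Z ∘ ofComplex) (σ : ℂ) :=
      (FLTA.Bridge.analyticAt_of_mem_hol D.Z_mem.1.1 σ).differentiableAt
    have hne' : (D.Z ∘ ofComplex) (σ : ℂ) ≠ 0 := by simpa using (hZi σ).1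
    rw [show ((D.Zd s : ℍ → ℂ) ∘ ofComplex) =
      fun w => ((D.Z ∘ ofComplex) w)⁻¹ - iota (s : Qb) from funext fun w => by
        rw [Function.comp_apply, Zd_apply, (hZi _).2]; rfl,
      ((hd.hasDerivAt.fun_inv hne').sub_const _).deriv]
    exact div_ne_zero (neg_ne_zero.2 (D.deriv_ne σ)) (pow_ne_zero _ hne')
  have hZdne : (D.Zd s : ℍ → ℂ) ≠ 0 := fun h0 => by
    have := D.coeff_redAt_Zd hsm (D.reps_mem 1 D.one_mem_reps)
    exact this.2 (by rw [coeff_redAt, h0, cexp_zero, HahnSeries.coeff_zero, redC_zero])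
  have hfE : f * (E : ℍ → ℂ) ∈ Tw N δ := by simpa using mul_mem_tw hf (bRing_tw E.2)
  have hGA : f ^ n * (E : ℍ → ℂ) ^ n ∈ BAlg N := bRing_le_bAlg (mul_mem hG (pow_mem E.2 n))
  have hvan : ∀ σ : ℍ, (D.Zd s : ℍ → ℂ) σ = 0 → (f * (E : ℍ → ℂ)) σ = 0 := fun σ h => by
    have h0 := D.eq_zero_of_fibre hGA (hfib σ h) fun g hg => by
      show f (g • τ) ^ n * (E : ℍ → ℂ) (g • τ) ^ n = 0
      rcases eq_or_ne g h₀ with rfl | hne'
      · rw [show f (g • τ) ^ n = 0 from hh₀z, zero_mul]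
      · rw [hE0 g hg hne', zero_pow (NeZero.ne n), mul_zero]
    rw [Pi.mul_apply, Pi.pow_apply, Pi.pow_apply, ← mul_pow] at h0
    exact eq_zero_of_pow_eq_zero h0
  obtain ⟨q, hq, hmul, hqa⟩ :=
    exists_div_mem_tw hpar (D.Zd s).2.1 hZdne hsimple hfE hvan
  have hEa : IsAlgFn N (E : ℍ → ℂ) := E.2.2.2.isAlgFn
  have hfEa : IsAlgFn N (f * (E : ℍ → ℂ)) :=
    (mul_mem (show f ∈ AlgFn N from ⟨Tw.mem_perFn hpar hf, ha⟩)
      (show (E : ℍ → ℂ) ∈ AlgFn N from ⟨bRing_perFn E.2, hEa⟩)).2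
  have hqA := hqa (D.Zd s).2.2.2.isAlgFn hfEa
  have hQA : q ^ n ∈ BAlg N :=
    ⟨pow_mem_fn_of_tw hδ hpar hq,
      pow_mem (show q ∈ AlgFn N from ⟨Tw.mem_perFn hpar hq, hqA⟩) n⟩
  have hprod : q ^ n * (((D.Zd s) ^ n : BRing A N) : ℍ → ℂ) = f ^ n * (E : ℍ → ℂ) ^ n := by
    rw [SubmonoidClass.coe_pow, ← mul_pow, mul_comm q, hmul, mul_pow]
  have hZdred := fun h (hh : h ∈ D.reps) => D.order_redAt_Zd hsm (D.reps_mem h hh)
  have hZn : redAt 1 ((D.Zd s) ^ n) ≠ 0 := by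
    rw [map_pow]; exact pow_ne_zero _ (hZdred 1 D.one_mem_reps).1
  have hQ : q ^ n ∈ BRing A N :=
    D.mem_bRing_of_mul hl hA hQA _ hZn (hprod ▸ mul_mem hG (pow_mem E.2 n))
  have heq : (⟨_, hQ⟩ : BRing A N) * D.Zd s ^ n = ⟨_, hG⟩ * E ^ n := Subtype.ext hprod
  have hred : ∀ h ∈ D.reps, redAt h (⟨_, hQ⟩ : BRing A N) * redAt h (D.Zd s) ^ n =
      redAt h (⟨_, hG⟩ : BRing A N) * redAt h E ^ n := fun h hh => by
    rw [← map_pow, ← map_pow, ← map_mul, heq, map_mul]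
  have hQ1 : redAt 1 (⟨_, hQ⟩ : BRing A N) ≠ 0 := fun h0 => by
    have h1 := hred 1 D.one_mem_reps
    rw [h0, zero_mul] at h1
    exact mul_ne_zero (hne 1) (pow_ne_zero _ (hEord 1 D.one_mem_reps).2.1) h1.symm
  have hQne : ∀ g, redAt g (⟨_, hQ⟩ : BRing A N) ≠ 0 := fun g => D.redAt_ne_zero hl hA _ hQ1 g
  refine ⟨q, hq, hqA, hQ, hQne, ?_⟩
  have hterm : ∀ h ∈ D.reps,
      ((redAt h (⟨_, hQ⟩ : BRing A N)).order - (cexp N (q ^ n) h).order) =
        ((redAt h (⟨_, hG⟩ : BRing A N)).order - (cexp N (f ^ n) h).order) +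
          (n : ℤ) * ((redAt h E).order - (cexp N (E : ℍ → ℂ) h).order - D.e) := fun h hh => by
    have h1 := congrArg HahnSeries.order (hred h hh)
    rw [HahnSeries.order_mul (hQne h) (pow_ne_zero _ (hZdred h hh).1),
      HahnSeries.order_mul (hne h) (pow_ne_zero _ (hEord h hh).2.1), HahnSeries.order_pow,
      HahnSeries.order_pow, (hZdred h hh).2, nsmul_eq_mul, nsmul_eq_mul] at h1
    have h2 : cexp N (q ^ n) h * cexp N (D.Zd s : ℍ → ℂ) h ^ n =
        cexp N (f ^ n) h * cexp N (E : ℍ → ℂ) h ^ n := by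
      rw [← cexp_pow (bRing_perFn (D.Zd s).2), ← cexp_pow (bRing_perFn E.2),
        ← cexp_mul (bRing_perFn hQ) (pow_mem (bRing_perFn (D.Zd s).2) n),
        ← cexp_mul (bRing_perFn hG) (pow_mem (bRing_perFn E.2) n)]
      rw [SubmonoidClass.coe_pow] at hprod
      rw [hprod]
    have h2' := congrArg HahnSeries.order h2
    rw [HahnSeries.order_mul (cexp_ne_zero_of_redAt h ⟨_, hQ⟩ (hQne h))
        (pow_ne_zero _ (cexp_ne_zero_of_redAt h _ (hZdred h hh).1)),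
      HahnSeries.order_mul (cexp_ne_zero_of_redAt h ⟨_, hG⟩ (hne h))
        (pow_ne_zero _ (cexp_ne_zero_of_redAt h _ (hEord h hh).2.1)), HahnSeries.order_pow,
      HahnSeries.order_pow, D.order_cexp_Zd hsne (D.reps_mem h hh), smul_zero, nsmul_eq_mul,
      add_zero] at h2'
    linear_combination h1 - h2'
  show (∑ h ∈ D.reps, _) < ∑ h ∈ D.reps, _
  rw [Finset.sum_congr rfl hterm, Finset.sum_add_distrib, add_lt_iff_neg_left]
  have hn : (0 : ℤ) < n := by exact_mod_cast Nat.pos_of_ne_zero (NeZero.ne n)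
  obtain ⟨h₁, hh₁, hlt⟩ := hEone
  refine Finset.sum_neg' (fun h hh => ?_) ⟨h₁, hh₁, ?_⟩
  · obtain ⟨ha', -, hb'⟩ := hEord h hh
    nlinarith
  · obtain ⟨ha', -, -⟩ := hEord h₁ hh₁
    nlinarith

/-- Descent on the defect at the cusps above `∞`. -/
theorem exists_pow_unit_leading_one {f : ℍ → ℂ} (hf : f ∈ Tw N δ) (hf0 : f ≠ 0)
    (ha : IsAlgFn N f) :
    ∃ f' ∈ Tw N δ, IsAlgFn N f' ∧ IsIntFn A N (f' ^ n) ∧
      ∃ a : A, IsUnit a ∧
        iota (a : Qb) = (cexp N (f' ^ n) 1).coeff (cexp N (f' ^ n) 1).order := by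
  have main : ∀ m : ℕ, ∀ f ∈ Tw N δ, IsAlgFn N f → ∀ hG : f ^ n ∈ BRing A N,
      (∀ g, redAt g (⟨_, hG⟩ : BRing A N) ≠ 0) → D.defect ⟨_, hG⟩ ≤ m →
      ∃ f' ∈ Tw N δ, IsAlgFn N f' ∧ IsIntFn A N (f' ^ n) ∧ ∃ a : A, IsUnit a ∧
        iota (a : Qb) = (cexp N (f' ^ n) 1).coeff (cexp N (f' ^ n) 1).order := by
    intro m
    induction m with
    | zero =>
      intro f hf ha hG hne hm
      exact ⟨f, hf, ha, hG.2.2, D.order_eq_of_defect_eq_zero _ hne
        (le_antisymm (by simpa using hm) (D.defect_nonneg _ hne))⟩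
    | succ m ih =>
      intro f hf ha hG hne hm
      rcases (D.defect_nonneg _ hne).eq_or_lt with h0 | hpos
      · exact ⟨f, hf, ha, hG.2.2, D.order_eq_of_defect_eq_zero _ hne h0.symm⟩
      · obtain ⟨q, hq, hqa, hQ, hQne, hlt⟩ := D.exists_lower hpar hl hA hδ hf ha hG hne hpos
        exact ih q hq hqa hQ hQne (by push_cast at hm; omega)
  have hB : f ^ n ∈ BAlg N :=
    ⟨pow_mem_fn_of_tw hδ hpar hf,
      pow_mem (show f ∈ AlgFn N from ⟨Tw.mem_perFn hpar hf, ha⟩) n⟩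
  have hne0 : f ^ n ≠ 0 := fun h => hf0 (funext fun τ =>
    eq_zero_of_pow_eq_zero (congrFun h τ))
  obtain ⟨c, hc, hmem, g₀, hg₀⟩ := D.scale _ hB hne0
  obtain ⟨d, hd⟩ := IsAlgClosed.exists_pow_nat_eq c (Nat.pos_of_ne_zero (NeZero.ne n))
  have hpow : (iota d • f) ^ n = iota c • f ^ n := by rw [_root_.smul_pow, ← map_pow, hd]
  have hG : (iota d • f) ^ n ∈ BRing A N := hpow ▸ hmem
  have hne : ∀ g, redAt g (⟨_, hG⟩ : BRing A N) ≠ 0 := fun g =>
    D.redAt_ne_zero hl hA _ (g₀ := g₀) (by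
      rw [redAt_apply]
      show redExp A N ((iota d • f) ^ n) g₀ ≠ 0
      rw [hpow]; exact hg₀) g
  exact main (D.defect ⟨_, hG⟩).toNat (iota d • f) (Submodule.smul_mem _ _ hf)
    (smul_mem_algFn (show f ∈ AlgFn N from ⟨Tw.mem_perFn hpar hf, ha⟩)).2 hG hne
    (Int.self_le_toNat _)

include hln in
/-- At every cusp some twisted function has an integral `n`-th power with unit leading
coefficient there. -/
theorem exists_pow_unit_leading {f : ℍ → ℂ} (hf : f ∈ Tw N δ) (hf0 : f ≠ 0) (ha : IsAlgFn N f)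
    (g : SL(2, ℤ)) :
    ∃ f' ∈ Tw N δ, IsAlgFn N f' ∧ IsIntFn A N (f' ^ n) ∧
      ∃ a : A, IsUnit a ∧
        iota (a : Qb) = (cexp N (f' ^ n) g).coeff (cexp N (f' ^ n) g).order := by
  obtain ⟨f', hf', hfa', hfi', a, hau, hae⟩ := D.exists_pow_unit_leading_one
    (parTriv_conjChar hpar g) hl hA (fun γ => hδ _) (tw_comp hf g)
    (fun h0 => hf0 (funext fun τ => by simpa [← mul_smul] using congrFun h0 (g⁻¹ • τ)))
    (ha.comp g)
  refine ⟨fun τ : ℍ => f' (g⁻¹ • τ), ?_, hfa'.comp g⁻¹, hfi'.comp g⁻¹, a, hau, ?_⟩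
  · simpa only [conjChar_inv] using tw_comp hf' g⁻¹
  · rw [show (fun τ : ℍ => f' (g⁻¹ • τ)) ^ n = fun τ : ℍ => (f' ^ n) (g⁻¹ • τ) from rfl, cexp_comp,
      inv_mul_cancel]
    exact hae

end BaseData

end FLTA.DeligneSerre
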