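import Fermat.Agent.DeligneSerre.Rigidity.CuspTools

/-!
# A function lowering the defect at the cusps above `∞`

For `z₀ ∉ A`, a point `τ` above it and a representative `h₀`: an integral invariant function
vanishing at the other representatives over `z₀`, regular at the cusps above `∞`, whose reductions
there have order at most `e`, and less at one of them.
-/

set_option autoImplicit false

noncomputable section

open scoped MatrixGroups
open UpperHalfPlane hiding I
open CongruenceSubgroup Polynomial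

namespace FLTA.DeligneSerre

local notation "Qb" => AlgebraicClosure ℚ

variable {A : ValuationSubring Qb} {N : ℕ} [NeZero N]

/-- The lowest coefficient of a product. -/
theorem coeff_mul_of_lower {k : Type*} [CommRing k] {x y : LaurentSeries k} {a b : ℤ}
    (hx : ∀ i < a, x.coeff i = 0) (hy : ∀ i < b, y.coeff i = 0) :
    (∀ i < a + b, (x * y).coeff i = 0) ∧ (x * y).coeff (a + b) = x.coeff a * y.coeff b := by
  refine ⟨fun i hi => ?_, ?_⟩
  · rw [HahnSeries.coeff_mul]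
    refine Finset.sum_eq_zero fun ij hij => ?_
    rw [Finset.mem_antidiagonal] at hij
    rcases lt_or_ge ij.1 a with h | h
    · rw [hx _ h, zero_mul]
    · rw [hy ij.2 (by omega), mul_zero]
  · rw [HahnSeries.coeff_mul, Finset.sum_eq_single (a, b)]
    · intro ij hij hne
      rw [Finset.mem_antidiagonal] at hij
      rcases lt_or_ge ij.1 a with h | h
      · rw [hx _ h, zero_mul]
      · rw [hy ij.2 ?_, mul_zero]
        by_contra hc
        exact hne (Prod.ext (by omega) (by omega))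
    · intro h
      simp only [Finset.mem_antidiagonal, HahnSeries.mem_support] at h
      by_contra hc
      exact h ⟨left_ne_zero_of_mul hc, right_ne_zero_of_mul hc, trivial⟩

/-- Pairwise inequivalent representatives of the cusps of `Γ(N)` among a finite set. -/
theorem exists_cusp_subset (R : Finset SL(2, ℤ)) :
    ∃ C ⊆ R, (∀ c ∈ C, ∀ c' ∈ C, EqInfty N (c⁻¹ * c') → c = c') ∧
      ∀ h ∈ R, ∃ c ∈ C, EqInfty N (c⁻¹ * h) := by
  classical
  induction R using Finset.induction_on with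
  | empty => exact ⟨∅, subset_rfl, by simp, by simp⟩
  | insert x R hx ih =>
    obtain ⟨C, hC, hsep, hcov⟩ := ih
    by_cases hex : ∃ c ∈ C, EqInfty N (c⁻¹ * x)
    · exact ⟨C, hC.trans (Finset.subset_insert _ _), hsep,
        Finset.forall_mem_insert _ _ _ |>.2 ⟨hex, hcov⟩⟩
    · push Not at hex
      have hsym : ∀ c ∈ C, ¬ EqInfty N (x⁻¹ * c) := fun c hc h => hex c hc (by
        simpa using eqInfty_symm h)
      refine ⟨insert x C, Finset.insert_subset_insert _ hC, ?_, ?_⟩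
      · intro c hc c' hc' h
        rcases Finset.mem_insert.1 hc with e | hc <;>
          rcases Finset.mem_insert.1 hc' with e' | hc'
        · exact e.trans e'.symm
        · exact absurd (e ▸ h) (hsym c' hc')
        · exact absurd (e' ▸ h) (hex c hc)
        · exact hsep c hc c' hc' h
      · rw [Finset.forall_mem_insert]
        refine ⟨⟨x, Finset.mem_insert_self _ _, 0, Or.inl ?_⟩, fun h hh => ?_⟩
        · simpa using one_mem (Gamma N)
        · obtain ⟨c, hc, hch⟩ := hcov h hh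
          exact ⟨c, Finset.mem_insert_of_mem hc, hch⟩

namespace BaseData

variable (D : BaseData A N)

/-- There are at most `e` representatives over each cusp. -/
theorem card_reps_le {C : Finset SL(2, ℤ)} (hC : C ⊆ D.reps)
    (hcov : ∀ h ∈ D.reps, ∃ c ∈ C, EqInfty N (c⁻¹ * h)) : D.reps.card ≤ C.card * D.e := by
  classical
  have hsub : D.reps ⊆ (C ×ˢ Finset.range D.e).image
      fun ci => D.rep (ci.1 * ModularGroup.T ^ ((D.M : ℤ) * ci.2)) := by
    intro h hh
    obtain ⟨c, hc, k, hk⟩ := hcov h hh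
    have hcM : c ∈ Gamma D.M := D.reps_mem c (hC hc)
    have hhM : h ∈ Gamma D.M := D.reps_mem h hh
    have hkM : (D.M : ℤ) ∣ k := by
      have e0 : ModularGroup.T ^ k = (c⁻¹ * h)⁻¹ * (c⁻¹ * h * ModularGroup.T ^ k) := by group
      have hch : (c⁻¹ * h)⁻¹ ∈ Gamma D.M := inv_mem (mul_mem (inv_mem hcM) hhM)
      rw [← ZMod.intCast_zmod_eq_zero_iff_dvd]
      rcases hk with hk | hk
      · have hT : ModularGroup.T ^ k ∈ Gamma D.M := e0 ▸ mul_mem hch (D.hlev hk)
        have := (Gamma_mem.1 hT).2.1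
        simpa [ModularGroup.coe_T_zpow] using this
      · have hT : -(ModularGroup.T ^ k) ∈ Gamma D.M := by
          rw [e0, ← mul_neg]
          exact mul_mem hch (D.hlev hk)
        have := (Gamma_mem.1 hT).2.1
        simpa [ModularGroup.coe_T_zpow] using this
    obtain ⟨i, hi⟩ := hkM
    have he : (D.e : ℤ) ≠ 0 := by exact_mod_cast D.e_pos.ne'
    set r : ℕ := ((-i) % D.e).toNat with hr
    have hr' : (r : ℤ) = (-i) % D.e := Int.toNat_of_nonneg (Int.emod_nonneg _ he)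
    have hrlt : r < D.e := by
      have := Int.emod_lt_of_pos (-i) (by exact_mod_cast D.e_pos : (0 : ℤ) < D.e)
      omega
    refine Finset.mem_image.2 ⟨(c, r), Finset.mem_product.2 ⟨hc, Finset.mem_range.2 hrlt⟩, ?_⟩
    set t : ℤ := (D.M : ℤ) * r with ht
    show D.rep (c * ModularGroup.T ^ t) = h
    refine D.rep_unique (mul_mem hcM (D.T_mem r)) hh ?_
    obtain ⟨j, hj⟩ : (N : ℤ) ∣ t + k := by
      refine ⟨-((-i) / D.e), ?_⟩
      have h1 := Int.emod_add_mul_ediv (-i) D.e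
      have h2 : (N : ℤ) = (D.M : ℤ) * D.e := by exact_mod_cast D.hN
      rw [ht, hr', hi, h2]
      linear_combination (D.M : ℤ) * h1
    have hTN : ModularGroup.T ^ (t + k) ∈ Gamma N := by
      rw [hj, zpow_mul, zpow_natCast]
      exact zpow_mem (T_pow_mem_Gamma N) j
    have e1 : c * ModularGroup.T ^ t * h⁻¹ =
        c * (ModularGroup.T ^ (t + k) * (c⁻¹ * h * ModularGroup.T ^ k)⁻¹) * c⁻¹ := by group
    rcases hk with hk | hk
    · refine Or.inl ?_
      rw [e1]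
      exact (Gamma_normal N).conj_mem _ (mul_mem hTN (inv_mem hk)) c
    · refine Or.inr ?_
      rw [e1, ← neg_mul, ← mul_neg, ← mul_neg, ← inv_neg]
      exact (Gamma_normal N).conj_mem _ (mul_mem hTN (inv_mem hk)) c
  calc D.reps.card ≤ _ := Finset.card_le_card hsub
    _ ≤ (C ×ˢ Finset.range D.e).card := Finset.card_image_le
    _ = C.card * D.e := by rw [Finset.card_product, Finset.card_range]

/-- `1 / Z - s`. -/
def Zd (s : A) : BRing A N := ⟨D.Zi, D.Zi_mem⟩ - ⟨_, const_mem_bRing s⟩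

theorem Zd_apply (s : A) (τ : ℍ) : (D.Zd s : ℍ → ℂ) τ = D.Zi τ - iota (s : Qb) := rfl

theorem compHom_Zd (s : A) {γ : SL(2, ℤ)} (hγ : γ ∈ Gamma D.M) :
    compHom γ (D.Zd s : ℍ → ℂ) = (D.Zd s : ℍ → ℂ) := funext fun τ => by
  rw [compHom_apply, Zd_apply, Zd_apply, ← compHom_apply γ D.Zi, D.compHom_Zi hγ]

theorem hasLead_cexp_Zi : HasLead A (cexp N D.Zi 1) (D.e : ℤ) := by
  obtain ⟨a, ha, hae⟩ := D.Z_lead
  have hz : ZB (cexp N D.Z 1) (-(D.e : ℤ)) := D.Z_order ▸ zb_order _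
  have h1 : cexp N D.Zi 1 * cexp N D.Z 1 = 1 := by
    rw [← cexp_mul (bRing_perFn D.Zi_mem) (bRing_perFn D.Z_mem), D.Zi_mul, cexp_one]
  simpa using (hasLead_of_coeff hz ha hae).of_mul_eq_one h1

theorem cexp_Zd (s : A) {γ : SL(2, ℤ)} (hγ : γ ∈ Gamma D.M) :
    cexp N (D.Zd s : ℍ → ℂ) γ = cexp N D.Zi 1 - HahnSeries.single 0 (iota (s : Qb)) := by
  have h1 : cexp N (D.Zd s : ℍ → ℂ) γ = cexp N (D.Zd s : ℍ → ℂ) 1 := by
    conv_rhs => rw [← D.compHom_Zd s hγ, cexp_compHom, mul_one]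
  rw [h1, show (D.Zd s : ℍ → ℂ) = D.Zi - algebraMap ℂ (ℍ → ℂ) (iota (s : Qb)) from rfl,
    cexp_sub (bRing_perFn D.Zi_mem) (Subalgebra.algebraMap_mem _ _),
    cexp_eq (Subalgebra.algebraMap_mem _ _),
    show (⟨algebraMap ℂ (ℍ → ℂ) (iota (s : Qb)), Subalgebra.algebraMap_mem _ _⟩ : PerFn N) =
      algebraMap ℂ (PerFn N) (iota (s : Qb)) from rfl, AlgHom.commutes,
    ModularCurve.algebraMap_laurentSeries_eq_single]

theorem order_cexp_Zd {s : A} (hs : s ≠ 0) {γ : SL(2, ℤ)} (hγ : γ ∈ Gamma D.M) :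
    (cexp N (D.Zd s : ℍ → ℂ) γ).order = 0 := by
  have he := D.e_pos
  have hz := D.hasLead_cexp_Zi.zb
  have hne : (cexp N (D.Zd s : ℍ → ℂ) γ).coeff 0 ≠ 0 := by
    rw [D.cexp_Zd s hγ, HahnSeries.coeff_sub, HahnSeries.coeff_single_same,
      hz 0 (by exact_mod_cast he), zero_sub, neg_ne_zero, _root_.map_ne_zero]
    exact fun h => hs (Subtype.ext h)
  refine le_antisymm (HahnSeries.order_le_of_coeff_ne_zero hne) (order_nonneg_of_zb fun k hk => ?_)
  rw [D.cexp_Zd s hγ, HahnSeries.coeff_sub, HahnSeries.coeff_single_of_ne hk.ne,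
    hz k (by omega), sub_zero]

theorem coeff_redAt_Zd {s : A} (hs : s ∈ IsLocalRing.maximalIdeal A) {γ : SL(2, ℤ)}
    (hγ : γ ∈ Gamma D.M) :
    (∀ k < (D.e : ℤ), (redAt γ (D.Zd s)).coeff k = 0) ∧
      (redAt γ (D.Zd s)).coeff (D.e : ℤ) ≠ 0 := by
  have hlead := D.hasLead_cexp_Zi
  have hz := hlead.zb
  obtain ⟨u, hu, hue⟩ := hlead.coeff_eq
  refine ⟨fun k hk => ?_, ?_⟩
  · rw [coeff_redAt, D.cexp_Zd s hγ, HahnSeries.coeff_sub, hz k hk, zero_sub]
    rcases eq_or_ne k 0 with rfl | hk0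
    · rw [HahnSeries.coeff_single_same,
        show -iota (s : Qb) = iota (((-s : A)) : Qb) by simp, redC_iota, map_neg,
        (IsLocalRing.residue_eq_zero_iff s).2 hs, neg_zero]
    · rw [HahnSeries.coeff_single_of_ne hk0, neg_zero, redC_zero]
  · rw [coeff_redAt, D.cexp_Zd s hγ, HahnSeries.coeff_sub,
      HahnSeries.coeff_single_of_ne (by exact_mod_cast D.e_pos.ne'), sub_zero, ← hue, redC_iota]
    exact (hu.map _).ne_zero

theorem order_redAt_Zd {s : A} (hs : s ∈ IsLocalRing.maximalIdeal A) {γ : SL(2, ℤ)}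
    (hγ : γ ∈ Gamma D.M) :
    redAt γ (D.Zd s) ≠ 0 ∧ (redAt γ (D.Zd s)).order = (D.e : ℤ) := by
  obtain ⟨h1, h2⟩ := D.coeff_redAt_Zd hs hγ
  have hne : redAt γ (D.Zd s) ≠ 0 := fun h => h2 (by rw [h]; rfl)
  refine ⟨hne, le_antisymm (HahnSeries.order_le_of_coeff_ne_zero h2) ?_⟩
  by_contra hc
  exact HahnSeries.coeff_order_eq_zero.not.2 hne (h1 _ (not_le.1 hc))

/-- The function lowering the defect. -/
theorem exists_reducer {z₀ : Qb} (hz₀ : z₀ ∉ A) {τ : ℍ} (hτ : D.Z τ = iota z₀) {h₀ : SL(2, ℤ)}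
    (hh₀ : h₀ ∈ D.reps) :
    ∃ E : BRing A N, (∀ h ∈ D.reps, h ≠ h₀ → (E : ℍ → ℂ) (h • τ) = 0) ∧
      (∀ h ∈ D.reps, 0 ≤ (cexp N (E : ℍ → ℂ) h).order ∧ redAt h E ≠ 0 ∧
        (redAt h E).order ≤ (D.e : ℤ)) ∧
      ∃ h ∈ D.reps, (redAt h E).order < (D.e : ℤ) := by
  classical
  have hz0 : z₀ ≠ 0 := fun h => hz₀ (h ▸ A.zero_mem)
  have hs : z₀⁻¹ ∈ A.nonunits := by
    by_contra h
    exact hz₀ (inv_inv z₀ ▸ FLTA.Galois.inv_mem_of_not_mem_nonunits h)
  set s : A := ⟨z₀⁻¹, A.nonunits_subset hs⟩ with hs_def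
  have hsm : s ∈ IsLocalRing.maximalIdeal A := (mem_maximalIdeal_iff_mem_nonunits s).2 hs
  have hsne : s ≠ 0 := fun h => inv_ne_zero hz0 (congrArg Subtype.val h)
  have hZd0 : ∀ h ∈ D.reps, (D.Zd s : ℍ → ℂ) (h • τ) = 0 := fun h hh => by
    have h1 := congrFun (D.compHom_Zd s (D.reps_mem h hh)) τ
    rw [compHom_apply] at h1
    rw [h1, Zd_apply]
    have h2 := congrFun D.Zi_mul τ
    rw [Pi.mul_apply, Pi.one_apply, hτ] at h2
    rw [eq_inv_of_mul_eq_one_left h2, hs_def, map_inv₀, sub_self]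
  obtain ⟨C, hC, hsep, hcov⟩ := exists_cusp_subset (N := N) D.reps
  obtain ⟨J, hJ⟩ := D.exists_interp (D.e : ℤ)
  choose y hy hy1 hy2 _ using fun m : Fin D.e => hJ (HahnSeries.single ((m : ℕ) : ℤ) 1)
  let b : ↥C × Fin D.e → BRing A N := fun i =>
    ⟨compHom (i.1 : SL(2, ℤ))⁻¹ (y i.2), compHom_mem_bRing (hy i.2) _⟩
  let comb : (↥C × Fin D.e → A) → BRing A N := fun lam =>
    ∑ i, (⟨_, const_mem_bRing (lam i)⟩ : BRing A N) * b i
  have hcomb_apply : ∀ lam σ, (comb lam : ℍ → ℂ) σ = ∑ i, iota (lam i : Qb) * (b i : ℍ → ℂ) σ :=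
    fun lam σ => by
      simp only [comb, AddSubmonoidClass.coe_finsetSum, Finset.sum_apply]
      rfl
  -- expansions of combinations
  have hcomb_coeff : ∀ lam, ∀ c, ∀ hc : c ∈ C, ∀ k < (D.e : ℤ),
      (cexp N (comb lam : ℍ → ℂ) c).coeff k =
        if h : 0 ≤ k ∧ k.toNat < D.e then iota (lam (⟨c, hc⟩, ⟨k.toNat, h.2⟩) : Qb) else 0 := by
    intro lam c hc k hk
    have hterm : ∀ i : ↥C × Fin D.e,
        cexp N ((⟨_, const_mem_bRing (lam i)⟩ * b i : BRing A N) : ℍ → ℂ) c =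
          iota (lam i : Qb) • cexp N (y i.2) ((i.1 : SL(2, ℤ))⁻¹ * c) := fun i => by
      rw [show ((⟨_, const_mem_bRing (lam i)⟩ * b i : BRing A N) : ℍ → ℂ) =
        iota (lam i : Qb) • compHom (i.1 : SL(2, ℤ))⁻¹ (y i.2) from (Algebra.smul_def _ _).symm,
        cexp_smul (bRing_perFn (compHom_mem_bRing (hy i.2) _)), cexp_compHom]
    rw [show ((comb lam : BRing A N) : ℍ → ℂ) = ∑ i, ((⟨_, const_mem_bRing (lam i)⟩ * b i :
      BRing A N) : ℍ → ℂ) from AddSubmonoidClass.coe_finsetSum _ _,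
      cexp_sum Finset.univ fun i _ => bRing_perFn (SetLike.coe_mem _), HahnSeries.coeff_sum]
    simp only [hterm, HahnSeries.coeff_smul, smul_eq_mul]
    have hdiag : ∀ m : Fin D.e, (cexp N (y m) (c⁻¹ * c)).coeff k =
        if ((m : ℕ) : ℤ) = k then 1 else 0 := fun m => by
      rw [inv_mul_cancel, hy1 m k hk, HahnSeries.coeff_single]
      by_cases h : k = ((m : ℕ) : ℤ)
      · simp [h]
      · simp [h, Ne.symm h]
    have hoff : ∀ c' : ↥C, (c' : SL(2, ℤ)) ≠ c → ∀ m : Fin D.e,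
        (cexp N (y m) ((c' : SL(2, ℤ))⁻¹ * c)).coeff k = 0 := fun c' hne m =>
      hy2 m _ (mul_mem (inv_mem (D.reps_mem _ (hC c'.2))) (D.reps_mem c (hC hc)))
        (fun h => hne (hsep _ c'.2 c hc h)) k hk
    split_ifs with h
    · rw [Finset.sum_eq_single (⟨c, hc⟩, ⟨k.toNat, h.2⟩)]
      · rw [hdiag, if_pos (Int.toNat_of_nonneg h.1), mul_one]
      · rintro ⟨c', m⟩ - hne
        rcases eq_or_ne (c' : SL(2, ℤ)) c with hcc | hcc
        · dsimp only
          rw [hcc, hdiag, if_neg, mul_zero]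
          intro hm
          exact hne (Prod.ext (Subtype.ext hcc) (Fin.ext (by simp only; omega)))
        · rw [hoff c' hcc m, mul_zero]
      · exact fun h => absurd (Finset.mem_univ _) h
    · refine Finset.sum_eq_zero fun ⟨c', m⟩ _ => ?_
      rcases eq_or_ne (c' : SL(2, ℤ)) c with hcc | hcc
      · dsimp only
        rw [hcc, hdiag, if_neg, mul_zero]
        intro hm
        exact h ⟨by omega, by have := m.2; omega⟩
      · rw [hoff c' hcc m, mul_zero]
  have hcomb_red : ∀ lam, ∀ c, ∀ hc : c ∈ C,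
      (∀ k < (0 : ℤ), (redAt c (comb lam)).coeff k = 0) ∧ ∀ m : Fin D.e,
        (redAt c (comb lam)).coeff ((m : ℕ) : ℤ) = IsLocalRing.residue A (lam (⟨c, hc⟩, m)) := by
    intro lam c hc
    refine ⟨fun k hk => ?_, fun m => ?_⟩
    · rw [coeff_redAt, hcomb_coeff lam c hc k (by omega), dif_neg (fun h => absurd h.1 (by omega)),
        redC_zero]
    · rw [coeff_redAt, hcomb_coeff lam c hc _ (by exact_mod_cast m.2),
        dif_pos ⟨by omega, by simp [m.2]⟩, redC_iota]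
      congr 3
  -- values at the points over `z₀`
  let S := ↥(D.reps.erase h₀)
  choose v hv using fun (x : S) (i : ↥C × Fin D.e) =>
    D.exists_value_eq (b i).2 hz₀ hτ (Finset.mem_of_mem_erase x.2)
  let L := (Matrix.of v).mulVecLin
  have hker : LinearMap.ker L ≠ ⊥ := by
    refine LinearMap.ker_ne_bot_of_finrank_lt ?_
    rw [Module.finrank_fintype_fun_eq_card, Module.finrank_fintype_fun_eq_card, Fintype.card_coe,
      Finset.card_erase_of_mem hh₀, Fintype.card_prod, Fintype.card_coe, Fintype.card_fin]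
    have := D.card_reps_le hC hcov
    have := Finset.card_pos.2 ⟨h₀, hh₀⟩
    omega
  obtain ⟨x, hxL, hx0⟩ := Submodule.exists_mem_ne_zero_of_ne_bot hker
  obtain ⟨i₁, hi₁⟩ : ∃ i, x i ≠ 0 := by
    by_contra h
    push Not at h
    exact hx0 (funext h)
  obtain ⟨j, -, hmax⟩ := Finset.exists_max_image Finset.univ (fun i => A.valuation (x i))
    ⟨i₁, Finset.mem_univ _⟩
  have hxj : x j ≠ 0 := fun h => by
    have := hmax i₁ (Finset.mem_univ _)
    rw [h, map_zero, le_zero_iff, map_eq_zero] at this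
    exact hi₁ this
  let lam : ↥C × Fin D.e → A := fun i => ⟨(x j)⁻¹ * x i, by
    rw [← A.valuation_le_one_iff, map_mul, map_inv₀,
      inv_mul_le_one₀ (zero_lt_iff.mpr ((_root_.map_ne_zero _).mpr hxj))]
    exact hmax i (Finset.mem_univ _)⟩
  have hlamj : lam j = 1 := Subtype.ext (by simp [lam, hxj])
  -- the correction
  let ν : ↥C → A := fun c => if (redAt (c : SL(2, ℤ)) (comb lam)).coeff (D.e : ℤ) = 0 then 1 else 0
  let lam' : ↥C × Fin D.e → A := fun i => if (i.2 : ℕ) = 0 then ν i.1 else 0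
  refine ⟨comb lam + D.Zd s * comb lam', fun h hh hne => ?_, ?_⟩
  · rw [show ((comb lam + D.Zd s * comb lam' : BRing A N) : ℍ → ℂ) (h • τ) =
      (comb lam : ℍ → ℂ) (h • τ) + (D.Zd s : ℍ → ℂ) (h • τ) * (comb lam' : ℍ → ℂ) (h • τ) from rfl,
      hZd0 h hh, zero_mul, add_zero, hcomb_apply]
    have hsum := congrFun (LinearMap.mem_ker.1 hxL) ⟨h, Finset.mem_erase.2 ⟨hne, hh⟩⟩
    simp only [L, Matrix.mulVecLin_apply, Matrix.mulVec, dotProduct, Matrix.of_apply,
      Pi.zero_apply] at hsum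
    have e : ∀ i, iota (lam i : Qb) * (b i : ℍ → ℂ) (h • τ) =
        iota ((x j)⁻¹) * iota (v ⟨h, Finset.mem_erase.2 ⟨hne, hh⟩⟩ i * x i) := fun i => by
      rw [← hv ⟨h, Finset.mem_erase.2 ⟨hne, hh⟩⟩ i, ← map_mul, ← map_mul]
      congr 1
      show (x j)⁻¹ * x i * _ = (x j)⁻¹ * (_ * x i)
      ring
    rw [Finset.sum_congr rfl fun i _ => e i, ← Finset.mul_sum, ← map_sum, hsum, map_zero, mul_zero]
  set E := comb lam + D.Zd s * comb lam' with hE
  have hlow : ∀ c, ∀ hc : c ∈ C,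
      (∀ k < (D.e : ℤ), (redAt c E).coeff k = (redAt c (comb lam)).coeff k) ∧
        (redAt c E).coeff (D.e : ℤ) ≠ 0 := by
    intro c hc
    obtain ⟨hz1, hz2⟩ := D.coeff_redAt_Zd hsm (D.reps_mem c (hC hc))
    obtain ⟨hr1, hr2⟩ := hcomb_red lam' c hc
    obtain ⟨hp1, hp2⟩ := coeff_mul_of_lower hz1 hr1
    rw [add_zero] at hp1 hp2
    refine ⟨fun k hk => ?_, ?_⟩
    · rw [hE, map_add, map_mul, HahnSeries.coeff_add, hp1 k hk, add_zero]
    · have h00 : (redAt c (comb lam')).coeff 0 = IsLocalRing.residue A (ν ⟨c, hc⟩) := by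
        have := hr2 ⟨0, D.e_pos⟩
        simpa [lam'] using this
      rw [hE, map_add, map_mul, HahnSeries.coeff_add, hp2, h00]
      simp only [ν]
      split_ifs with h
      · rw [h, zero_add, map_one, mul_one]
        exact hz2
      · rw [map_zero, mul_zero, add_zero]
        exact h
  have hexact : ∀ h ∈ D.reps, ZB (cexp N (E : ℍ → ℂ) h) 0 := by
    intro h hh
    obtain ⟨c, hc, hch⟩ := hcov h hh
    refine (zb_iff_of_eqInfty (parTriv_one N) (bRing_tw E.2) hch 0).2 ?_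
    have hcomb0 : ∀ lam, ZB (cexp N (comb lam : ℍ → ℂ) c) 0 := fun lam k hk => by
      rw [hcomb_coeff lam c hc k (by omega), dif_neg (fun h => absurd h.1 (by omega))]
    rw [show (E : ℍ → ℂ) = (comb lam : ℍ → ℂ) + (D.Zd s : ℍ → ℂ) * (comb lam' : ℍ → ℂ) from rfl,
      cexp_add (bRing_perFn (SetLike.coe_mem _))
        (mul_mem (bRing_perFn (SetLike.coe_mem _)) (bRing_perFn (SetLike.coe_mem _))),
      cexp_mul (bRing_perFn (SetLike.coe_mem _)) (bRing_perFn (SetLike.coe_mem _))]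
    refine (hcomb0 lam).add ?_
    have hz : ZB (cexp N (D.Zd s : ℍ → ℂ) c) 0 :=
      D.order_cexp_Zd hsne (D.reps_mem c (hC hc)) ▸ zb_order _
    simpa using hz.mul (hcomb0 lam')
  refine ⟨fun h hh => ?_, (j.1 : SL(2, ℤ)), hC j.1.2, ?_⟩
  · obtain ⟨c, hc, hch⟩ := hcov h hh
    have hne := coeff_redAt_ne_zero_of_eqInfty E hch (hlow c hc).2
    exact ⟨order_nonneg_of_zb (hexact h hh), fun h0 => hne (by rw [h0]; rfl),
      HahnSeries.order_le_of_coeff_ne_zero hne⟩
  · refine lt_of_le_of_lt (HahnSeries.order_le_of_coeff_ne_zero (g := ((j.2 : ℕ) : ℤ)) ?_)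
      (by exact_mod_cast j.2.2)
    rw [(hlow _ j.1.2).1 _ (by exact_mod_cast j.2.2), (hcomb_red lam _ j.1.2).2 j.2,
      show ((⟨(j.1 : SL(2, ℤ)), j.1.2⟩ : ↥C), j.2) = j from rfl, hlamj, map_one]
    exact one_ne_zero

end BaseData

end FLTA.DeligneSerre
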