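import Fermat.Agent.DeligneSerre.Rigidity.InterpTrunc

/-!
# Prescribing the expansion at one cusp

Owner: helper5.

From the separability element: `y = ∑ u_j * Π_j(Z)` where `Π_j` is the truncation in powers of `Z`
of the trace of `φ * w_j` over the translations `T ^ (M k)`, `k < e`.
-/

set_option autoImplicit false

noncomputable section

open scoped MatrixGroups
open UpperHalfPlane hiding I
open CongruenceSubgroup

namespace FLTA.DeligneSerre.BaseData

open ModularCurve (coeffMap)

local notation "Qb" => AlgebraicClosure ℚ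

variable {A : ValuationSubring Qb} {N : ℕ} [NeZero N] (D : BaseData A N)

/-- The trace of `φ * w_j` over the translations by multiples of `M`. -/
def transTrace (φ : LaurentSeries A) (j : Fin D.m) : LaurentSeries ℂ :=
  ∑ k ∈ Finset.range D.e,
    twist N ((D.M : ℤ) * k) (coeffMap (iotaA A) φ * cexp N (D.w j) 1)

theorem coeff_transTrace (φ : LaurentSeries A) (j : Fin D.m) (n : ℤ) :
    (D.transTrace φ j).coeff n =
      if (D.e : ℤ) ∣ n then (D.e : ℂ) * (coeffMap (iotaA A) φ * cexp N (D.w j) 1).coeff n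
      else 0 := by
  rw [transTrace, HahnSeries.coeff_sum]
  simp only [coeff_twist]
  rw [← Finset.sum_mul]
  have h := sum_eN D.M D.e D.M_pos.ne' D.e_pos'.ne' n
  rw [← D.hN] at h
  rw [h, ite_mul, zero_mul]

theorem transTrace_mem (φ : LaurentSeries A) (j : Fin D.m) : D.transTrace φ j ∈ intSeries A := by
  rw [mem_intSeries_iff]
  intro n
  rw [coeff_transTrace]
  split_ifs
  · obtain ⟨a, ha⟩ := mem_intSeries_iff.1
      (mul_mem (⟨φ, rfl⟩ : coeffMap (iotaA A) φ ∈ intSeries A)
        (isIntFn_iff.1 (D.w_mem j).2.2 1)) n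
    exact ⟨(D.e : A) * a, by rw [MulMemClass.coe_mul, map_mul, ha]; simp⟩
  · exact ⟨0, by simp⟩

/-- The translations meeting a given coset of `Γ(N)` in `Γ(M)`. -/
theorem sum_mul_transTrace (φ : LaurentSeries A) {γ : SL(2, ℤ)} (hγ : γ ∈ Gamma D.M) :
    ∑ j, cexp N (D.u j) γ * D.transTrace φ j =
      ∑ k ∈ Finset.range D.e,
        if D.rep γ = D.rep (ModularGroup.T ^ ((D.M : ℤ) * k)) then
          twist N ((D.M : ℤ) * k) (coeffMap (iotaA A) φ) else 0 := by
  simp only [transTrace, Finset.mul_sum]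
  rw [Finset.sum_comm]
  refine Finset.sum_congr rfl fun k _ => ?_
  set t := (D.M : ℤ) * k with ht
  have hu : ∀ j, compHom γ (D.u j) ∈ PerFn N := fun j =>
    bRing_perFn (compHom_mem_bRing (D.u_mem j) γ)
  have hw : ∀ j, compHom (ModularGroup.T ^ t) (D.w j) ∈ PerFn N := fun j =>
    bRing_perFn (compHom_mem_bRing (D.w_mem j) _)
  have hterm : ∀ j, cexp N (D.u j) γ *
      twist N t (coeffMap (iotaA A) φ * cexp N (D.w j) 1) =
      twist N t (coeffMap (iotaA A) φ) *
        cexp N (compHom γ (D.u j) * compHom (ModularGroup.T ^ t) (D.w j)) 1 := fun j => by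
    rw [cexp_mul (hu j) (hw j), cexp_compHom, cexp_compHom, mul_one, mul_one, map_mul,
      ← cexp_mul_T (bRing_perFn (D.w_mem j)), one_mul]
    ring
  rw [Finset.sum_congr rfl fun j _ => hterm j, ← Finset.mul_sum,
    ← cexp_sum Finset.univ (fun j _ => mul_mem (hu j) (hw j))]
  have hsum : (∑ j, compHom γ (D.u j) * compHom (ModularGroup.T ^ t) (D.w j)) =
      if D.rep γ = D.rep (ModularGroup.T ^ t) then 1 else 0 := by
    funext τ
    rw [Finset.sum_apply]
    simp only [Pi.mul_apply, compHom_apply]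
    rw [D.separ_gamma hγ (D.T_mem k) τ]
    split_ifs <;> rfl
  rw [hsum]
  split_ifs
  · rw [cexp_one, mul_one]
  · rw [cexp_zero, mul_zero]

/-- Interpolation: the coefficients below `B` at `∞` are prescribed, vanish at the other cusps
above `∞`, and the poles at the remaining cusps are bounded independently of `φ`. -/
theorem exists_interp (B : ℤ) :
    ∃ J : ℕ, ∀ φ : LaurentSeries A, ∃ y ∈ BRing A N,
      (∀ k < B, (cexp N y 1).coeff k = iota ((φ.coeff k : A) : Qb)) ∧
      (∀ γ ∈ Gamma D.M, ¬ EqInfty N γ → ∀ k < B, (cexp N y γ).coeff k = 0) ∧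
      ∀ g : SL(2, ℤ), ¬ EqInfty N g → ∀ k < -(J : ℤ), (cexp N y g).coeff k = 0 := by
  choose q hq using fun j => exists_pole_bound (parTriv_one N) (bRing_tw (D.u_mem j))
  set p := Finset.univ.sup q with hp'
  have hp : ∀ j g, ZB (cexp N (D.u j) g) (-(p : ℤ)) := fun j g =>
    (hq j g).mono (by have := Finset.le_sup (f := q) (Finset.mem_univ j); omega)
  obtain ⟨J₀, hJ₀⟩ := D.exists_trunc (B + p)
  refine ⟨max (p + J₀) (-B).toNat, fun φ => ?_⟩
  choose G hG hGz using fun j => hJ₀ (D.transTrace φ j) (D.transTrace_mem φ j)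
    (fun n hn => by rw [coeff_transTrace, if_neg hn])
  have hyB : ∀ j, D.u j * G j ∈ BRing A N := fun j => mul_mem (D.u_mem j) (hG j).1
  refine ⟨∑ j, D.u j * G j, sum_mem fun j _ => hyB j, ?_⟩
  have hy : ∀ g, cexp N (∑ j, D.u j * G j) g = ∑ j, cexp N (D.u j) g * cexp N (G j) g :=
    fun g => by
      rw [cexp_sum Finset.univ fun j _ => bRing_perFn (hyB j)]
      exact Finset.sum_congr rfl fun j _ =>
        cexp_mul (bRing_perFn (D.u_mem j)) (bRing_perFn (hG j).1) g
  have hmain : ∀ γ ∈ Gamma D.M, ∀ k < B,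
      (cexp N (∑ j, D.u j * G j) γ).coeff k =
        (∑ j, cexp N (D.u j) γ * D.transTrace φ j).coeff k := by
    intro γ hγ k hk
    have hz : ZB (∑ j, cexp N (D.u j) γ * (cexp N (G j) 1 - D.transTrace φ j))
        (-(p : ℤ) + (B + p)) := zb_sum fun j _ => (hp j γ).mul (hGz j)
    have h0 := hz k (by omega)
    simp only [mul_sub, Finset.sum_sub_distrib] at h0
    rw [HahnSeries.coeff_sub, sub_eq_zero] at h0
    rw [hy, ← h0]
    congr 1
    exact Finset.sum_congr rfl fun j _ => by
      conv_lhs => rw [← mul_one γ, ← cexp_compHom (G j) γ 1, (hG j).2.1 γ hγ, mul_one]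
  have hother : ∀ γ ∈ Gamma D.M, ¬ EqInfty N γ → ∀ k < B,
      (cexp N (∑ j, D.u j * G j) γ).coeff k = 0 := by
    intro γ hγ hne k hk
    rw [hmain γ hγ k hk, D.sum_mul_transTrace φ hγ, HahnSeries.coeff_sum]
    refine Finset.sum_eq_zero fun i _ => ?_
    rw [if_neg]
    · rfl
    intro hrep
    have h1 := (D.rep_spec hγ).2
    have h2 := (D.rep_spec (D.T_mem i)).2
    rw [← hrep] at h2
    have h3 : PMGamma N (γ * (D.rep γ)⁻¹ *
        (ModularGroup.T ^ ((D.M : ℤ) * i) * (D.rep γ)⁻¹)⁻¹) := PMGamma.mul_inv h1 h2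
    rw [show γ * (D.rep γ)⁻¹ * (ModularGroup.T ^ ((D.M : ℤ) * i) * (D.rep γ)⁻¹)⁻¹ =
      γ * ModularGroup.T ^ (-((D.M : ℤ) * i)) by group] at h3
    exact hne ⟨_, h3⟩
  refine ⟨fun k hk => ?_, hother, fun g hg => ?_⟩
  · rw [hmain 1 (one_mem _) k hk, D.sum_mul_transTrace φ (one_mem _),
      Finset.sum_eq_single 0]
    · rw [Nat.cast_zero, mul_zero, zpow_zero, if_pos rfl, coeff_twist]
      simp [eN, iotaA_apply]
    · intro i hi hi0
      refine if_neg fun hrep => ?_
      have h1 := (D.rep_spec (one_mem (Gamma D.M))).2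
      have h2 := (D.rep_spec (D.T_mem i)).2
      rw [← hrep] at h2
      have h3 : PMGamma N (ModularGroup.T ^ ((D.M : ℤ) * i) * (D.rep 1)⁻¹ *
          (1 * (D.rep 1)⁻¹)⁻¹) := PMGamma.mul_inv h2 h1
      rw [one_mul, mul_inv_cancel_right] at h3
      have hdvd : (N : ℤ) ∣ (D.M : ℤ) * i := by
        rw [← ZMod.intCast_zmod_eq_zero_iff_dvd]
        rcases h3 with h3 | h3
        · have := (Gamma_mem.1 h3).2.1
          simpa [ModularGroup.coe_T_zpow] using this
        · have := (Gamma_mem.1 h3).2.1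
          simpa [ModularGroup.coe_T_zpow] using this
      replace hdvd : ((D.M * D.e : ℕ) : ℤ) ∣ (D.M : ℤ) * i :=
        (congrArg Nat.cast D.hN : (N : ℤ) = _) ▸ hdvd
      rw [Nat.cast_mul, mul_dvd_mul_iff_left (by exact_mod_cast D.M_pos.ne')] at hdvd
      have hdvd' : D.e ∣ i := by exact_mod_cast hdvd
      exact hi0 (Nat.eq_zero_of_dvd_of_lt hdvd' (Finset.mem_range.1 hi))
    · intro h
      exact absurd (Finset.mem_range.2 D.e_pos') h
  · by_cases hM : EqInfty D.M g
    · obtain ⟨k, hk⟩ := hM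
      have hgk : ¬ EqInfty N (g * ModularGroup.T ^ k) := fun ⟨i, hi⟩ =>
        hg ⟨k + i, by rwa [zpow_add, ← mul_assoc]⟩
      have hz : ZB (cexp N (∑ j, D.u j * G j) (g * ModularGroup.T ^ k)) B := by
        rcases hk with hk | hk
        · exact hother _ hk hgk
        · rw [← cexp_neg]
          refine hother _ hk fun ⟨i, hi⟩ => hgk ⟨i, ?_⟩
          rw [neg_mul, neg_neg] at hi
          exact hi.symm
      rw [cexp_mul_T (sum_mem fun j _ => bRing_perFn (hyB j))] at hz
      intro n hn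
      have h := hz n (by omega)
      rw [coeff_twist] at h
      exact (mul_eq_zero.1 h).resolve_left (eN_ne_zero N k n)
    · have hz : ZB (cexp N (∑ j, D.u j * G j) g) (-(p : ℤ) + -(J₀ : ℤ)) := by
        rw [hy]
        exact zb_sum fun j _ => (hp j g).mul ((hG j).2.2 g hM)
      exact hz.mono (by omega)

end FLTA.DeligneSerre.BaseData
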