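import Fermat.Agent.DeligneSerre.Rigidity.Inject
import Fermat.Agent.DeligneSerre.Rigidity.Interp
import Fermat.Agent.DeligneSerre.Rigidity.Divide
import Fermat.Agent.Dim.Division

/-!
# Tools for the cusp lemma

Division by a function with simple zeros, Gauss' lemma, algebraicity of values and a criterion for
vanishing on a fibre of `Z`.
-/

set_option autoImplicit false

noncomputable section

open scoped MatrixGroups Topology
open UpperHalfPlane hiding I
open CongruenceSubgroup Polynomial Filter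

namespace FLTA.DeligneSerre

open FLTA.Bridge (Hol HolInfty GrowthInfty)
open ModularCurve (coeffMap)

local notation "Qb" => AlgebraicClosure ℚ

variable {A : ValuationSubring Qb} {N : ℕ} [NeZero N]

/-! ## Division -/

theorem inv_mem_algSeries {S : LaurentSeries ℂ} (hS : S ∈ algSeries) : S⁻¹ ∈ algSeries := by
  obtain ⟨x, rfl⟩ := hS
  exact ⟨x⁻¹, map_inv₀ _ _⟩

variable {δ : Gamma N →* ℂ}

/-- Division of a twisted function by an invariant one with simple zeros. -/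
theorem exists_div_mem_tw (hpar : ParTriv N δ) {P h : ℍ → ℂ} (hP : P ∈ Fn N) (hP0 : P ≠ 0)
    (hsimple : ∀ τ : ℍ, P τ = 0 → deriv (P ∘ ofComplex) (τ : ℂ) ≠ 0) (hh : h ∈ Tw N δ)
    (hvan : ∀ τ : ℍ, P τ = 0 → h τ = 0) :
    ∃ q ∈ Tw N δ, P * q = h ∧ (IsAlgFn N P → IsAlgFn N h → IsAlgFn N q) := by
  set q := FLTA.Dim.quot P h with hq
  have hmul : P * q = h := FLTA.Dim.mul_quot hvan
  have hqhol : q ∈ Hol := FLTA.Dim.mdiff_quot hP.1 hsimple hh.1 hvan
  have hinv : ∀ (γ : Gamma N) (τ : ℍ), q ((γ : SL(2, ℤ)) • τ) = δ γ * q τ := by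
    intro γ
    refine congrFun (FLTA.Dim.mul_left_cancel_of_mdiff hP.1 hP0
      (comp_smul_mem_hol' hqhol γ) (Hol.smul_mem hqhol (δ γ)) (funext fun τ => ?_))
    have e1 := congrFun hmul ((γ : SL(2, ℤ)) • τ)
    have e2 := congrFun hmul τ
    simp only [Pi.mul_apply, Pi.smul_apply, smul_eq_mul] at e1 e2 ⊢
    rw [hP.2.1 _ γ.2 τ, hh.2.1 γ τ] at e1
    rw [e1, ← e2]
    ring
  have hPg : ∀ g : SL(2, ℤ), (fun τ : ℍ => P (g • τ)) ≠ 0 := fun g h0 => hP0 (funext fun τ => by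
    simpa [← mul_smul] using congrFun h0 (g⁻¹ • τ))
  have hgr : ∀ g : SL(2, ℤ), GrowthInfty (fun τ : ℍ => q (g • τ)) := by
    intro g
    obtain ⟨hi, hev⟩ := growthInfty_inv (fn_le_perFn hP g) (hPg g)
    obtain ⟨n, hn⟩ := (hh.2.2 g).mul hi
    refine ⟨n, hn.congr' ?_ EventuallyEq.rfl⟩
    filter_upwards [hev] with τ hτ
    simp only [Pi.mul_apply]
    rw [← congrFun hmul (g • τ), Pi.mul_apply, mul_comm (P (g • τ)), mul_assoc (q (g • τ)),
      Pi.inv_apply,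
      mul_inv_cancel₀ hτ, mul_one]
  have hqt : q ∈ Tw N δ := ⟨hqhol, hinv, hgr⟩
  refine ⟨q, hqt, hmul, fun hPa hha => isAlgFn_iff.2 fun g => ?_⟩
  have hne : cexp N P g ≠ 0 := fun h0 => hP0 ((cexp_eq_zero_iff (fn_le_perFn hP) g).1 h0)
  have e : cexp N q g = (cexp N P g)⁻¹ * cexp N h g := by
    rw [← hmul, cexp_mul (fn_le_perFn hP) (Tw.mem_perFn hpar hqt), inv_mul_cancel_left₀ hne]
  rw [e]
  exact mul_mem (inv_mem_algSeries (isAlgFn_iff.1 hPa g)) (isAlgFn_iff.1 hha g)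

/-! ## Reductions and expansions -/

theorem coeff_redAt (g : SL(2, ℤ)) (F : BRing A N) (k : ℤ) :
    (redAt g F).coeff k = redC A ((cexp N (F : ℍ → ℂ) g).coeff k) := by
  rw [redAt_apply]
  rfl

theorem order_le_order_redAt (g : SL(2, ℤ)) (F : BRing A N) (h : redAt g F ≠ 0) :
    (cexp N (F : ℍ → ℂ) g).order ≤ (redAt g F).order := by
  refine HahnSeries.order_le_of_coeff_ne_zero fun h0 => ?_
  exact HahnSeries.coeff_order_eq_zero.not.2 h (by rw [coeff_redAt, h0, redC_zero])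

theorem cexp_ne_zero_of_redAt (g : SL(2, ℤ)) (F : BRing A N) (h : redAt g F ≠ 0) :
    cexp N (F : ℍ → ℂ) g ≠ 0 := fun h0 => h (by
  ext k
  rw [coeff_redAt, h0, HahnSeries.coeff_zero, redC_zero]
  rfl)

omit [NeZero N] in
theorem eqInfty_symm {x : SL(2, ℤ)} (h : EqInfty N x) : EqInfty N x⁻¹ := by
  obtain ⟨k, hk⟩ := h
  refine ⟨-k, ?_⟩
  have key : ∀ y ∈ Gamma N,
      ModularGroup.T ^ k * y⁻¹ * (ModularGroup.T ^ k)⁻¹ ∈ Gamma N := fun y hy =>
    (Gamma_normal N).conj_mem _ (inv_mem hy) _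
  rcases hk with hk | hk
  · refine Or.inl ?_
    have := key _ hk
    rwa [show ModularGroup.T ^ k * (x * ModularGroup.T ^ k)⁻¹ * (ModularGroup.T ^ k)⁻¹ =
      x⁻¹ * ModularGroup.T ^ (-k) by group] at this
  · refine Or.inr ?_
    have := key _ hk
    rw [inv_neg, mul_neg, neg_mul] at this
    rwa [show ModularGroup.T ^ k * (x * ModularGroup.T ^ k)⁻¹ * (ModularGroup.T ^ k)⁻¹ =
      x⁻¹ * ModularGroup.T ^ (-k) by group] at this

/-- A coefficient which is a unit at one cusp is a unit at an equivalent one. -/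
theorem coeff_redAt_ne_zero_of_eqInfty (F : BRing A N) {c h : SL(2, ℤ)}
    (hch : EqInfty N (c⁻¹ * h)) {k : ℤ} (hc : (redAt c F).coeff k ≠ 0) :
    (redAt h F).coeff k ≠ 0 := by
  obtain ⟨t, ht⟩ := hch
  obtain ⟨a, ha⟩ := F.2.2.2 c k
  obtain ⟨b, hb⟩ := F.2.2.2 h k
  rw [coeff_redAt, ← ha, redC_iota] at hc
  rw [coeff_redAt, ← hb, redC_iota]
  have e1 : cexp N (F : ℍ → ℂ) (h * ModularGroup.T ^ t) = cexp N (F : ℍ → ℂ) c := by
    rcases ht with ht | ht
    · have hm := (Gamma_normal N).conj_mem _ ht c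
      conv_lhs => rw [show h * ModularGroup.T ^ t =
        c * (c⁻¹ * h * ModularGroup.T ^ t) * c⁻¹ * c by group]
      exact cexp_gamma_mul_fn F.2.1 hm c
    · have hm := (Gamma_normal N).conj_mem _ ht c
      rw [← cexp_neg, show -(h * ModularGroup.T ^ t) =
          c * -(c⁻¹ * h * ModularGroup.T ^ t) * c⁻¹ * c by
        rw [inv_mul_cancel_right, mul_neg]
        congr 1
        group]
      exact cexp_gamma_mul_fn F.2.1 hm c
  rw [cexp_mul_T (bRing_perFn F.2)] at e1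
  have e2 : eN N t k * iota (b : Qb) = iota (a : Qb) := by
    rw [ha, hb, ← e1, coeff_twist]
  have hroot : eN N t k ^ N = 1 := by
    rw [eN, ← Complex.exp_nat_mul, ← Complex.exp_int_mul_two_pi_mul_I (k * t)]
    congr 1
    have : (N : ℂ) ≠ 0 := Nat.cast_ne_zero.2 (NeZero.ne N)
    push_cast
    field_simp
  have e3 : b ^ N = a ^ N := iotaA_injective A (by
    rw [map_pow, map_pow, iotaA_apply, iotaA_apply, ← e2, mul_pow, hroot, one_mul])
  intro hb0
  refine hc (eq_zero_of_pow_eq_zero (n := N) ?_)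
  rw [← map_pow, ← e3, map_pow, hb0, zero_pow (NeZero.ne N)]

theorem pow_mem_fn_of_tw {n : ℕ} (hδ : ∀ γ, δ γ ^ n = 1) (hpar : ParTriv N δ) {f : ℍ → ℂ}
    (hf : f ∈ Tw N δ) : f ^ n ∈ Fn N := by
  refine ⟨pow_mem hf.1 n, fun γ hγ τ => ?_, fun g => ?_⟩
  · show f (γ • τ) ^ n = f τ ^ n
    rw [hf.2.1 ⟨γ, hγ⟩ τ, mul_pow, hδ, one_mul]
  · exact (pow_mem (Tw.mem_perFn hpar hf) n g).2.2

namespace BaseData

variable (D : BaseData A N) {l : ℕ}

include D in
/-- Gauss' lemma. -/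
theorem mem_bRing_of_mul (hl : l.Prime) (hA : A.LiesOverPrime l) {y : ℍ → ℂ} (hy : y ∈ BAlg N)
    (Q : BRing A N) {g₀ : SL(2, ℤ)} (hQ : redAt g₀ Q ≠ 0) (h : y * (Q : ℍ → ℂ) ∈ BRing A N) :
    y ∈ BRing A N := by
  rcases eq_or_ne y 0 with rfl | hy0
  · exact zero_mem _
  obtain ⟨c, hc, hmem, g, hg⟩ := D.scale y hy hy0
  by_cases hcm : c ∈ A.nonunits
  · exfalso
    have hcA : c ∈ A := A.nonunits_subset hcm
    have e : (⟨_, hmem⟩ : BRing A N) * Q = (⟨_, const_mem_bRing ⟨c, hcA⟩⟩ : BRing A N) * ⟨_, h⟩ :=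
      Subtype.ext (by
        show (iota c • y) * (Q : ℍ → ℂ) = algebraMap ℂ (ℍ → ℂ) (iota c) * (y * (Q : ℍ → ℂ))
        rw [Algebra.smul_def, mul_assoc])
    have e' := congrArg (redAt (A := A) (N := N) g) e
    have hc0 : IsLocalRing.residue A (⟨c, hcA⟩ : A) = 0 :=
      (IsLocalRing.residue_eq_zero_iff _).2 ((mem_maximalIdeal_iff_mem_nonunits _).2 hcm)
    rw [map_mul, map_mul, redAt_const, hc0, map_zero, zero_mul] at e'
    rcases mul_eq_zero.1 e' with h1 | h1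
    · exact hg (by rw [← redAt_apply g ⟨_, hmem⟩]; exact h1)
    · exact D.redAt_ne_zero hl hA Q hQ g h1
  · have hci : c⁻¹ ∈ A := FLTA.Galois.inv_mem_of_not_mem_nonunits hcm
    have := smul_mem_bRing (⟨c⁻¹, hci⟩ : A) hmem
    rwa [smul_smul, ← map_mul, inv_mul_cancel₀ hc, map_one, one_smul] at this

theorem eval_P_ne_zero {z₀ : Qb} (hz₀ : z₀ ∉ A) :
    (D.P.map A.subtype).eval z₀ ≠ 0 := fun h => hz₀ (mem_of_monic_root D.P D.P_monic h)

theorem eval_map_iotaA (p : A[X]) (z₀ : Qb) :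
    (p.map (iotaA A)).eval (iota z₀) = iota ((p.map A.subtype).eval z₀) := by
  rw [iotaA, ← Polynomial.map_map, Polynomial.eval_map, Polynomial.eval₂_at_apply]

/-- Values at points above an algebraic value of `Z` are algebraic. -/
theorem exists_value_eq {F : ℍ → ℂ} (hF : F ∈ BRing A N) {z₀ : Qb} (hz₀ : z₀ ∉ A) {τ : ℍ}
    (hτ : D.Z τ = iota z₀) {h : SL(2, ℤ)} (hh : h ∈ D.reps) :
    ∃ a : Qb, iota a = F (h • τ) := by
  have hW : D.W τ = iota ((D.P.map A.subtype).eval z₀)⁻¹ := by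
    rw [map_inv₀]
    refine eq_inv_of_mul_eq_one_left ?_
    have := D.W_mul τ
    rwa [hτ, eval_map_iotaA] at this
  have hcoef : ∀ i, ∃ a : Qb, iota a = (D.charp F).coeff i τ := by
    intro i
    obtain ⟨p, K, hp⟩ := D.exists_inv'_of_invariant (D.charp_coeff_mem hF i)
      fun γ hγ => D.charp_coeff_inv hF.1 hγ i
    refine ⟨((D.P.map A.subtype).eval z₀)⁻¹ ^ K * (p.map A.subtype).eval z₀, ?_⟩
    rw [hp, inv', Pi.mul_apply, Pi.pow_apply, D.polyZ_apply, hW, hτ, eval_map_iotaA, map_mul,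
      map_pow]
  set q := (D.charp F).map (Pi.evalRingHom (fun _ : ℍ => ℂ) τ) with hq
  have hlift : q ∈ Polynomial.lifts iota := by
    rw [Polynomial.lifts_iff_coeff_lifts]
    intro i
    rw [hq, Polynomial.coeff_map]
    exact hcoef i
  obtain ⟨p, hp, -, hpm⟩ := Polynomial.lifts_and_degree_eq_and_monic hlift
    ((D.charp_monic F).map _)
  have hroot : q.IsRoot (F (h • τ)) := by
    rw [hq, IsRoot, show F (h • τ) = Pi.evalRingHom (fun _ : ℍ => ℂ) τ (compHom h F) from rfl,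
      Polynomial.eval_map, Polynomial.eval₂_hom, D.charp_eval hh, map_zero]
  rw [← hp, ← Polynomial.mem_roots (hpm.map iota).ne_zero,
    (IsAlgClosed.splits p).roots_map, Multiset.mem_map] at hroot
  obtain ⟨a, -, ha⟩ := hroot
  exact ⟨a, ha⟩

/-- A function vanishing at the representatives over a value of `Z` vanishes on the whole
fibre. -/
theorem eq_zero_of_fibre {H : ℍ → ℂ} (hH : H ∈ BAlg N) {τ τ' : ℍ} (hZ : D.Z τ' = D.Z τ)
    (hzero : ∀ h ∈ D.reps, H (h • τ) = 0) : H τ' = 0 := by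
  have hW : D.W τ' = D.W τ := by
    have h1 := D.W_mul τ'
    rw [hZ] at h1
    exact mul_right_cancel₀ (right_ne_zero_of_mul_eq_one (D.W_mul τ)) (h1.trans (D.W_mul τ).symm)
  conv_lhs => rw [D.eq_sum_tr H]
  rw [Finset.sum_apply]
  refine Finset.sum_eq_zero fun j _ => ?_
  have hwa : D.w j ∈ BAlg N := bRing_le_bAlg (D.w_mem j)
  have hm : H * D.w j ∈ BAlg N := mul_mem hH hwa
  obtain ⟨p, K, hp⟩ := D.repr_alg _ (D.tr_mem_bAlg hm)
    fun γ hγ σ => congrFun (D.compHom_tr hm.1 hγ) σ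
  rw [Pi.mul_apply, hp τ', hW, hZ, ← hp τ]
  refine mul_eq_zero_of_left ?_ _
  simp only [tr, Finset.sum_apply, compHom_apply, Pi.mul_apply]
  exact Finset.sum_eq_zero fun h hh => by rw [hzero h hh, zero_mul]

end BaseData

end FLTA.DeligneSerre
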