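import Fermat.Agent.DeligneSerre.Rigidity.Setting
import Fermat.Agent.DeligneSerre.Level.Base

/-!
# The base parameter minus its values at the cusps

`baseZ M - cuspVal M r` is a unit multiple of a translate of `baseZ M`, so that `1 / cuspFun M` is
a product of translates of the integral function `baseInv M = 1 / baseZ M`.
-/

set_option autoImplicit false

noncomputable section

open scoped MatrixGroups
open UpperHalfPlane CongruenceSubgroup

namespace FLTA.DeligneSerre

local notation "Qb" => AlgebraicClosure ℚ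

/-- `1 / baseZ M`, a ratio of torsion differences. -/
def baseInv (M : ℕ) : ℍ → ℂ := torRatio M ![1, 0] ![0, 1] ![1, 1] ![0, 1]

/-- Fixes the pole of `baseZ` and sends the cusp of `r` to the zero of `baseZ`. -/
def baseShift (r : SL(2, ℤ)) : SL(2, ℤ) :=
  poleRep * ModularGroup.T ^ (-((poleRep⁻¹ * r).1 0 0 * (poleRep⁻¹ * r).1 1 0)) * poleRep⁻¹

/-- The residue at the pole. -/
def poleCoeff (M : ℕ) (g : SL(2, ℤ)) : ℂ := (cexp M (baseZ M) g).coeff (-1)

theorem gamma_le_of_dvd {N M : ℕ} (h : M ∣ N) : Gamma N ≤ Gamma M := by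
  intro γ hγ
  rw [Gamma_mem] at hγ ⊢
  obtain ⟨h1, h2, h3, h4⟩ := hγ
  refine ⟨?_, ?_, ?_, ?_⟩
  · simpa only [map_intCast, map_one] using congrArg (ZMod.castHom h (ZMod M)) h1
  · simpa using congrArg (ZMod.castHom h (ZMod M)) h2
  · simpa using congrArg (ZMod.castHom h (ZMod M)) h3
  · simpa only [map_intCast, map_one] using congrArg (ZMod.castHom h (ZMod M)) h4

/-- Level `M` integral functions are level `N` integral functions. -/
theorem mem_bRing_of_level {N M : ℕ} [NeZero N] [NeZero M] (hMN : M ∣ N)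
    {A : ValuationSubring Qb} {F : ℍ → ℂ} (hF : F ∈ Fn M) (hi : IsIntFn A M F) :
    F ∈ BRing A N := by
  have hk : NeZero (N / M) := ⟨fun h => NeZero.ne N (by
    rw [← Nat.div_mul_cancel hMN, h, zero_mul])⟩
  have hN : N = M * (N / M) := (Nat.mul_div_cancel' hMN).symm
  have hP := fn_le_perFn hF
  refine ⟨⟨hF.1, fun γ hγ τ => hF.2.1 γ (gamma_le_of_dvd hMN hγ) τ, hF.2.2⟩,
    PerFn.mul_level (N / M) hN hP, fun g k => ?_⟩
  rw [cexp_mul_level (N / M) hN hP]
  by_cases hd : ((N / M : ℕ) : ℤ) ∣ k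
  · obtain ⟨m, rfl⟩ := hd
    rw [ModularCurve.qExpand_coeff_mul]
    exact hi g m
  · exact ⟨0, by simp [ModularCurve.qExpand_coeff_of_not_dvd _ _ hd]⟩

variable {M : ℕ} [NeZero M] (hM : M = 2 ∨ M = 3)

omit [NeZero M] in
theorem cuspRel_poleRep_baseShift (r g : SL(2, ℤ)) :
    CuspRel M poleRep (baseShift r * g) ↔ CuspRel M poleRep g := by
  have h : poleRep⁻¹ * (baseShift r * g) =
      ModularGroup.T ^ (-((poleRep⁻¹ * r).1 0 0 * (poleRep⁻¹ * r).1 1 0)) * (poleRep⁻¹ * g) := by
    rw [baseShift]; group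
  rw [CuspRel, CuspRel, h, Matrix.SpecialLinearGroup.coe_mul, ModularGroup.coe_T_zpow]
  simp [Matrix.mul_apply, Fin.sum_univ_two]

omit [NeZero M] in
theorem baseShift_apply_zero_zero (r : SL(2, ℤ)) :
    ((baseShift r * r).1 0 0) = (poleRep⁻¹ * r).1 0 0 *
      (1 - (poleRep⁻¹ * r).1 1 0 * (poleRep⁻¹ * r).1 1 0) := by
  rw [baseShift, mul_assoc _ _ r, mul_assoc poleRep]
  generalize poleRep⁻¹ * r = x
  rw [Matrix.SpecialLinearGroup.coe_mul, Matrix.SpecialLinearGroup.coe_mul, ModularGroup.coe_T_zpow]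
  simp [Matrix.mul_apply, Matrix.vecMul, dotProduct, Fin.sum_univ_two, poleRep]
  ring

include hM

omit [NeZero M] in
theorem baseShift_cuspRel_S {r : SL(2, ℤ)} (hr : ¬ CuspRel M poleRep r) :
    ((baseShift r * r).1 0 0 : ZMod M) = 0 := by
  rw [baseShift_apply_zero_zero]
  push_cast
  rcases eq_one_or_neg_one hM (x := ((poleRep⁻¹ * r).1 1 0 : ZMod M)) hr with h | h <;>
    rw [h] <;> ring

theorem coeff_zero_baseZ_of_zero {g : SL(2, ℤ)} (h : (g.1 0 0 : ZMod M) = 0) :
    (cexp M (baseZ M) g).coeff 0 = 0 := by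
  have hc : (g.1 1 0 : ZMod M) ≠ 0 := by
    intro h0
    have : Fact (1 < M) := ⟨by rcases hM with rfl | rfl <;> norm_num⟩
    have := cast_det_eq_one (M := M) g
    rw [h, h0, zero_mul, mul_zero, sub_zero] at this
    exact zero_ne_one this
  obtain ⟨-, hord⟩ := cexp_baseZ_ne_zero_and_order hM g
  refine HahnSeries.coeff_eq_zero_of_lt_order ?_
  rw [hord]
  simp [epsOrd, h, hc]

theorem poleCoeff_ne_zero {g : SL(2, ℤ)} (hg : CuspRel M poleRep g) : poleCoeff M g ≠ 0 := by
  intro h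
  refine (cexp_baseZ_ne_zero_and_order hM g).1 (HahnSeries.coeff_order_eq_zero.mp ?_)
  rw [order_baseZ_pole hM hg]
  exact h

theorem baseZ_sub_eq {r : SL(2, ℤ)} (hr : ¬ CuspRel M poleRep r) (τ : ℍ) :
    baseZ M τ - (cexp M (baseZ M) r).coeff 0 =
      poleCoeff M poleRep / poleCoeff M (baseShift r * poleRep) *
        baseZ M (baseShift r • τ) := by
  set κ := poleCoeff M poleRep / poleCoeff M (baseShift r * poleRep)
  have hpole : CuspRel M poleRep (baseShift r * poleRep) :=
    (cuspRel_poleRep_baseShift r poleRep).2 (cuspRel_self _)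
  have hκ : κ * poleCoeff M (baseShift r * poleRep) = poleCoeff M poleRep :=
    div_mul_cancel₀ _ (poleCoeff_ne_zero hM hpole)
  have hz := baseZ_mem hM
  have hf := baseZAt_mem hM (baseShift r)
  have hcexp : ∀ g, cexp M (baseZ M - κ • baseZAt M (baseShift r)) g =
      cexp M (baseZ M) g - κ • cexp M (baseZ M) (baseShift r * g) := fun g => by
    rw [cexp_sub (fn_le_perFn hz) (Subalgebra.smul_mem _ (fn_le_perFn hf) κ),
      cexp_smul (fn_le_perFn hf),
      show cexp M (baseZAt M (baseShift r)) g = cexp M (baseZ M) (baseShift r * g) from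
        cexp_comp (baseZ M) _ g]
  have hG : baseZ M - κ • baseZAt M (baseShift r) ∈ Fn M :=
    sub_mem hz (Subalgebra.smul_mem _ hf κ)
  have hv : ∀ g, VanishBelow 0 (cexp M (baseZ M - κ • baseZAt M (baseShift r)) g) := by
    intro g m hm
    by_cases hg : CuspRel M poleRep g
    · rcases lt_or_eq_of_le (show m ≤ -1 by omega) with hm1 | rfl
      · rw [hcexp, HahnSeries.coeff_sub, HahnSeries.coeff_smul,
          HahnSeries.coeff_eq_zero_of_lt_order (by rw [order_baseZ_pole hM hg]; exact hm1),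
          HahnSeries.coeff_eq_zero_of_lt_order (by
            rw [order_baseZ_pole hM ((cuspRel_poleRep_baseShift r g).2 hg)]; exact hm1)]
        simp
      · refine (coeff_eq_zero_iff_of_cuspRel hM hG hg (-1)).2 ?_
        rw [hcexp, HahnSeries.coeff_sub, HahnSeries.coeff_smul, smul_eq_mul]
        exact sub_eq_zero.2 hκ.symm
    · rw [hcexp, HahnSeries.coeff_sub, HahnSeries.coeff_smul,
        HahnSeries.coeff_eq_zero_of_lt_order
          (lt_of_lt_of_le hm (order_baseZ_nonneg hM hg)),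
        HahnSeries.coeff_eq_zero_of_lt_order (lt_of_lt_of_le hm
          (order_baseZ_nonneg hM fun h => hg ((cuspRel_poleRep_baseShift r g).1 h)))]
      simp
  have hc := fn_eq_const hG hv
  have hd : (cexp M (baseZ M - κ • baseZAt M (baseShift r)) 1).coeff 0 =
      (cexp M (baseZ M) r).coeff 0 := by
    have h1 : cexp M (baseZ M - κ • baseZAt M (baseShift r)) r =
        HahnSeries.single 0 ((cexp M (baseZ M - κ • baseZAt M (baseShift r)) 1).coeff 0) := by
      conv_lhs => rw [hc, cexp_const]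
    have h2 := congrArg (fun S => S.coeff 0) h1
    simp only [HahnSeries.coeff_single_same, hcexp r, HahnSeries.coeff_sub, HahnSeries.coeff_smul,
      coeff_zero_baseZ_of_zero hM (baseShift_cuspRel_S hM hr), smul_zero, sub_zero] at h2
    exact h2.symm
  have h3 := congrFun hc τ
  rw [hd] at h3
  simp only [Pi.sub_apply, Pi.smul_apply, smul_eq_mul, baseZAt, Function.const_apply] at h3
  linear_combination h3

theorem baseInv_mul_baseZ (τ : ℍ) : baseInv M τ * baseZ M τ = 1 := by
  have h := vec_facts hM (1 : SL(2, ℤ))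
  simp only [vecAct, Matrix.SpecialLinearGroup.coe_one, Matrix.vecMul_one] at h
  obtain ⟨h1, h2, h3, h4, h5⟩ := h
  have d1 := sub_ne_zero.2 (torX_ne h1 h2 h4 τ)
  have d2 := sub_ne_zero.2 (torX_ne h3 h2 h5 τ)
  simp only [baseInv, baseZ, torRatio]
  field_simp

theorem baseInv_mem : baseInv M ∈ Fn M := by
  have h := vec_facts hM (1 : SL(2, ℤ))
  simp only [vecAct, Matrix.SpecialLinearGroup.coe_one, Matrix.vecMul_one] at h
  exact torRatio_mem h.2.2.1 h.2.1 h.1 h.2.1 h.2.2.2.1

theorem isIntFn_baseInv {l : ℕ} (hl : l.Prime) (hlM : ¬ l ∣ M) {A : ValuationSubring Qb}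
    (hA : A.LiesOverPrime l) : IsIntFn A M (baseInv M) := by
  have h := vec_facts hM (1 : SL(2, ℤ))
  simp only [vecAct, Matrix.SpecialLinearGroup.coe_one, Matrix.vecMul_one] at h
  exact torRatio_isIntFn hl hlM hA h.2.2.1 h.2.1 h.1 h.2.1 h.2.2.2.1

theorem isUnit_poleCoeff {l : ℕ} (hl : l.Prime) (hlM : ¬ l ∣ M) {A : ValuationSubring Qb}
    (hA : A.LiesOverPrime l) {g : SL(2, ℤ)} (hg : CuspRel M poleRep g) :
    ∃ a : A, IsUnit a ∧ iota (a : Qb) = poleCoeff M g := by
  obtain ⟨a, ha⟩ := isIntFn_baseZ hM hl hlM hA g (-1)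
  obtain ⟨b, hb⟩ := inv_coeff_neg_one_mem_int hM hl hlM hA hg
  refine ⟨a, IsUnit.of_mul_eq_one b (iotaA_injective A ?_), ha⟩
  rw [map_mul, map_one, iotaA_apply, ha]
  exact (congrArg (poleCoeff M g * ·) hb).trans (mul_inv_cancel₀ (poleCoeff_ne_zero hM hg))

/-- The inverse of one linear factor of `cuspFun`. -/
theorem exists_mul_sub_eq_one {l : ℕ} (hl : l.Prime) (hlM : ¬ l ∣ M) {A : ValuationSubring Qb}
    (hA : A.LiesOverPrime l) {r : SL(2, ℤ)} (hr : ¬ CuspRel M poleRep r) :
    ∃ c : A, ∀ τ : ℍ, iotaA A c * baseInv M (baseShift r • τ) *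
      (baseZ M τ - (cexp M (baseZ M) r).coeff 0) = 1 := by
  have hp := (cuspRel_poleRep_baseShift (M := M) r poleRep).2 (cuspRel_self _)
  obtain ⟨a, hau, ha⟩ := isUnit_poleCoeff hM hl hlM hA (cuspRel_self (M := M) poleRep)
  obtain ⟨b, -, hb⟩ := isUnit_poleCoeff hM hl hlM hA hp
  obtain ⟨a', ha'⟩ := hau.exists_left_inv
  refine ⟨a' * b, fun τ => ?_⟩
  have h1 : iotaA A a' * poleCoeff M poleRep = 1 := by
    rw [← ha, ← iotaA_apply, ← map_mul, ha', map_one]
  rw [baseZ_sub_eq hM hr τ, map_mul, iotaA_apply A b, hb]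
  have := poleCoeff_ne_zero hM hp
  have h2 := baseInv_mul_baseZ hM (baseShift r • τ)
  field_simp
  linear_combination (baseInv M (baseShift r • τ) * baseZ M (baseShift r • τ)) * h1 + h2

end FLTA.DeligneSerre
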