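import Fermat.Agent.DeligneSerre.Rigidity.RedRing
import Fermat.Agent.DeligneSerre.Rigidity.Bounded
import Fermat.Agent.DeligneSerre.Rigidity.Cech
import Mathlib.Algebra.Polynomial.Degree.TrailingDegree

/-!
# Reduction at one cusp is injective

If the reduction ring were not a domain it would contain a non trivial idempotent; its lifts
modulo high powers would be congruent to `0` or `1` at every cusp, hence, by the bounded torsion
of the principal parts, congruent to constants, a contradiction.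
-/

set_option autoImplicit false

noncomputable section

open scoped MatrixGroups
open UpperHalfPlane hiding I
open CongruenceSubgroup Polynomial

namespace FLTA.DeligneSerre

local notation "Qb" => AlgebraicClosure ℚ

variable {A : ValuationSubring Qb} {N : ℕ} [NeZero N]

theorem cexp_const_smul_intExp {a : A} {G : BRing A N} {g : SL(2, ℤ)} {F : BRing A N}
    (h : (F : ℍ → ℂ) = iota (a : Qb) • (G : ℍ → ℂ)) (k : ℤ) :
    (intExp A g ⟨F, F.2.2⟩).coeff k = a * (intExp A g ⟨G, G.2.2⟩).coeff k := by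
  apply iotaA_injective A
  rw [map_mul, ← ModularCurve.coeffMap_coeff, ← ModularCurve.coeffMap_coeff, coeffMap_intExp,
    coeffMap_intExp, h, cexp_smul G.2.2.1, iotaA_apply]
  rfl

theorem redAt_eq_coeffMap (g : SL(2, ℤ)) (F : BRing A N) :
    redAt g F = ModularCurve.coeffMap (IsLocalRing.residue A) (intExp A g ⟨F, F.2.2⟩) := rfl

theorem redAt_smul (g : SL(2, ℤ)) (a : A) (F G : BRing A N)
    (h : (F : ℍ → ℂ) = iota (a : Qb) • (G : ℍ → ℂ)) :
    redAt g F = HahnSeries.single 0 (IsLocalRing.residue A a) * redAt g G := by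
  have e : F = ⟨_, const_mem_bRing a⟩ * G := Subtype.ext (h.trans (Algebra.smul_def _ _))
  rw [e, map_mul, redAt_const]

namespace BaseData

variable (D : BaseData A N)
include D

/-- A function with vanishing reductions is a multiple by an element of the maximal ideal. -/
theorem exists_smul_of_redAt_eq_zero {l : ℕ} (hl : l.Prime) (hA : A.LiesOverPrime l)
    (F : BRing A N) (h : ∀ g, redAt g F = 0) :
    ∃ a : A, a ≠ 0 ∧ a ∈ IsLocalRing.maximalIdeal A ∧
      ∃ G : BRing A N, (F : ℍ → ℂ) = iota (a : Qb) • (G : ℍ → ℂ) := by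
  by_cases h0 : (F : ℍ → ℂ) = 0
  · exact ⟨(l : A), fun hz => hl.ne_zero (by exact_mod_cast congrArg (Subtype.val : A → Qb) hz),
      natCast_mem_maximalIdeal hl hA, 0, by simp [h0]⟩
  obtain ⟨c, hc, hmem, g, hg⟩ := D.scale F (bRing_le_bAlg F.2) h0
  have hcA : c ∉ A := fun hcA => hg (by
    have := redAt_smul g (⟨c, hcA⟩ : A) ⟨_, hmem⟩ F rfl
    rw [redAt_apply, h g, mul_zero] at this
    exact this)
  have hci : c⁻¹ ∈ A := (A.mem_or_inv_mem c).resolve_left hcA
  refine ⟨⟨c⁻¹, hci⟩, fun hz => hc (inv_eq_zero.1 (congrArg Subtype.val hz)), ?_, ⟨_, hmem⟩, ?_⟩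
  · rw [IsLocalRing.mem_maximalIdeal, mem_nonunits_iff]
    intro hu
    obtain ⟨v, hv⟩ := hu.exists_right_inv
    apply hcA
    have hv' : c⁻¹ * (v : Qb) = 1 := congrArg Subtype.val hv
    rw [show c = (v : Qb) by field_simp at hv'; exact hv'.symm]
    exact v.2
  · show (F : ℍ → ℂ) = iota c⁻¹ • iota c • (F : ℍ → ℂ)
    rw [smul_smul, ← map_mul, inv_mul_cancel₀ hc, map_one, one_smul]

/-- A nonzero reduction at infinity that is killed at some other cusp gives an idempotent. -/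
theorem exists_idempotent (F : BRing A N) (h1 : redAt 1 F = 0) {g₀ : SL(2, ℤ)}
    (h0 : redAt g₀ F ≠ 0) :
    ∃ (E : BRing A N) (h : SL(2, ℤ)), redAt 1 E = 0 ∧ redAt h E = 1 ∧
      ∀ g, redAt g (E ^ 2 - E) = 0 := by
  classical
  obtain ⟨h₀, hh₀, hne⟩ : ∃ h ∈ D.reps, redAt h F ≠ 0 := by
    by_contra hc
    push Not at hc
    exact h0 (D.redAt_eq_zero_of_reps F hc g₀)
  have hFn : (F : ℍ → ℂ) ∈ Fn N := F.2.1
  let p : (BRing A N)[X] := ∏ g ∈ D.reps,
    (Polynomial.X - C (⟨compHom g F, compHom_mem_bRing F.2 g⟩ : BRing A N))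
  have hp : p.map (BRing A N).subtype = D.charp F := by
    rw [Polynomial.map_prod, charp]
    exact Finset.prod_congr rfl fun g _ => by simp
  have hinv : ∀ i, ∀ γ ∈ Gamma D.M, compHom γ ((p.coeff i : BRing A N) : ℍ → ℂ) = p.coeff i := by
    intro i γ hγ
    have hc := D.charp_coeff_inv hFn hγ i
    rwa [← hp, Polynomial.coeff_map] at hc
  set pb := p.map (redAt (A := A) (N := N) 1) with hpb
  have hpm : pb.Monic := (monic_prod_of_monic _ _ fun _ _ => monic_X_sub_C _).map _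
  set r := pb.natTrailingDegree
  have hs : redAt 1 (p.coeff r) ≠ 0 := by
    rw [← Polynomial.coeff_map]
    exact Polynomial.trailingCoeff_nonzero_iff_nonzero.2 hpm.ne_zero
  have hlow : ∀ i < r, redAt 1 (p.coeff i) = 0 := fun i hi => by
    rw [← Polynomial.coeff_map]
    exact Polynomial.coeff_eq_zero_of_lt_natTrailingDegree hi
  set d := p.natDegree
  let Y : BRing A N := p.coeff r - ∑ i ∈ Finset.range (d + 1), p.coeff (r + i) * F ^ i
  let x : SL(2, ℤ) → LaurentSeries (IsLocalRing.ResidueField A) :=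
    fun h => if redAt h F = 0 then 0 else 1
  have hcoef : ∀ {h}, h ∈ D.reps → ∀ i, redAt h (p.coeff i) = redAt 1 (p.coeff i) :=
    fun hh i => D.redAt_invariant _ (hinv i) (D.reps_mem _ hh)
  have hY : ∀ h ∈ D.reps, x h * redAt 1 (p.coeff r) = redAt h Y := by
    intro h hh
    simp only [Y, x, map_sub, map_sum, map_mul, map_pow, hcoef hh]
    split_ifs with hz
    · rw [zero_mul, Finset.sum_eq_single_of_mem 0 (by simp) fun i _ hi => by
        rw [hz, zero_pow hi, mul_zero]]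
      simp
    · set y := redAt h F
      have hroot : (∑ i ∈ Finset.range (r + (d + 1)), redAt 1 (p.coeff i) * y ^ i) = 0 := by
        have hev : pb.eval y = 0 := by
          have hyG : y = redAt 1 ⟨compHom h F, compHom_mem_bRing F.2 h⟩ := by
            rw [redAt_comp, mul_one]
          rw [hpb, hyG, Polynomial.eval_map, Polynomial.eval₂_hom, Polynomial.eval_prod,
            Finset.prod_eq_zero hh (by simp), map_zero]
        rw [Polynomial.eval_eq_sum_range' (n := r + (d + 1))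
          (lt_of_le_of_lt Polynomial.natDegree_map_le (by omega))] at hev
        simpa only [Polynomial.coeff_map] using hev
      rw [Finset.sum_range_add, Finset.sum_eq_zero (fun i hi => by
        rw [hlow i (Finset.mem_range.1 hi), zero_mul]), zero_add] at hroot
      have hzero : (∑ i ∈ Finset.range (d + 1), redAt 1 (p.coeff (r + i)) * y ^ i) = 0 := by
        have hfac : y ^ r * (∑ i ∈ Finset.range (d + 1), redAt 1 (p.coeff (r + i)) * y ^ i) = 0 := by
          rw [← hroot, Finset.mul_sum]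
          exact Finset.sum_congr rfl fun i _ => by rw [pow_add]; ring
        exact (mul_eq_zero.1 hfac).resolve_left (pow_ne_zero _ hz)
      rw [one_mul, hzero, sub_zero]
  have hxint : ∀ h ∈ D.reps, IsIntegral D.R0 (x h) := fun h _ => by
    simp only [x]
    split_ifs
    · exact isIntegral_zero
    · exact isIntegral_one
  obtain ⟨E, hE⟩ := D.exists_lift_of_isIntegral x Y (p.coeff r) (hinv r) hs hxint hY
  refine ⟨E, h₀, ?_, ?_, fun g => D.redAt_eq_zero_of_reps _ (fun h hh => ?_) g⟩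
  · rw [hE 1 D.one_mem_reps]
    simp only [x, if_pos h1]
  · rw [hE h₀ hh₀]
    simp only [x, if_neg hne]
  · rw [map_sub, map_pow, hE h hh]
    simp only [x]
    split_ifs <;> simp

omit D in
/-- Newton iteration of an idempotent. -/
theorem exists_idempotent_pow (E₀ : BRing A N) {a : A} {G₀ : BRing A N}
    (ha : a ∈ IsLocalRing.maximalIdeal A)
    (h : ((E₀ ^ 2 - E₀ : BRing A N) : ℍ → ℂ) = iota (a : Qb) • (G₀ : ℍ → ℂ)) (m : ℕ) :
    ∃ E G : BRing A N, (∀ g, redAt g E = redAt g E₀) ∧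
      ((E ^ 2 - E : BRing A N) : ℍ → ℂ) = iota ((a ^ (m + 1) : A) : Qb) • (G : ℍ → ℂ) := by
  induction m with
  | zero => exact ⟨E₀, G₀, fun g => rfl, by simpa using h⟩
  | succ m ih =>
    obtain ⟨E, G, hE, hG⟩ := ih
    set α : BRing A N := ⟨_, const_mem_bRing (a ^ (m + 1))⟩
    set β : BRing A N := ⟨_, const_mem_bRing a⟩
    have hEG : E ^ 2 - E = α * G := Subtype.ext (hG.trans (Algebra.smul_def _ _))
    refine ⟨3 * E ^ 2 - 2 * E ^ 3,
      (⟨_, const_mem_bRing (a ^ m)⟩ : BRing A N) * G ^ 2 * (4 * E ^ 2 - 4 * E - 3), fun g => ?_, ?_⟩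
    · have e : 3 * E ^ 2 - 2 * E ^ 3 = E + α * (G * (1 - 2 * E)) := by
        rw [← mul_assoc, ← hEG]; ring
      have hα : redAt g α = 0 := by
        rw [redAt_const, map_pow,
          (IsLocalRing.residue_eq_zero_iff (R := A) a).2 ha, zero_pow (by omega)]
        simp
      rw [e, map_add, map_mul, hα, zero_mul, add_zero, hE]
    · have hαβ : α * α = (⟨_, const_mem_bRing (a ^ (m + 1 + 1))⟩ : BRing A N) *
          (⟨_, const_mem_bRing (a ^ m)⟩ : BRing A N) := Subtype.ext (by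
        show algebraMap ℂ (ℍ → ℂ) _ * algebraMap ℂ (ℍ → ℂ) _ =
          algebraMap ℂ (ℍ → ℂ) _ * algebraMap ℂ (ℍ → ℂ) _
        rw [← map_mul, ← map_mul, ← map_mul, ← map_mul]
        push_cast
        ring_nf)
      rw [Algebra.smul_def]
      refine congrArg Subtype.val (show (3 * E ^ 2 - 2 * E ^ 3) ^ 2 - (3 * E ^ 2 - 2 * E ^ 3) =
        (⟨_, const_mem_bRing (a ^ (m + 1 + 1))⟩ : BRing A N) *
          ((⟨_, const_mem_bRing (a ^ m)⟩ : BRing A N) * G ^ 2 * (4 * E ^ 2 - 4 * E - 3)) from ?_)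
      rw [← mul_assoc, ← mul_assoc, ← hαβ]
      linear_combination ((E ^ 2 - E) * (4 * E ^ 2 - 4 * E - 3) +
        α * G * (4 * E ^ 2 - 4 * E - 3)) * hEG

omit D in
/-- An approximate idempotent is approximately constant at every cusp. -/
theorem exists_const_approx {l : ℕ} (hl : l.Prime) (hA : A.LiesOverPrime l) (E G : BRing A N)
    {b : A} (hb : b ≠ 0) (hbm : b ∈ IsLocalRing.maximalIdeal A)
    (h : ((E ^ 2 - E : BRing A N) : ℍ → ℂ) = iota (b : Qb) • (G : ℍ → ℂ)) (g : SL(2, ℤ)) :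
    ∃ ε : A, (ε = 0 ∨ ε = 1) ∧ redAt g E = HahnSeries.single 0 (IsLocalRing.residue A ε) ∧
      ∀ k, b ∣ (intExp A g ⟨E, E.2.2⟩ - HahnSeries.single 0 ε).coeff k := by
  set S := intExp A g ⟨E, E.2.2⟩ with hS
  have hred : redAt g (E ^ 2 - E) = 0 := by
    rw [redAt_smul g b _ G h, (IsLocalRing.residue_eq_zero_iff (R := A) b).2 hbm]
    simp
  rw [map_sub, map_pow, sub_eq_zero, pow_two] at hred
  have hk : ∀ k : ℤ, b ∣ (S ^ 2 - S).coeff k := fun k => by
    have e : intExpHom A g ⟨_, (E ^ 2 - E).2.2⟩ = S ^ 2 - S := by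
      rw [show (⟨_, (E ^ 2 - E).2.2⟩ : IntFn A N) =
        (⟨E, E.2.2⟩ : IntFn A N) ^ 2 - ⟨E, E.2.2⟩ from rfl, map_sub, map_pow]
      rfl
    exact ⟨_, (congrArg (fun T : LaurentSeries A => T.coeff k) e).symm.trans
      (cexp_const_smul_intExp h k)⟩
  rcases mul_eq_zero.1 (show redAt g E * (redAt g E - 1) = 0 by rw [mul_sub, hred, mul_one,
    sub_self]) with h0 | h1
  · obtain ⟨ε, hε, hd⟩ := exists_idempotent_approx hl hA S (c := 0)
      (by rw [hS, ← redAt_eq_coeffMap, h0]; simp) hb hbm hk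
    refine ⟨ε, hε, ?_, hd⟩
    rcases hε with rfl | rfl
    · simp [h0]
    · exfalso
      obtain ⟨t, ht⟩ := hd 0
      have := congrArg (IsLocalRing.residue A) ht
      rw [map_mul, (IsLocalRing.residue_eq_zero_iff (R := A) b).2 hbm, zero_mul,
        HahnSeries.coeff_sub, map_sub, ← ModularCurve.coeffMap_coeff, hS, ← redAt_eq_coeffMap,
        h0] at this
      simp at this
  · rw [sub_eq_zero] at h1
    obtain ⟨ε, hε, hd⟩ := exists_idempotent_approx hl hA S (c := 1)
      (by rw [hS, ← redAt_eq_coeffMap, h1]; rfl) hb hbm hk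
    refine ⟨ε, hε, ?_, hd⟩
    rcases hε with rfl | rfl
    · exfalso
      obtain ⟨t, ht⟩ := hd 0
      have := congrArg (IsLocalRing.residue A) ht
      rw [map_mul, (IsLocalRing.residue_eq_zero_iff (R := A) b).2 hbm, zero_mul,
        HahnSeries.coeff_sub, map_sub, ← ModularCurve.coeffMap_coeff, hS, ← redAt_eq_coeffMap,
        h1] at this
      simp at this
    · rw [h1, map_one]
      rfl

/-- Reduction at one cusp detects vanishing of the reduction at all cusps. -/
theorem redAt_eq_zero_of_one {l : ℕ} (hl : l.Prime) (hA : A.LiesOverPrime l) (F : BRing A N)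
    (h1 : redAt 1 F = 0) (g : SL(2, ℤ)) : redAt g F = 0 := by
  by_contra hg
  obtain ⟨E₀, h₀, hE1, hE0, hidem⟩ := D.exists_idempotent F h1 hg
  obtain ⟨a, ha, ham, G₀, hG₀⟩ := D.exists_smul_of_redAt_eq_zero hl hA _ hidem
  obtain ⟨c, hc, hcech⟩ := D.exists_torsion_bound (parTriv_one N)
    (fun f hf hfa => by
      have hfn := mem_tw_one_iff.1 hf
      obtain ⟨c, hc, hm⟩ := D.denom f ⟨hfn, fn_le_perFn hfn, hfa⟩
      exact ⟨c, hc, hm.2.2⟩)
    (fun g => ⟨1, mem_tw_one_iff.2 (one_mem (Fn N)), (one_mem (IntFn A N) : _).2, 1, isUnit_one, by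
      rw [cexp_one, HahnSeries.order_one]; simp⟩)
  refine hc (eq_zero_of_forall_pow_dvd hl hA ham fun m => ?_)
  rcases m with _ | m
  · simp
  obtain ⟨E, G, hred, hEG⟩ := exists_idempotent_pow E₀ ham hG₀ m
  set b := a ^ (m + 1) with hbdef
  have hb : b ≠ 0 := pow_ne_zero _ ha
  have hbm : b ∈ IsLocalRing.maximalIdeal A := Ideal.pow_mem_of_mem _ ham _ (by omega)
  have happ := exists_const_approx hl hA E G hb hbm hEG
  obtain ⟨H, hH, hHint, hreg⟩ := hcech b hb E (mem_tw_one_iff.2 E.2.1) E.2.2.2 fun g k hk => by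
    obtain ⟨ε, -, -, hd⟩ := happ g
    obtain ⟨t, ht⟩ := hd k
    rw [HahnSeries.coeff_sub, HahnSeries.coeff_single_of_ne hk.ne, sub_zero] at ht
    exact ⟨t, by rw [← ht, ← coeffMap_intExp A g ⟨E, E.2.2⟩]; rfl⟩
  let Hb : BRing A N := ⟨H, mem_tw_one_iff.1 hH, fn_le_perFn (mem_tw_one_iff.1 hH), hHint⟩
  let R : BRing A N := ⟨_, const_mem_bRing c⟩ * E - ⟨_, const_mem_bRing b⟩ * Hb
  have hR : (R : ℍ → ℂ) = iota (c : Qb) • (E : ℍ → ℂ) - iota (b : Qb) • H := by
    show algebraMap ℂ (ℍ → ℂ) _ * (E : ℍ → ℂ) - algebraMap ℂ (ℍ → ℂ) _ * H = _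
    rw [Algebra.smul_def, Algebra.smul_def]
  obtain ⟨C₀, hC₀⟩ := exists_eq_const_of_order_nonneg R.2.1 fun g => by rw [hR]; exact hreg g
  have hcoef : ∀ g, ∃ ε t : A, IsLocalRing.residue A ε = (redAt g E₀).coeff 0 ∧
      (ε = 0 ∨ ε = 1) ∧ C₀ = iota ((c * ε + b * t : A) : Qb) := by
    intro g
    obtain ⟨ε, hε, hεr, hd⟩ := happ g
    obtain ⟨t, ht⟩ := hd 0
    rw [HahnSeries.coeff_sub, HahnSeries.coeff_single_same, sub_eq_iff_eq_add'] at ht
    refine ⟨ε, c * t - (intExp A g ⟨Hb, Hb.2.2⟩).coeff 0, ?_, hε, ?_⟩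
    · rw [← hred g, hεr, HahnSeries.coeff_single_same]
    · have e : (cexp N (R : ℍ → ℂ) g).coeff 0 = C₀ := by
        rw [hC₀, cexp_eq (Subalgebra.algebraMap_mem _ C₀),
          show (⟨algebraMap ℂ (ℍ → ℂ) C₀, Subalgebra.algebraMap_mem _ _⟩ : PerFn N) =
            algebraMap ℂ (PerFn N) C₀ from rfl, AlgHom.commutes,
          ModularCurve.algebraMap_laurentSeries_eq_single, HahnSeries.coeff_single_same]
      rw [← e, hR, cexp_sub (Subalgebra.smul_mem _ E.2.2.1 _)
        (Subalgebra.smul_mem _ Hb.2.2.1 _), cexp_smul E.2.2.1,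
        show cexp N (iota (b : Qb) • H) g = iota (b : Qb) • cexp N H g from cexp_smul Hb.2.2.1 _ _,
        ← coeffMap_intExp A g ⟨E, E.2.2⟩,
        show cexp N H g = ModularCurve.coeffMap (iotaA A) (intExp A g ⟨Hb, Hb.2.2⟩) from
          (coeffMap_intExp A g ⟨Hb, Hb.2.2⟩).symm]
      rw [HahnSeries.coeff_sub, HahnSeries.coeff_smul, HahnSeries.coeff_smul,
        ModularCurve.coeffMap_coeff, ModularCurve.coeffMap_coeff, ht]
      simp only [smul_eq_mul, iotaA_apply]
      push_cast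
      simp only [map_add, map_mul, map_sub]
      ring
  obtain ⟨ε₁, t₁, hr₁, hε₁, e₁⟩ := hcoef 1
  obtain ⟨ε₂, t₂, hr₂, hε₂, e₂⟩ := hcoef h₀
  rw [hE1] at hr₁
  rw [hE0] at hr₂
  have h1' : ε₁ = 0 := hε₁.resolve_right fun e => by simp [e] at hr₁
  have h2' : ε₂ = 1 := hε₂.resolve_left fun e => by simp [e] at hr₂
  have he := Subtype.ext (iota.injective (e₁.symm.trans e₂))
  rw [h1', h2', mul_zero, zero_add, mul_one] at he
  exact ⟨t₁ - t₂, by linear_combination -he⟩

theorem redAt_ne_zero {l : ℕ} (hl : l.Prime) (hA : A.LiesOverPrime l) (F : BRing A N)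
    {g₀ : SL(2, ℤ)} (h : redAt g₀ F ≠ 0) (g : SL(2, ℤ)) : redAt g F ≠ 0 := by
  intro hg
  have h1 : redAt 1 ⟨compHom g F, compHom_mem_bRing F.2 g⟩ = 0 := by rw [redAt_comp, mul_one]; exact hg
  have := D.redAt_eq_zero_of_one hl hA _ h1 (g⁻¹ * g₀)
  rw [redAt_comp, ← mul_assoc, mul_inv_cancel, one_mul] at this
  exact h this

end BaseData

end FLTA.DeligneSerre
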