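import Fermat.Agent.DeligneSerre.Rigidity.Affine
import Fermat.Agent.DeligneSerre.Rigidity.Inject
import Fermat.Agent.Galois.PlacesFinite
import Mathlib.RingTheory.Polynomial.Basic

/-!
# A twisted function with reduction `1`

By normality the reductions at infinity of integral twisted functions are reductions of invariant
functions (`exists_inv_redExp_eq`); they form an ideal, whose trace on the polynomials in the
reduced parameter contains, by the affine step, a power of the reduction of `P`.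
-/

set_option autoImplicit false

noncomputable section

open scoped MatrixGroups
open UpperHalfPlane CongruenceSubgroup Polynomial

namespace FLTA.DeligneSerre.BaseData

local notation "Qb" => AlgebraicClosure ℚ

variable {A : ValuationSubring Qb} {N : ℕ} [NeZero N] (D : BaseData A N)

local notation "κ" => IsLocalRing.ResidueField A

/-- `y` is the reduction at infinity of an integral twisted function. -/
def IsRedTw (δ : Gamma N →* ℂ) (y : LaurentSeries κ) : Prop :=
  ∃ g ∈ Tw N δ, IsIntFn A N g ∧ redExp A N g 1 = y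

variable {δ : Gamma N →* ℂ}

theorem IsRedTw.zero : IsRedTw (A := A) δ 0 :=
  ⟨0, zero_mem _, (zero_mem (IntFn A N) : (0 : ℍ → ℂ) ∈ IntFn A N).2, by
    rw [show (0 : ℍ → ℂ) = ((0 : IntFn A N) : ℍ → ℂ) from rfl, redExp_eq_redHom, map_zero]⟩

theorem IsRedTw.add (hpar : ParTriv N δ) {x y : LaurentSeries κ} (hx : IsRedTw (A := A) δ x)
    (hy : IsRedTw (A := A) δ y) : IsRedTw (A := A) δ (x + y) := by
  obtain ⟨g, hg, hgi, rfl⟩ := hx
  obtain ⟨g', hg', hgi', rfl⟩ := hy
  have h : g ∈ IntFn A N := ⟨Tw.mem_perFn hpar hg, hgi⟩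
  have h' : g' ∈ IntFn A N := ⟨Tw.mem_perFn hpar hg', hgi'⟩
  exact ⟨g + g', add_mem hg hg', (add_mem h h').2, redExp_add h h' 1⟩

theorem IsRedTw.mul (hpar : ParTriv N δ) (F : BRing A N) {y : LaurentSeries κ}
    (hy : IsRedTw (A := A) δ y) : IsRedTw (A := A) δ (redAt 1 F * y) := by
  obtain ⟨g, hg, hgi, rfl⟩ := hy
  have h : g ∈ IntFn A N := ⟨Tw.mem_perFn hpar hg, hgi⟩
  refine ⟨(F : ℍ → ℂ) * g, ?_, (mul_mem F.2.2 h).2, by rw [redExp_mul F.2.2 h, redAt_apply]⟩
  have := mul_mem_tw (mem_tw_one_iff.2 F.2.1) hg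
  rwa [one_mul] at this

variable (hpar : ParTriv N δ) {l : ℕ} (hl : l.Prime) (hA : A.LiesOverPrime l)
  {n : ℕ} [NeZero n] (hln : ¬ l ∣ n) (hδ : ∀ γ, δ γ ^ n = 1)

include D hpar hl hA hln hδ

/-- Normality: the reduction of an integral twisted function is that of an invariant one, with the
same `n`-th powers at all representatives. -/
theorem exists_inv_redExp_eq {f : ℍ → ℂ} (hf : f ∈ Tw N δ) (hfi : IsIntFn A N f) (b : BRing A N)
    (heq : redExp A N f 1 = redExp A N (b : ℍ → ℂ) 1) (hne : redExp A N f 1 ≠ 0)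
    {g : ℍ → ℂ} (hg : g ∈ Tw N δ) (hgi : IsIntFn A N g) :
    ∃ i : BRing A N, redAt 1 i = redExp A N g 1 ∧
      ∀ h ∈ D.reps, redAt h i ^ n = redExp A N (g ^ n) h := by
  have hfI : f ∈ IntFn A N := ⟨Tw.mem_perFn hpar hf, hfi⟩
  have hgI : g ∈ IntFn A N := ⟨Tw.mem_perFn hpar hg, hgi⟩
  let Fn' : BRing A N := ⟨f ^ n, pow_mem_fn hδ hf, pow_mem hfI n⟩
  let Gn : BRing A N := ⟨g ^ n, pow_mem_fn hδ hg, pow_mem hgI n⟩
  let GF : BRing A N := ⟨g * f ^ (n - 1), mul_pow_mem_fn hδ hg hf, mul_mem hgI (pow_mem hfI _)⟩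
  have hb1 : redAt 1 b ≠ 0 := by rw [redAt_apply, ← heq]; exact hne
  have hbne : ∀ h, redAt h b ≠ 0 := D.redAt_ne_zero hl hA b hb1
  have hpow : ∀ h, redAt h Fn' = redAt h b ^ n := fun h => by
    have h1 : redAt 1 (Fn' - b ^ n) = 0 := by
      rw [map_sub, map_pow, sub_eq_zero, redAt_apply, redAt_apply, ← heq]
      exact redExp_pow hfI n 1
    have h2 := D.redAt_eq_zero_of_one hl hA _ h1 h
    rwa [map_sub, map_pow, sub_eq_zero] at h2
  let x : SL(2, ℤ) → LaurentSeries κ := fun h => redAt h GF / redAt h b ^ (n - 1)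
  have hGF : ∀ h, redAt h GF = redExp A N g h * redExp A N f h ^ (n - 1) := fun h => by
    rw [redAt_apply, redExp_mul hgI (pow_mem hfI _), redExp_pow hfI]
  have hxn : ∀ h, x h ^ n = redAt h Gn := fun h => by
    simp only [x, div_pow]
    rw [hGF, mul_pow, ← pow_mul, ← pow_mul, mul_comm (n - 1) n, pow_mul, pow_mul,
      ← redExp_pow hfI, ← redExp_pow hgI]
    rw [show redExp A N (f ^ n) h = redAt h Fn' from (redAt_apply h Fn').symm, hpow,
      show redExp A N (g ^ n) h = redAt h Gn from (redAt_apply h Gn).symm, mul_div_assoc, div_self (pow_ne_zero _ (pow_ne_zero _ (hbne h))), mul_one]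
  let c : BRing A N := b ^ (n - 1)
  let Cof : BRing A N := ⟨D.cofactor c, D.cofactor_mem c.2⟩
  let S : BRing A N := ⟨D.norm c, D.norm_mem c.2⟩
  have hS : ∀ γ ∈ Gamma D.M, compHom γ (S : ℍ → ℂ) = S := fun γ hγ => D.compHom_norm c.2.1 hγ
  have hS0 : redAt 1 S ≠ 0 := by
    rw [show S = (⟨D.norm c, D.norm_mem c.2⟩ : BRing A N) from rfl, D.redAt_norm]
    refine Finset.prod_ne_zero_iff.2 fun h _ => ?_
    rw [map_pow]
    exact pow_ne_zero _ (hbne h)
  have hY : ∀ h ∈ D.reps, x h * redAt 1 S = redAt h (GF * Cof) := fun h hh => by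
    have e : S = c * Cof := Subtype.ext (D.mul_cofactor c).symm
    rw [← D.redAt_invariant S hS (D.reps_mem h hh), e, map_mul, map_mul, map_pow]
    simp only [x]
    field_simp [pow_ne_zero (n - 1) (hbne h)]
  have hint : ∀ h ∈ D.reps, IsIntegral D.R0 (x h) := fun h hh =>
    IsIntegral.of_pow (NeZero.pos n) (by rw [hxn]; exact D.isIntegral_redAt Gn hh)
  obtain ⟨i, hi⟩ := D.exists_lift_of_isIntegral x (GF * Cof) S hS hS0 hint hY
  refine ⟨i, ?_, fun h hh => ?_⟩
  · rw [hi 1 D.one_mem_reps]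
    simp only [x]
    rw [hGF, heq, ← redAt_apply, mul_div_assoc, div_self (pow_ne_zero _ hb1), mul_one]
  · rw [hi h hh, hxn, redAt_apply]

/-- Over every point of the reduced affine base off the cusps, a polynomial in the reduced
parameter which does not vanish there is the reduction of a twisted function. -/
theorem exists_poly_isRedTw {f : ℍ → ℂ} (hf : f ∈ Tw N δ) (hfi : IsIntFn A N f) (b : BRing A N)
    (heq : redExp A N f 1 = redExp A N (b : ℍ → ℂ) 1) (hne : redExp A N f 1 ≠ 0)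
    (z : κ) (hz : D.rP.eval z ≠ 0) :
    ∃ q : κ[X], q.eval z ≠ 0 ∧ IsRedTw (A := A) δ (aeval D.rZ q) := by
  obtain ⟨g, hg, hgi, G, p, K, hG, hnorm, hp⟩ :=
    D.exists_norm_ne_zero_at hpar hl hA hln hδ hf hfi hne z hz
  obtain ⟨i, hi1, hin⟩ := D.exists_inv_redExp_eq hpar hl hA hln hδ hf hfi b heq hne hg hgi
  obtain ⟨q, L, hq⟩ := D.exists_inv'_of_invariant (D.norm_mem i.2)
    fun γ hγ => D.compHom_norm i.2.1 hγ
  have hNi : redAt 1 ⟨D.norm i, D.norm_mem i.2⟩ =
      (aeval D.rZ D.rP)⁻¹ ^ L * aeval D.rZ (q.map (IsLocalRing.residue A)) := by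
    rw [← D.redAt_inv']; exact congrArg (redAt 1) (Subtype.ext hq)
  have hNG : redAt 1 ⟨D.norm G, D.norm_mem G.2⟩ =
      (aeval D.rZ D.rP)⁻¹ ^ K * aeval D.rZ (p.map (IsLocalRing.residue A)) := by
    rw [← D.redAt_inv']; exact congrArg (redAt 1) (Subtype.ext hnorm)
  have hpow : redAt 1 ⟨D.norm i, D.norm_mem i.2⟩ ^ n = redAt 1 ⟨D.norm G, D.norm_mem G.2⟩ := by
    rw [D.redAt_norm, D.redAt_norm, ← Finset.prod_pow]
    exact Finset.prod_congr rfl fun h hh => by rw [hin h hh, redAt_apply, hG]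
  have hP := D.aeval_rP_ne
  set qb := q.map (IsLocalRing.residue A)
  set pb := p.map (IsLocalRing.residue A)
  have hpoly : qb ^ n * D.rP ^ K = pb * D.rP ^ (L * n) := by
    rw [hNi, hNG, mul_pow, inv_pow, inv_pow, inv_pow, ← pow_mul] at hpow
    have hinj : ∀ r : κ[X], aeval D.rZ r = 0 → r = 0 := fun r hr => by
      by_contra hr0
      exact aeval_ne_zero_of_order_neg D.rZ_order_neg hr0 hr
    refine sub_eq_zero.1 (hinj _ ?_)
    rw [map_sub, map_mul, map_mul, map_pow, map_pow, map_pow, sub_eq_zero]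
    field_simp at hpow
    linear_combination hpow
  have hqz : qb.eval z ≠ 0 := fun h0 => by
    have h := congrArg (Polynomial.eval z) hpoly
    rw [eval_mul, eval_mul, eval_pow, eval_pow, eval_pow, h0, zero_pow (NeZero.ne n), zero_mul,
      eq_comm] at h
    exact mul_ne_zero hp (pow_ne_zero _ hz) h
  refine ⟨qb, hqz, ?_⟩
  let T : BRing A N := ⟨_, D.cofactor_mem i.2⟩ * ⟨_, D.polyZ_mem (D.P ^ L)⟩
  have h : redAt 1 T * redExp A N g 1 = aeval D.rZ qb := by
    have e : redAt 1 i * redAt 1 ⟨_, D.cofactor_mem i.2⟩ =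
        redAt 1 ⟨D.norm i, D.norm_mem i.2⟩ := by
      rw [← map_mul]; exact congrArg (redAt 1) (Subtype.ext (D.mul_cofactor i))
    rw [← hi1, map_mul, D.redAt_polyZ, Polynomial.map_pow, map_pow,
      mul_right_comm, mul_comm (redAt 1 _) (redAt 1 i), e, hNi, inv_pow,
      show D.P.map (IsLocalRing.residue A) = D.rP from rfl]
    field_simp
  exact h ▸ IsRedTw.mul hpar T ⟨g, hg, hgi, rfl⟩

/-- If some twisted function reduces to an invariant one, some twisted function reduces to `1`. -/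
theorem exists_redExp_eq_one {f : ℍ → ℂ} (hf : f ∈ Tw N δ) (hfi : IsIntFn A N f) (b : BRing A N)
    (heq : redExp A N f 1 = redExp A N (b : ℍ → ℂ) 1) (hne : redExp A N f 1 ≠ 0) :
    ∃ u ∈ Tw N δ, IsIntFn A N u ∧ redExp A N u 1 = 1 := by
  haveI : IsAlgClosed κ := Galois.isAlgClosed_residueField A
  have hpoly := D.exists_poly_isRedTw hpar hl hA hln hδ hf hfi b heq hne
  let J : Ideal κ[X] :=
    { carrier := {r | IsRedTw (A := A) δ (aeval D.rZ r)}
      zero_mem' := by
        show IsRedTw (A := A) δ (aeval D.rZ 0)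
        rw [map_zero]; exact IsRedTw.zero
      add_mem' := fun {r s} hr hs => by
        show IsRedTw (A := A) δ (aeval D.rZ (r + s))
        rw [map_add]; exact IsRedTw.add hpar hr hs
      smul_mem' := fun c r hr => by
        show IsRedTw (A := A) δ (aeval D.rZ (c • r))
        obtain ⟨c', hc'⟩ := Polynomial.map_surjective _ (IsLocalRing.residue_surjective (R := A)) c
        rw [smul_eq_mul, map_mul, ← hc', ← D.redAt_polyZ]
        exact IsRedTw.mul hpar _ hr }
  obtain ⟨r, hr⟩ := IsPrincipalIdealRing.principal J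
  have hdvd : ∀ {s : κ[X]}, s ∈ J ↔ r ∣ s := fun {s} => by
    rw [hr, Ideal.submodule_span_eq, Ideal.mem_span_singleton]
  have hroot : ∀ z, r.IsRoot z → D.rP.eval z = 0 := fun z hrz => by
    by_contra hz
    obtain ⟨q, hqz, hq⟩ := hpoly z hz
    obtain ⟨s, rfl⟩ := hdvd.1 (show q ∈ J from hq)
    exact hqz (by rw [eval_mul, hrz, zero_mul])
  have hr0 : r ≠ 0 := by
    rintro rfl
    obtain ⟨z, hz⟩ : ∃ z, D.rP.eval z ≠ 0 := by
      by_contra hall
      push Not at hall
      exact D.rP_monic.ne_zero (Polynomial.funext fun x => by rw [hall, eval_zero])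
    exact hz (hroot z (by simp [IsRoot]))
  obtain ⟨m, hm⟩ : ∃ m, r ∣ D.rP ^ m := by
    refine ⟨r.roots.card, ?_⟩
    have hsplit := (IsAlgClosed.splits r).eq_prod_roots
    conv_lhs => rw [hsplit]
    rw [(isUnit_C.2 (IsUnit.mk0 _ (leadingCoeff_ne_zero.2 hr0))).mul_left_dvd,
      show D.rP ^ r.roots.card = (r.roots.map fun _ => D.rP).prod by
        rw [Multiset.map_const', Multiset.prod_replicate]]
    exact Multiset.prod_dvd_prod_of_dvd _ _ fun z hz =>
      dvd_iff_isRoot.2 (hroot z (isRoot_of_mem_roots hz))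
  obtain ⟨g, hg, hgi, hge⟩ := (hdvd.2 hm : D.rP ^ m ∈ J)
  obtain ⟨u, hu, hui, hue⟩ :=
    IsRedTw.mul hpar ((⟨_, D.W_mem⟩ : BRing A N) ^ m) ⟨g, hg, hgi, hge⟩
  refine ⟨u, hu, hui, ?_⟩
  rw [hue, map_pow, map_pow, D.redAt_W, ← mul_pow, inv_mul_cancel₀ D.aeval_rP_ne, one_pow]

end FLTA.DeligneSerre.BaseData
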