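import Fermat.Agent.DeligneSerre.Rigidity.Setting
import Mathlib.Algebra.Ring.GeomSum

/-!
# Series tools for interpolation at a cusp

* `ZB x m`: the coefficients of `x` below `m` vanish; `HasLead A x m`: order `m` and leading
  coefficient a unit of `A`.
* `twist N t`: the effect of `T ^ t` on expansions in `exp (2 π i τ / N)`.
* Coefficientwise comparison of the expansions at equivalent cusps, and pole bounds.
-/

set_option autoImplicit false

noncomputable section

open scoped MatrixGroups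
open UpperHalfPlane hiding I
open CongruenceSubgroup

namespace FLTA.DeligneSerre

open ModularCurve (coeffMap)

local notation "Qb" => AlgebraicClosure ℚ

/-! ## Vanishing below a bound -/

/-- The coefficients below `m` vanish. -/
def ZB (x : LaurentSeries ℂ) (m : ℤ) : Prop := ∀ k < m, x.coeff k = 0

theorem ZB.mono {x : LaurentSeries ℂ} {m m' : ℤ} (h : ZB x m) (hm : m' ≤ m) : ZB x m' :=
  fun k hk => h k (lt_of_lt_of_le hk hm)

theorem zb_zero (m : ℤ) : ZB 0 m := fun _ _ => rfl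

theorem zb_order (x : LaurentSeries ℂ) : ZB x x.order :=
  fun _ hk => HahnSeries.coeff_eq_zero_of_lt_order hk

theorem ZB.add {x y : LaurentSeries ℂ} {m : ℤ} (hx : ZB x m) (hy : ZB y m) : ZB (x + y) m :=
  fun k hk => by rw [HahnSeries.coeff_add, hx k hk, hy k hk, add_zero]

theorem ZB.sub {x y : LaurentSeries ℂ} {m : ℤ} (hx : ZB x m) (hy : ZB y m) : ZB (x - y) m :=
  fun k hk => by rw [HahnSeries.coeff_sub, hx k hk, hy k hk, sub_zero]

theorem ZB.smul {x : LaurentSeries ℂ} {m : ℤ} (hx : ZB x m) (c : ℂ) : ZB (c • x) m :=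
  fun k hk => by rw [HahnSeries.coeff_smul, hx k hk, smul_zero]

theorem ZB.mul {x y : LaurentSeries ℂ} {a b : ℤ} (hx : ZB x a) (hy : ZB y b) :
    ZB (x * y) (a + b) := by
  intro k hk
  rw [HahnSeries.coeff_mul]
  refine Finset.sum_eq_zero fun ij hij => ?_
  rw [Finset.mem_antidiagonal] at hij
  rcases lt_or_ge ij.1 a with h | h
  · rw [hx _ h, zero_mul]
  · rw [hy ij.2 (by omega), mul_zero]

theorem zb_sum {ι : Type*} {s : Finset ι} {x : ι → LaurentSeries ℂ} {m : ℤ}
    (h : ∀ i ∈ s, ZB (x i) m) : ZB (∑ i ∈ s, x i) m :=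
  fun k hk => by rw [HahnSeries.coeff_sum]; exact Finset.sum_eq_zero fun i hi => h i hi k hk

theorem order_nonneg_of_zb {x : LaurentSeries ℂ} (h : ZB x 0) : 0 ≤ x.order := by
  rcases eq_or_ne x 0 with rfl | hx
  · rw [HahnSeries.order_zero]
  · by_contra hc
    exact hx (HahnSeries.coeff_order_eq_zero.1 (h _ (not_le.1 hc)))

/-! ## Unit leading coefficients -/

/-- Order `m`, with leading coefficient a unit of `A`. -/
def HasLead (A : ValuationSubring Qb) (x : LaurentSeries ℂ) (m : ℤ) : Prop :=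
  x.order = m ∧ ∃ a : A, IsUnit a ∧ iota (a : Qb) = x.leadingCoeff

variable {A : ValuationSubring Qb}

theorem HasLead.coeff_eq {x : LaurentSeries ℂ} {m : ℤ} (h : HasLead A x m) :
    ∃ a : A, IsUnit a ∧ iota (a : Qb) = x.coeff m := by
  obtain ⟨rfl, a, ha, hax⟩ := h
  exact ⟨a, ha, hax.trans HahnSeries.leadingCoeff_eq⟩

theorem HasLead.zb {x : LaurentSeries ℂ} {m : ℤ} (h : HasLead A x m) : ZB x m := h.1 ▸ zb_order x

theorem HasLead.ne_zero {x : LaurentSeries ℂ} {m : ℤ} (h : HasLead A x m) : x ≠ 0 := by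
  obtain ⟨-, a, ha, hax⟩ := h
  intro hx
  rw [hx, HahnSeries.leadingCoeff_zero] at hax
  exact ha.ne_zero (Subtype.ext (iota.injective (hax.trans (map_zero iota).symm)))

theorem hasLead_one : HasLead A (1 : LaurentSeries ℂ) 0 :=
  ⟨HahnSeries.order_one, 1, isUnit_one, by rw [HahnSeries.leadingCoeff_one]; simp⟩

theorem HasLead.mul {x y : LaurentSeries ℂ} {m n : ℤ} (hx : HasLead A x m) (hy : HasLead A y n) :
    HasLead A (x * y) (m + n) := by
  have hne : x.leadingCoeff * y.leadingCoeff ≠ 0 :=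
    mul_ne_zero (HahnSeries.leadingCoeff_ne_zero.2 hx.ne_zero)
      (HahnSeries.leadingCoeff_ne_zero.2 hy.ne_zero)
  obtain ⟨rfl, a, ha, hax⟩ := hx
  obtain ⟨rfl, b, hb, hby⟩ := hy
  refine ⟨HahnSeries.order_mul_of_ne_zero hne, a * b, ha.mul hb, ?_⟩
  rw [HahnSeries.leadingCoeff_mul, ← hax, ← hby, ← map_mul]
  rfl

theorem HasLead.pow {x : LaurentSeries ℂ} {m : ℤ} (hx : HasLead A x m) (k : ℕ) :
    HasLead A (x ^ k) (k * m) := by
  induction k with
  | zero => simpa using hasLead_one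
  | succ k ih => rw [pow_succ, Nat.cast_succ, add_one_mul]; exact ih.mul hx

theorem HasLead.of_mul_eq_one {x y : LaurentSeries ℂ} {m : ℤ} (hx : HasLead A x m)
    (h : y * x = 1) : HasLead A y (-m) := by
  have hy : y ≠ 0 := by
    intro h0
    rw [h0, zero_mul] at h
    exact zero_ne_one h
  have hne : y.leadingCoeff * x.leadingCoeff ≠ 0 :=
    mul_ne_zero (HahnSeries.leadingCoeff_ne_zero.2 hy)
      (HahnSeries.leadingCoeff_ne_zero.2 hx.ne_zero)
  have hord := HahnSeries.order_mul_of_ne_zero hne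
  have hlc := HahnSeries.leadingCoeff_mul y x
  rw [h, HahnSeries.order_one] at hord
  rw [h, HahnSeries.leadingCoeff_one] at hlc
  obtain ⟨rfl, a, ha, hax⟩ := hx
  obtain ⟨u, rfl⟩ := ha
  refine ⟨by omega, ↑u⁻¹, Units.isUnit _, ?_⟩
  have hu : iota ((↑u⁻¹ : A) : Qb) * iota ((↑u : A) : Qb) = 1 := by
    rw [← map_mul, ← MulMemClass.coe_mul, Units.inv_mul]
    simp
  rw [← hax] at hlc
  exact mul_right_cancel₀ (right_ne_zero_of_mul_eq_one hu) (hu.trans hlc)

/-- A prescribed principal part of order `m`. -/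
theorem hasLead_of_coeff {x : LaurentSeries ℂ} {m : ℤ} (hz : ZB x m) {a : A} (ha : IsUnit a)
    (h : iota (a : Qb) = x.coeff m) : HasLead A x m := by
  have hne : x.coeff m ≠ 0 := by
    rw [← h]
    exact fun h0 => ha.ne_zero (Subtype.ext (iota.injective (h0.trans (map_zero iota).symm)))
  have hord : x.order = m := by
    refine le_antisymm (HahnSeries.order_le_of_coeff_ne_zero hne) ?_
    by_contra hc
    exact HahnSeries.coeff_order_eq_zero.not.2 (fun h0 => hne (by rw [h0]; rfl))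
      (hz _ (not_le.1 hc))
  exact ⟨hord, a, ha, by rw [HahnSeries.leadingCoeff_eq, hord]; exact h⟩

/-! ## The twist by a translation -/

/-- `exp (2 π i n t / N)`. -/
def eN (N : ℕ) (t n : ℤ) : ℂ := Complex.exp (2 * Real.pi * Complex.I * n * t / N)

theorem eN_ne_zero (N : ℕ) (t n : ℤ) : eN N t n ≠ 0 := Complex.exp_ne_zero _

theorem eN_add (N : ℕ) (t m n : ℤ) : eN N t (m + n) = eN N t m * eN N t n := by
  rw [eN, eN, eN, ← Complex.exp_add]
  congr 1
  push_cast
  ring

theorem eN_zero (N : ℕ) (t : ℤ) : eN N t 0 = 1 := by simp [eN]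

/-- The effect on series of `T ^ t`. -/
def twist (N : ℕ) (t : ℤ) : LaurentSeries ℂ →+* LaurentSeries ℂ where
  toFun x := ⟨fun n => eN N t n * x.coeff n,
    x.isPWO_support.mono fun n hn => right_ne_zero_of_mul hn⟩
  map_zero' := by ext n; simp
  map_one' := by
    ext n
    simp only [HahnSeries.coeff_one]
    split_ifs with h
    · subst h; simp [eN_zero]
    · simp
  map_add' x y := by ext n; simp [mul_add]
  map_mul' x y := by
    ext n
    simp only [HahnSeries.coeff_mul, Finset.mul_sum]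
    refine Finset.sum_congr ?_ fun ij hij => ?_
    · ext ij
      simp [HahnSeries.mem_support, eN_ne_zero]
    · rw [Finset.mem_antidiagonal] at hij
      rw [← hij.2.2, eN_add]
      ring

theorem coeff_twist (N : ℕ) (t : ℤ) (x : LaurentSeries ℂ) (n : ℤ) :
    (twist N t x).coeff n = eN N t n * x.coeff n := rfl

/-- The sum of the twists by the multiples of `M` retains the exponents divisible by `e`. -/
theorem sum_eN (M e : ℕ) (hM : M ≠ 0) (he : e ≠ 0) (n : ℤ) :
    ∑ k ∈ Finset.range e, eN (M * e) (M * k) n = if (e : ℤ) ∣ n then (e : ℂ) else 0 := by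
  set ω := Complex.exp (2 * Real.pi * Complex.I * n / e)
  have hk : ∀ k : ℕ, eN (M * e) (M * k) n = ω ^ k := fun k => by
    rw [eN, ← Complex.exp_nat_mul]
    congr 1
    have hM' : (M : ℂ) ≠ 0 := Nat.cast_ne_zero.2 hM
    push_cast
    field_simp
  have he' : (e : ℂ) ≠ 0 := Nat.cast_ne_zero.2 he
  rw [Finset.sum_congr rfl fun k _ => hk k]
  split_ifs with hd
  · obtain ⟨i, rfl⟩ := hd
    have hω : ω = 1 := by
      rw [← Complex.exp_int_mul_two_pi_mul_I i]
      simp only [ω]
      congr 1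
      push_cast
      field_simp
    simp [hω]
  · have hω : ω ≠ 1 := by
      intro h
      obtain ⟨i, hi⟩ := Complex.exp_eq_one_iff.1 h
      refine hd ⟨i, ?_⟩
      have h2 : (2 * Real.pi * Complex.I : ℂ) ≠ 0 := Complex.two_pi_I_ne_zero
      field_simp at hi
      have h3 : (n : ℂ) = ((e * i : ℤ) : ℂ) := by
        push_cast
        linear_combination hi
      exact_mod_cast h3
    have hpow : ω ^ e = 1 := by
      rw [← Complex.exp_nat_mul, ← Complex.exp_int_mul_two_pi_mul_I n]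
      congr 1
      field_simp
    rw [geom_sum_eq hω, hpow, sub_self, zero_div]

/-! ## Expansions at equivalent cusps -/

variable {N : ℕ} [NeZero N] {F : ℍ → ℂ}

theorem cexp_mul_T (hF : F ∈ PerFn N) (g : SL(2, ℤ)) (t : ℤ) :
    cexp N F (g * ModularGroup.T ^ t) = twist N t (cexp N F g) := by
  ext n
  exact coeff_cexp_mul_T_zpow hF g t n

omit [NeZero N] in
theorem cexp_neg (F : ℍ → ℂ) (g : SL(2, ℤ)) : cexp N F (-g) = cexp N F g :=
  cexp_congr (funext fun τ => by rw [ModularGroup.SL_neg_smul])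

theorem cexp_sum {ι : Type*} (s : Finset ι) {f : ι → ℍ → ℂ} (hf : ∀ i ∈ s, f i ∈ PerFn N)
    (g : SL(2, ℤ)) : cexp N (∑ i ∈ s, f i) g = ∑ i ∈ s, cexp N (f i) g := by
  classical
  induction s using Finset.induction_on with
  | empty => simp [cexp_zero]
  | insert i s hi ih =>
    rw [Finset.sum_insert hi, Finset.sum_insert hi,
      cexp_add (hf i (Finset.mem_insert_self i s))
        (sum_mem fun j hj => hf j (Finset.mem_insert_of_mem hj)),
      ih fun j hj => hf j (Finset.mem_insert_of_mem hj)]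

/-- `± Γ(N)`. -/
def PMGamma (N : ℕ) (x : SL(2, ℤ)) : Prop := x ∈ Gamma N ∨ -x ∈ Gamma N

omit [NeZero N] in
theorem PMGamma.mul_inv {x y : SL(2, ℤ)} (hx : PMGamma N x) (hy : PMGamma N y) :
    PMGamma N (x * y⁻¹) := by
  rcases hx with hx | hx <;> rcases hy with hy | hy
  · exact Or.inl (mul_mem hx (inv_mem hy))
  · exact Or.inr (by simpa [inv_neg] using mul_mem hx (inv_mem hy))
  · exact Or.inr (by simpa [neg_mul] using mul_mem hx (inv_mem hy))
  · exact Or.inl (by simpa [inv_neg, neg_mul_neg] using mul_mem hx (inv_mem hy))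

variable {δ : Gamma N →* ℂ}

/-- The vanishing of a coefficient only depends on the cusp. -/
theorem coeff_eq_zero_iff (hδ : ParTriv N δ) (hF : F ∈ Tw N δ) {c g : SL(2, ℤ)}
    (h : EqInfty N (c⁻¹ * g)) (n : ℤ) :
    (cexp N F g).coeff n = 0 ↔ (cexp N F c).coeff n = 0 := by
  obtain ⟨k, hk⟩ := h
  have hm := Tw.mem_perFn hδ hF
  have key : (cexp N F (g * ModularGroup.T ^ k)).coeff n = 0 ↔ (cexp N F g).coeff n = 0 := by
    rw [cexp_mul_T hm, coeff_twist, mul_eq_zero, or_iff_right (eN_ne_zero N k n)]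
  have hne : ∀ γ : Gamma N, δ γ ≠ 0 := fun γ hz => by
    have h1 : δ γ * δ γ⁻¹ = 1 := by rw [← map_mul, mul_inv_cancel, map_one]
    rw [hz, zero_mul] at h1
    exact zero_ne_one h1
  rw [← key]
  rcases hk with hk | hk
  · have hc := (Gamma_normal N).conj_mem _ hk c
    have e1 : g * ModularGroup.T ^ k = c * (c⁻¹ * g * ModularGroup.T ^ k) * c⁻¹ * c := by group
    rw [e1, cexp_gamma_mul hδ hF ⟨_, hc⟩, HahnSeries.coeff_smul, smul_eq_mul, mul_eq_zero,
      or_iff_right (hne _)]
  · have hc := (Gamma_normal N).conj_mem _ hk c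
    have e1 : -(g * ModularGroup.T ^ k) =
        c * -(c⁻¹ * g * ModularGroup.T ^ k) * c⁻¹ * c := by
      rw [inv_mul_cancel_right, mul_neg]
      congr 1
      group
    rw [← cexp_neg F (g * ModularGroup.T ^ k), e1, cexp_gamma_mul hδ hF ⟨_, hc⟩,
      HahnSeries.coeff_smul, smul_eq_mul, mul_eq_zero, or_iff_right (hne _)]

omit [NeZero N] in
/-- Every element is `EqInfty`-related to a representative of `SL(2, ℤ) ⧸ Γ(N)`. -/
theorem eqInfty_out (g : SL(2, ℤ)) :
    EqInfty N ((Quotient.out (g : SL(2, ℤ) ⧸ Gamma N))⁻¹ * g) := by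
  refine ⟨0, Or.inl ?_⟩
  rw [zpow_zero, mul_one, ← QuotientGroup.eq, QuotientGroup.out_eq']

theorem zb_iff_of_eqInfty (hδ : ParTriv N δ) (hF : F ∈ Tw N δ) {c g : SL(2, ℤ)}
    (h : EqInfty N (c⁻¹ * g)) (m : ℤ) : ZB (cexp N F g) m ↔ ZB (cexp N F c) m :=
  forall₂_congr fun n _ => coeff_eq_zero_iff hδ hF h n

/-- The poles of a twisted function are bounded. -/
theorem exists_pole_bound (hδ : ParTriv N δ) (hF : F ∈ Tw N δ) :
    ∃ p : ℕ, ∀ g, ZB (cexp N F g) (-(p : ℤ)) := by
  have : Fintype (SL(2, ℤ) ⧸ Gamma N) := Fintype.ofFinite _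
  refine ⟨Finset.univ.sup fun q : SL(2, ℤ) ⧸ Gamma N =>
    (-(cexp N F (Quotient.out q)).order).toNat, fun g => ?_⟩
  refine (zb_iff_of_eqInfty hδ hF (eqInfty_out g) _).2 ((zb_order _).mono ?_)
  have := Finset.le_sup (f := fun q : SL(2, ℤ) ⧸ Gamma N =>
    (-(cexp N F (Quotient.out q)).order).toNat) (Finset.mem_univ (g : SL(2, ℤ) ⧸ Gamma N))
  omega

end FLTA.DeligneSerre
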