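import Fermat.Agent.DeligneSerre.Rigidity.InterpSeries

/-!
# Invariant functions with prescribed principal part at `∞`

Combinations of powers of `Z` and `1 / Z` realise every integral series in `q ^ e` below a bound,
with poles at the cusps not above `∞` bounded in terms of that bound.
-/

set_option autoImplicit false

noncomputable section

open scoped MatrixGroups
open UpperHalfPlane hiding I
open CongruenceSubgroup

namespace FLTA.DeligneSerre

local notation "Qb" => AlgebraicClosure ℚ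

variable {A : ValuationSubring Qb} {N : ℕ} [NeZero N]

theorem bRing_perFn {F : ℍ → ℂ} (hF : F ∈ BRing A N) : F ∈ PerFn N := hF.2.1

theorem bRing_tw {F : ℍ → ℂ} (hF : F ∈ BRing A N) : F ∈ Tw N 1 := mem_tw_one_iff.2 hF.1

theorem cexp_compHom (F : ℍ → ℂ) (h g : SL(2, ℤ)) :
    cexp N (compHom h F) g = cexp N F (h * g) := cexp_comp F h g

namespace BaseData

variable (D : BaseData A N)

theorem e_pos' : 0 < D.e := Nat.pos_of_ne_zero fun h => NeZero.ne N (by rw [D.hN, h, mul_zero])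

theorem M_pos : 0 < D.M := Nat.pos_of_ne_zero fun h => NeZero.ne N (by rw [D.hN, h, zero_mul])

theorem T_mem (k : ℤ) : ModularGroup.T ^ ((D.M : ℤ) * k) ∈ Gamma D.M := by
  rw [zpow_mul, zpow_natCast]
  exact zpow_mem (T_pow_mem_Gamma D.M) k

theorem compHom_Z {γ : SL(2, ℤ)} (hγ : γ ∈ Gamma D.M) : compHom γ D.Z = D.Z :=
  funext fun τ => D.Z_inv γ hγ τ

theorem compHom_Zi {γ : SL(2, ℤ)} (hγ : γ ∈ Gamma D.M) : compHom γ D.Zi = D.Zi := by
  have h : compHom γ D.Zi * D.Z = 1 := by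
    conv_lhs => rw [← D.compHom_Z hγ]
    rw [← map_mul, D.Zi_mul, map_one]
  calc compHom γ D.Zi = compHom γ D.Zi * (D.Zi * D.Z) := by rw [D.Zi_mul, mul_one]
    _ = (compHom γ D.Zi * D.Z) * D.Zi := by ring
    _ = D.Zi := by rw [h, one_mul]

/-- Expansions of invariant functions at `∞` live on the multiples of `e`. -/
theorem coeff_eq_zero_of_invariant {F : ℍ → ℂ} (hF : F ∈ PerFn N)
    (hinv : ∀ γ ∈ Gamma D.M, compHom γ F = F) {n : ℤ} (hn : ¬ (D.e : ℤ) ∣ n) :
    (cexp N F 1).coeff n = 0 := by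
  have hk : ∀ k ∈ Finset.range D.e, (cexp N F 1).coeff n =
      eN N ((D.M : ℤ) * k) n * (cexp N F 1).coeff n := fun k _ => by
    conv_lhs => rw [← hinv _ (D.T_mem k), cexp_compHom, mul_one,
      ← one_mul (ModularGroup.T ^ ((D.M : ℤ) * k)), cexp_mul_T hF, coeff_twist]
  have h := Finset.sum_congr rfl hk
  have he : (D.e : ℂ) ≠ 0 := Nat.cast_ne_zero.2 D.e_pos'.ne'
  rw [Finset.sum_const, Finset.card_range, nsmul_eq_mul, ← Finset.sum_mul] at h
  have h2 := sum_eN D.M D.e D.M_pos.ne' D.e_pos'.ne' n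
  rw [← D.hN, if_neg hn] at h2
  rw [h2, zero_mul] at h
  exact (mul_eq_zero.1 h).resolve_left he

/-- Invariant functions in `BRing` whose poles at the cusps not above `∞` are at most `J`. -/
def Bounded (J : ℕ) (F : ℍ → ℂ) : Prop :=
  F ∈ BRing A N ∧ (∀ γ ∈ Gamma D.M, compHom γ F = F) ∧
    ∀ g, ¬ EqInfty D.M g → ZB (cexp N F g) (-(J : ℤ))

theorem bounded_zero (J : ℕ) : D.Bounded J 0 :=
  ⟨zero_mem _, fun γ _ => map_zero _, fun g _ => by rw [cexp_zero]; exact zb_zero _⟩

theorem Bounded.add_smul {J : ℕ} {F G : ℍ → ℂ} (hF : D.Bounded J F) (hG : D.Bounded J G)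
    (a : A) : D.Bounded J (F + iota (a : Qb) • G) :=
  ⟨add_mem hF.1 (smul_mem_bRing a hG.1), fun γ hγ => by
    rw [map_add, hF.2.1 γ hγ,
      show compHom γ (iota (a : Qb) • G) = iota (a : Qb) • compHom γ G from rfl, hG.2.1 γ hγ],
    fun g hg => by
    rw [cexp_add (bRing_perFn hF.1) (bRing_perFn (smul_mem_bRing a hG.1)),
      cexp_smul (bRing_perFn hG.1)]
    exact (hF.2.2 g hg).add ((hG.2.2 g hg).smul _)⟩

/-- An element of order `e * i` at `∞`, `i ≤ b`, with unit leading coefficient. -/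
theorem exists_monomial (b : ℕ) : ∃ J : ℕ, ∀ i : ℤ, i ≤ b →
    ∃ G, D.Bounded J G ∧ HasLead A (cexp N G 1) ((D.e : ℤ) * i) := by
  obtain ⟨p, hp⟩ := exists_pole_bound (parTriv_one N) (bRing_tw D.Zi_mem)
  refine ⟨b * p, fun i hi => ?_⟩
  have hZ : HasLead A (cexp N D.Z 1) (-(D.e : ℤ)) := by
    obtain ⟨a, ha, hax⟩ := D.Z_lead
    exact ⟨D.Z_order, a, ha, by rw [HahnSeries.leadingCoeff_eq, D.Z_order]; exact hax⟩
  have hZi : HasLead A (cexp N D.Zi 1) (D.e : ℤ) := by
    have h := hZ.of_mul_eq_one (y := cexp N D.Zi 1) (by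
      rw [← cexp_mul (bRing_perFn D.Zi_mem) (bRing_perFn D.Z_mem), D.Zi_mul, cexp_one])
    rwa [neg_neg] at h
  rcases le_or_gt i 0 with hi0 | hi0
  · obtain ⟨n, rfl⟩ := Int.exists_eq_neg_ofNat hi0
    refine ⟨D.Z ^ n, ⟨pow_mem D.Z_mem n, fun γ hγ => by rw [map_pow, D.compHom_Z hγ],
      fun g hg => ?_⟩, ?_⟩
    · rw [cexp_pow (bRing_perFn D.Z_mem)]
      have h0 : ∀ m : ℕ, ZB (cexp N D.Z g ^ m) 0 := fun m => by
        induction m with
        | zero => rw [pow_zero]; exact hasLead_one (A := A) |>.zb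
        | succ m ih =>
          rw [pow_succ, show (0 : ℤ) = 0 + 0 from rfl]
          exact ih.mul ((zb_order _).mono (D.Z_order_nonneg g hg))
      exact (h0 n).mono (by omega)
    · rw [cexp_pow (bRing_perFn D.Z_mem)]
      have h := hZ.pow n
      rwa [show (n : ℤ) * -(D.e : ℤ) = (D.e : ℤ) * -(n : ℤ) by ring] at h
  · obtain ⟨n, rfl⟩ := Int.eq_ofNat_of_zero_le hi0.le
    refine ⟨D.Zi ^ n, ⟨pow_mem D.Zi_mem n, fun γ hγ => by rw [map_pow, D.compHom_Zi hγ],
      fun g _ => ?_⟩, ?_⟩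
    · rw [cexp_pow (bRing_perFn D.Zi_mem)]
      have h0 : ∀ m : ℕ, ZB (cexp N D.Zi g ^ m) (-((m * p : ℕ) : ℤ)) := fun m => by
        induction m with
        | zero => rw [pow_zero]; exact (hasLead_one (A := A)).zb.mono (by omega)
        | succ m ih =>
          rw [pow_succ]
          exact (ih.mul (hp g)).mono (by push_cast; ring_nf; rfl)
      refine (h0 n).mono (neg_le_neg ?_)
      exact_mod_cast Nat.mul_le_mul_right p (by exact_mod_cast hi)
    · rw [cexp_pow (bRing_perFn D.Zi_mem)]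
      have h := hZi.pow n
      rwa [mul_comm (n : ℤ)] at h

/-- Prescribed coefficients below `B` for an integral series in `q ^ e`. -/
theorem exists_trunc (B : ℤ) : ∃ J : ℕ, ∀ S ∈ intSeries A,
    (∀ n : ℤ, ¬ (D.e : ℤ) ∣ n → S.coeff n = 0) →
      ∃ G, D.Bounded J G ∧ ZB (cexp N G 1 - S) B := by
  obtain ⟨J, hJ⟩ := D.exists_monomial B.toNat
  refine ⟨J, ?_⟩
  suffices key : ∀ d : ℕ, ∀ S ∈ intSeries A, (∀ n : ℤ, ¬ (D.e : ℤ) ∣ n → S.coeff n = 0) →
      ZB S (B - d) → ∃ G, D.Bounded J G ∧ ZB (cexp N G 1 - S) B by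
    intro S hS he
    exact key (B - S.order).toNat S hS he ((zb_order S).mono (by omega))
  intro d
  induction d with
  | zero =>
    intro S hS he hz
    refine ⟨0, D.bounded_zero J, ?_⟩
    rw [cexp_zero]
    exact (zb_zero _).sub (hz.mono (by omega))
  | succ d ih =>
    intro S hS he hz
    set m := B - ((d : ℤ) + 1) with hm
    have hz' : ZB S m := hz.mono (by omega)
    by_cases hdvd : (D.e : ℤ) ∣ m
    · obtain ⟨i, hi⟩ := hdvd
      have hib : i ≤ (B.toNat : ℤ) := by
        rcases le_or_gt i 0 with h | h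
        · omega
        · have : i ≤ (D.e : ℤ) * i :=
            le_mul_of_one_le_left h.le (by exact_mod_cast D.e_pos')
          omega
      obtain ⟨G, hG, hGl⟩ := hJ i hib
      rw [← hi] at hGl
      obtain ⟨u, hu, huG⟩ := hGl.coeff_eq
      obtain ⟨s, hs⟩ := mem_intSeries_iff.1 hS m
      obtain ⟨u', rfl⟩ := hu
      set t : A := s * ↑u'⁻¹ with ht
      have hsm := isIntFn_iff.1 (smul_mem_bRing t hG.1).2.2 1
      obtain ⟨G', hG', hz2⟩ := ih (S - cexp N (iota (t : Qb) • G) 1) (sub_mem hS hsm)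
        (fun n hn => by
          rw [HahnSeries.coeff_sub, he n hn, cexp_smul (bRing_perFn hG.1),
            HahnSeries.coeff_smul, D.coeff_eq_zero_of_invariant (bRing_perFn hG.1) hG.2.1 hn,
            smul_zero, sub_zero])
        (fun k hk => by
          rw [HahnSeries.coeff_sub, cexp_smul (bRing_perFn hG.1), HahnSeries.coeff_smul]
          rcases lt_or_eq_of_le (show k ≤ m by omega) with h | h
          · rw [hz' k h, hGl.zb k h, smul_zero, sub_zero]
          · subst h
            rw [← hs, ← huG, smul_eq_mul, ← map_mul, ← MulMemClass.coe_mul, ht, mul_assoc,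
              Units.inv_mul, mul_one, sub_self])
      refine ⟨G' + iota (t : Qb) • G, hG'.add_smul D hG t, ?_⟩
      rw [cexp_add (bRing_perFn hG'.1) (bRing_perFn (smul_mem_bRing t hG.1))]
      rwa [show cexp N G' 1 - (S - cexp N (iota (t : Qb) • G) 1) =
        cexp N G' 1 + cexp N (iota (t : Qb) • G) 1 - S by ring] at hz2
    · refine ih S hS he fun k hk => ?_
      rcases lt_or_eq_of_le (show k ≤ m by omega) with h | h
      · exact hz' k h
      · rw [h]; exact he m hdvd

end BaseData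

end FLTA.DeligneSerre
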