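import Fermat.Agent.DeligneSerre.Rigidity.Ideal

/-!
# Rigidity over the base data

An element of the twist reducing to `1` is refined to approximate `n`-th roots of `1`, which are
congruent to constants at every cusp; the bounded torsion of the principal parts makes them
congruent to regular, hence vanishing, twisted functions.
-/

set_option autoImplicit false

noncomputable section

open scoped MatrixGroups
open UpperHalfPlane hiding I
open CongruenceSubgroup

namespace FLTA.DeligneSerre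

local notation "Qb" => AlgebraicClosure ℚ

/-- Roots of unity in a field extension of an algebraically closed field lie in it. -/
theorem exists_algebraMap_eq_of_pow_eq_one {k K : Type*} [Field k] [IsAlgClosed k] [Field K]
    [Algebra k K] {n : ℕ} (hn : n ≠ 0) {y : K} (h : y ^ n = 1) : ∃ c : k, algebraMap k K c = y := by
  have h0 : (Polynomial.X ^ n - Polynomial.C (1 : k)) ≠ 0 :=
    Polynomial.X_pow_sub_C_ne_zero (Nat.pos_of_ne_zero hn) 1
  have hr : y ∈ ((Polynomial.X ^ n - Polynomial.C (1 : k)).map (algebraMap k K)).roots :=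
    (Polynomial.mem_roots (Polynomial.map_ne_zero h0)).2 (by simp [Polynomial.IsRoot, h])
  rw [← Polynomial.roots_map_of_injective_of_card_eq_natDegree (algebraMap k K).injective
    IsAlgClosed.card_roots_eq_natDegree, Multiset.mem_map] at hr
  obtain ⟨c, -, hc⟩ := hr
  exact ⟨c, hc⟩

variable {A : ValuationSubring Qb} {N : ℕ} [NeZero N] {δ : Gamma N →* ℂ}

theorem const_mul_mem_tw (g : BRing A N) {f : ℍ → ℂ} (hf : f ∈ Tw N δ) :
    (g : ℍ → ℂ) * f ∈ Tw N δ := by
  have h := mul_mem_tw (mem_tw_one_iff.2 g.2.1) hf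
  rwa [one_mul] at h

/-- Newton iteration of an approximate root of `1` in a twist. -/
theorem exists_root_pow {n : ℕ} [NeZero n] {i : A} (hi : (n : A) * i = 1) {a : A}
    (ha : a ∈ IsLocalRing.maximalIdeal A) {u₀ : ℍ → ℂ} (hu₀ : u₀ ∈ Tw N δ)
    (hi₀ : u₀ ∈ IntFn A N) {x₀ : BRing A N}
    (h : u₀ ^ n = 1 + iota (a : Qb) • (x₀ : ℍ → ℂ)) (m : ℕ) :
    ∃ u ∈ Tw N δ, u ∈ IntFn A N ∧ (∀ g, redExp A N u g = redExp A N u₀ g) ∧
      ∃ x : BRing A N, u ^ n = 1 + iota ((a ^ (m + 1) : A) : Qb) • (x : ℍ → ℂ) := by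
  induction m with
  | zero => exact ⟨u₀, hu₀, hi₀, fun g => rfl, x₀, by simpa using h⟩
  | succ m ih =>
    obtain ⟨u, hu, hui, hred, x, hx⟩ := ih
    let cα : BRing A N := ⟨_, const_mem_bRing (a ^ (m + 1))⟩
    let cι : BRing A N := ⟨_, const_mem_bRing i⟩
    let y : BRing A N := -(cι * cα * x)
    have hx' : u ^ n = ((1 + cα * x : BRing A N) : ℍ → ℂ) := by
      rw [hx, Algebra.smul_def]; rfl
    obtain ⟨q, hq⟩ := exists_add_pow_eq (1 : BRing A N) y n
    have hny : (n : BRing A N) * y = -(cα * x) := by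
      have e : (n : BRing A N) * cι = 1 := Subtype.ext (by
        show ((n : BRing A N) : ℍ → ℂ) * algebraMap ℂ (ℍ → ℂ) (iotaA A i) = 1
        rw [show ((n : BRing A N) : ℍ → ℂ) = algebraMap ℂ (ℍ → ℂ) (iotaA A (n : A)) by
          simp, ← map_mul, ← map_mul, hi, map_one, map_one])
      linear_combination -(cα * x) * e
    refine ⟨((1 + y : BRing A N) : ℍ → ℂ) * u, const_mul_mem_tw _ hu,
      mul_mem (1 + y).2.2 hui, fun g => ?_,
      (⟨_, const_mem_bRing (a ^ m)⟩ : BRing A N) * x ^ 2 * (q * cι ^ 2 * (1 + cα * x) - 1), ?_⟩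
    · rw [redExp_mul (1 + y).2.2 hui, hred, ← redAt_apply g (1 + y)]
      have hα : redAt g cα = 0 := by
        rw [redAt_const, map_pow,
          (IsLocalRing.residue_eq_zero_iff (R := A) a).2 ha, zero_pow (by omega)]
        simp
      rw [map_add, map_one, show redAt g y = 0 by
        simp only [y, map_neg, map_mul, hα, mul_zero, zero_mul, neg_zero], add_zero, one_mul]
    · rw [mul_pow, hx', Algebra.smul_def]
      have hαα : cα * cα = (⟨_, const_mem_bRing (a ^ (m + 1 + 1))⟩ : BRing A N) *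
          (⟨_, const_mem_bRing (a ^ m)⟩ : BRing A N) := Subtype.ext (by
        show algebraMap ℂ (ℍ → ℂ) _ * algebraMap ℂ (ℍ → ℂ) _ =
          algebraMap ℂ (ℍ → ℂ) _ * algebraMap ℂ (ℍ → ℂ) _
        rw [← map_mul, ← map_mul, ← map_mul, ← map_mul]
        push_cast
        ring_nf)
      refine congrArg Subtype.val (show (1 + y) ^ n * (1 + cα * x) =
        1 + (⟨_, const_mem_bRing (a ^ (m + 1 + 1))⟩ : BRing A N) *
          ((⟨_, const_mem_bRing (a ^ m)⟩ : BRing A N) * x ^ 2 *
            (q * cι ^ 2 * (1 + cα * x) - 1)) from ?_)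
      rw [hq, one_pow, one_pow, mul_one]
      simp only [← mul_assoc]
      rw [← hαα, hny]
      simp only [y]
      ring

namespace BaseData

variable (D : BaseData A N) (hpar : ParTriv N δ) {l : ℕ} (hl : l.Prime) (hA : A.LiesOverPrime l)
  {n : ℕ} [NeZero n] (hln : ¬ l ∣ n) (hδ : ∀ γ, δ γ ^ n = 1)

include D hpar hl hA hln hδ

/-- Rigidity. -/
theorem eq_one_of_redExp {f : ℍ → ℂ} (hf : f ∈ Tw N δ) (hfi : IsIntFn A N f) (b : BRing A N)
    (heq : redExp A N f 1 = redExp A N (b : ℍ → ℂ) 1) (hne : redExp A N f 1 ≠ 0) : δ = 1 := by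
  haveI := FLTA.Galois.isAlgClosed_residueField A
  have hP := Tw.mem_perFn hpar hf
  have hf0 : f ≠ 0 := by
    rintro rfl
    apply hne
    rw [redExp_eq_of_cexp (S := 0) (by rw [map_zero, cexp_zero]), map_zero]
  obtain ⟨u₀, hu₀, hui₀, hu1⟩ := D.exists_redExp_eq_one hpar hl hA hln hδ hf hfi b heq hne
  have hU : u₀ ∈ IntFn A N := ⟨Tw.mem_perFn hpar hu₀, hui₀⟩
  let U : BRing A N := ⟨u₀ ^ n, pow_mem_fn hδ hu₀, (pow_mem hU n : u₀ ^ n ∈ IntFn A N)⟩
  have hUg : ∀ g, redAt g U = redExp A N u₀ g ^ n := fun g => by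
    rw [redAt_apply]; exact redExp_pow hU n g
  have hU1 : redAt 1 (U - 1) = 0 := by rw [map_sub, map_one, hUg, hu1, one_pow, sub_self]
  obtain ⟨a, ha, ham, x₀, hx₀⟩ :=
    D.exists_smul_of_redAt_eq_zero hl hA _ (D.redAt_eq_zero_of_one hl hA _ hU1)
  obtain ⟨i, hi⟩ := (isUnit_natCast hl hA hln).exists_right_inv
  obtain ⟨c, hc, hcech⟩ := D.exists_torsion_bound hpar
    (fun g hg hga => D.exists_denom_tw hpar hl hA hln hδ hg hga)
    (fun g => D.exists_unit_leading hpar hl hA hln hδ hf hf0 hfi.isAlgFn g)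
  by_contra hne1
  refine hc (eq_zero_of_forall_pow_dvd hl hA ham fun m => ?_)
  rcases m with _ | m
  · simp
  obtain ⟨u, hu, hui, hred, x, hx⟩ := exists_root_pow hi ham hu₀ hU
    (h := show u₀ ^ n = 1 + iota (a : Qb) • (x₀ : ℍ → ℂ) by
      rw [← hx₀]; exact (add_sub_cancel (1 : ℍ → ℂ) (u₀ ^ n)).symm) m
  set β := a ^ (m + 1) with hβdef
  have hβ : β ≠ 0 := pow_ne_zero _ ha
  have hβm : β ∈ IsLocalRing.maximalIdeal A := Ideal.pow_mem_of_mem _ ham _ (by omega)
  let w : IntFn A N := ⟨u, hui⟩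
  have happ : ∀ g (k : ℤ), k < 0 → β ∣ (intExp A g w).coeff k := by
    intro g k hk
    set S := intExp A g w
    have he : intExpHom A g (w ^ n) = 1 + HahnSeries.single 0 β * intExp A g ⟨x, x.2.2⟩ := by
      have e : w ^ n = 1 + ⟨_, const_mem_intFn β⟩ * ⟨x, x.2.2⟩ := Subtype.ext (by
        show u ^ n = 1 + algebraMap ℂ (ℍ → ℂ) _ * (x : ℍ → ℂ)
        rw [hx, Algebra.smul_def])
      rw [e, map_add, map_one, map_mul]
      congr 2
      apply coeffMap_injective (iotaA_injective A)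
      show ModularCurve.coeffMap _ (intExp A g _) = _
      rw [coeffMap_intExp, ModularCurve.coeffMap_single, cexp_eq (Subalgebra.algebraMap_mem _ _),
        show (⟨algebraMap ℂ (ℍ → ℂ) (iota (β : Qb)), Subalgebra.algebraMap_mem _ _⟩ : PerFn N) =
          algebraMap ℂ (PerFn N) (iota (β : Qb)) from rfl, AlgHom.commutes,
        ModularCurve.algebraMap_laurentSeries_eq_single, iotaA_apply]
    rw [map_pow] at he
    have hdvd : ∀ j : ℤ, β ∣ (S ^ n - 1).coeff j := fun j => by
      rw [show S ^ n = intExpHom A g w ^ n from rfl, he, add_sub_cancel_left,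
        HahnSeries.coeff_single_mul]
      exact Dvd.intro _ rfl
    have hrn : (ModularCurve.coeffMap (IsLocalRing.residue A) S) ^ n = 1 := by
      rw [← map_pow]
      ext j
      rw [ModularCurve.coeffMap_coeff]
      obtain ⟨t, ht⟩ := hdvd j
      have e2 : IsLocalRing.residue A ((S ^ n - 1).coeff j) = 0 := by
        rw [ht, map_mul, (IsLocalRing.residue_eq_zero_iff (R := A) β).2 hβm, zero_mul]
      rw [HahnSeries.coeff_sub, map_sub, sub_eq_zero] at e2
      rw [e2, HahnSeries.coeff_one, HahnSeries.coeff_one, apply_ite (IsLocalRing.residue A),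
        map_one, map_zero]
    obtain ⟨d, hd⟩ :=
      exists_algebraMap_eq_of_pow_eq_one (k := IsLocalRing.ResidueField A) (NeZero.ne n) hrn
    rw [ModularCurve.algebraMap_laurentSeries_eq_single] at hd
    obtain ⟨ζ, -, hζ⟩ := exists_root_of_unity_approx hl hA hln S hd.symm hβ hβm hdvd
    simpa [HahnSeries.coeff_single_of_ne hk.ne] using hζ k
  obtain ⟨H, hH, hHint, hreg⟩ := hcech β hβ u hu hui.2 fun g k hk => by
    obtain ⟨t, ht⟩ := happ g k hk
    exact ⟨t, by rw [← ht, ← coeffMap_intExp A g w]; rfl⟩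
  have hHP : H ∈ IntFn A N := ⟨Tw.mem_perFn hpar hH, hHint⟩
  rcases tw_eq_zero_or_eq_one hpar (NeZero.ne n) hδ
    ((Tw N δ).sub_mem ((Tw N δ).smul_mem _ hu) ((Tw N δ).smul_mem _ hH)) hreg with h0 | h1
  · have e : (⟨_, const_mem_intFn c⟩ : IntFn A N) * w = ⟨_, const_mem_intFn β⟩ * ⟨H, hHP⟩ :=
      Subtype.ext (by
        show algebraMap ℂ (ℍ → ℂ) _ * u = algebraMap ℂ (ℍ → ℂ) _ * H
        rw [← Algebra.smul_def, ← Algebra.smul_def]
        exact sub_eq_zero.1 h0)
    have e1 := congrArg (fun z => (cexp N ((z : IntFn A N) : ℍ → ℂ) 1).coeff 0) e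
    simp only [Subring.coe_mul] at e1
    rw [← Algebra.smul_def, ← Algebra.smul_def, cexp_smul hui.1, cexp_smul hHP.1,
      HahnSeries.coeff_smul, HahnSeries.coeff_smul, ← coeffMap_intExp A 1 w,
      show cexp N H 1 = ModularCurve.coeffMap (iotaA A) (intExp A 1 ⟨H, hHP⟩) from
        (coeffMap_intExp A 1 ⟨H, hHP⟩).symm,
      ModularCurve.coeffMap_coeff, ModularCurve.coeffMap_coeff, smul_eq_mul, smul_eq_mul,
      ← iotaA_apply, ← iotaA_apply, ← map_mul, ← map_mul] at e1
    have e2 := iotaA_injective A e1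
    have hu0 : IsLocalRing.residue A ((intExp A 1 w).coeff 0) = 1 := by
      have h3 := hred 1
      rw [hu1, redExp_eq_of_cexp (coeffMap_intExp A 1 w)] at h3
      have h4 := congrArg (fun z : LaurentSeries (IsLocalRing.ResidueField A) => z.coeff 0) h3
      simpa [HahnSeries.coeff_one] using h4
    have huu : IsUnit ((intExp A 1 w).coeff 0) :=
      (IsLocalRing.residue_ne_zero_iff_isUnit _).1 (by rw [hu0]; exact one_ne_zero)
    exact huu.dvd_mul_right.1 ⟨_, e2⟩
  · exact absurd h1 hne1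

end BaseData

end FLTA.DeligneSerre
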