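import Fermat.Agent.DeligneSerre.Rigidity.Setting
import Fermat.Agent.DeligneSerre.Rigidity.Valuation
import Mathlib.Algebra.Polynomial.Lifts
import Mathlib.RingTheory.IntegralClosure.IsIntegral.Basic

/-!
# The reduction of the ring of integral invariant functions

`redAt g` reduces at the cusp `g ∞`.  The conjugates over level `M` of a reduction are the
reductions at the representatives; a family of series, integral over `k[z, 1/P(z)]`, with rational
traces against the separability element, is the family of conjugates of a reduction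
(`exists_lift_of_isIntegral`: normality).
-/

set_option autoImplicit false

noncomputable section

open scoped MatrixGroups
open UpperHalfPlane hiding I
open CongruenceSubgroup Polynomial

namespace FLTA.DeligneSerre

local notation "Qb" => AlgebraicClosure ℚ

variable {A : ValuationSubring Qb} {N : ℕ} [NeZero N]

local notation "κ" => IsLocalRing.ResidueField A

/-- Reduction at `g ∞` on `BRing`. -/
def redAt (g : SL(2, ℤ)) : BRing A N →+* LaurentSeries (IsLocalRing.ResidueField A) :=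
  (redHom A g).comp (Subring.inclusion inf_le_right)

theorem redAt_apply (g : SL(2, ℤ)) (F : BRing A N) :
    redAt g F = redExp A N (F : ℍ → ℂ) g := (redExp_eq_redHom A g ⟨_, F.2.2⟩).symm

theorem redAt_comp (g h : SL(2, ℤ)) (F : BRing A N) :
    redAt g ⟨compHom h F, compHom_mem_bRing F.2 h⟩ = redAt (h * g) F := by
  rw [redAt_apply, redAt_apply]
  exact redExp_comp A _ h g

theorem redAt_const (g : SL(2, ℤ)) (a : A) :
    redAt (N := N) g ⟨_, const_mem_bRing a⟩ = HahnSeries.single 0 (IsLocalRing.residue A a) := by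
  rw [redAt_apply, redExp_eq_of_cexp (S := HahnSeries.single 0 a) ?_, ModularCurve.coeffMap_single]
  rw [cexp_eq (Subalgebra.algebraMap_mem _ _),
    show (⟨algebraMap ℂ (ℍ → ℂ) (iota (a : Qb)), Subalgebra.algebraMap_mem _ _⟩ : PerFn N) =
      algebraMap ℂ (PerFn N) (iota (a : Qb)) from rfl, AlgHom.commutes,
    ModularCurve.algebraMap_laurentSeries_eq_single, ModularCurve.coeffMap_single, iotaA_apply]

namespace BaseData

variable (D : BaseData A N)

/-- The reduction of `Z` at infinity. -/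
def rZ : LaurentSeries κ := redAt 1 ⟨D.Z, D.Z_mem⟩

/-- The reduction of `P`. -/
def rP : κ[X] := D.P.map (IsLocalRing.residue A)

theorem rZ_order : D.rZ.order = -(D.e : ℤ) := by
  obtain ⟨a, ha, hae⟩ := D.Z_lead
  have hS := coeffMap_intExp A 1 ⟨D.Z, D.Z_mem.2⟩
  set S := intExp A 1 (⟨D.Z, D.Z_mem.2⟩ : IntFn A N)
  have hr : D.rZ = ModularCurve.coeffMap (IsLocalRing.residue A) S := by
    rw [rZ, redAt_apply]
    exact redExp_eq_of_cexp hS
  have hc : S.coeff (-(D.e : ℤ)) = a := iotaA_injective A (by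
    rw [iotaA_apply, iotaA_apply, hae, ← hS]
    rfl)
  have hne : D.rZ.coeff (-(D.e : ℤ)) ≠ 0 := by
    rw [hr, ModularCurve.coeffMap_coeff, hc]
    exact (ha.map _).ne_zero
  refine le_antisymm (HahnSeries.order_le_of_coeff_ne_zero hne) ?_
  by_contra hlt
  rw [not_le] at hlt
  have h0 : D.rZ ≠ 0 := fun h => hne (by rw [h]; rfl)
  apply HahnSeries.coeff_order_eq_zero.not.2 h0
  have hz : (cexp N D.Z 1).coeff D.rZ.order = 0 :=
    HahnSeries.coeff_eq_zero_of_lt_order (by rw [D.Z_order]; exact hlt)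
  rw [← hS, ModularCurve.coeffMap_coeff, map_eq_zero_iff _ (iotaA_injective A)] at hz
  conv_lhs => rw [hr]
  rw [ModularCurve.coeffMap_coeff, ← hr, hz, map_zero]

theorem rZ_order_neg : D.rZ.order < 0 := by
  rw [D.rZ_order]
  simpa using D.e_pos

theorem rP_monic : D.rP.Monic := D.P_monic.map _

theorem aeval_rP_ne : aeval D.rZ D.rP ≠ 0 :=
  aeval_ne_zero_of_order_neg D.rZ_order_neg D.rP_monic.ne_zero

theorem redAt_polyZ (p : A[X]) :
    redAt 1 ⟨D.polyZ p, D.polyZ_mem p⟩ = aeval D.rZ (p.map (IsLocalRing.residue A)) := by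
  induction p using Polynomial.induction_on' with
  | add p q hp hq =>
    rw [show (⟨D.polyZ (p + q), D.polyZ_mem _⟩ : BRing A N) =
      ⟨_, D.polyZ_mem p⟩ + ⟨_, D.polyZ_mem q⟩ from Subtype.ext (map_add D.polyZ p q), map_add, hp,
      hq, Polynomial.map_add, map_add]
  | monomial k a =>
    rw [show (⟨D.polyZ (monomial k a), D.polyZ_mem _⟩ : BRing A N) =
      ⟨_, const_mem_bRing a⟩ * ⟨_, D.Z_mem⟩ ^ k from Subtype.ext (by
        show D.polyZ (monomial k a) = algebraMap ℂ (ℍ → ℂ) (iota (a : Qb)) * D.Z ^ k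
        simp [polyZ, iotaA_apply]),
      map_mul, map_pow, redAt_const, Polynomial.map_monomial, aeval_monomial, rZ,
      ModularCurve.algebraMap_laurentSeries_eq_single]

theorem redAt_W : redAt 1 ⟨D.W, D.W_mem⟩ = (aeval D.rZ D.rP)⁻¹ := by
  refine eq_inv_of_mul_eq_one_left ?_
  rw [rP, ← redAt_polyZ, ← map_mul, show (⟨D.W, D.W_mem⟩ * ⟨_, D.polyZ_mem D.P⟩ : BRing A N) = 1
    from Subtype.ext D.W_mul_polyZ, map_one]

theorem redAt_inv' (p : A[X]) (K : ℕ) :
    redAt 1 ⟨D.inv' p K, D.inv'_mem p K⟩ =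
      (aeval D.rZ D.rP)⁻¹ ^ K * aeval D.rZ (p.map (IsLocalRing.residue A)) := by
  rw [show (⟨D.inv' p K, D.inv'_mem p K⟩ : BRing A N) =
    ⟨_, D.W_mem⟩ ^ K * ⟨_, D.polyZ_mem p⟩ from Subtype.ext rfl, map_mul, map_pow, D.redAt_W,
    D.redAt_polyZ]

/-- Reductions of invariant functions form `k[z, 1/P(z)]`. -/
def R0 : Subalgebra κ (LaurentSeries κ) := Algebra.adjoin κ {D.rZ, (aeval D.rZ D.rP)⁻¹}

theorem redAt_invariant (F : BRing A N) (hinv : ∀ γ ∈ Gamma D.M, compHom γ (F : ℍ → ℂ) = F)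
    {h : SL(2, ℤ)} (hh : h ∈ Gamma D.M) : redAt h F = redAt 1 F := by
  have e : (⟨compHom h F, compHom_mem_bRing F.2 h⟩ : BRing A N) = F := Subtype.ext (hinv h hh)
  conv_rhs => rw [← e, redAt_comp, mul_one]

theorem redAt_invariant_mem (F : BRing A N)
    (hinv : ∀ γ ∈ Gamma D.M, compHom γ (F : ℍ → ℂ) = F) : redAt 1 F ∈ D.R0 := by
  obtain ⟨p, K, hp⟩ := D.exists_inv'_of_invariant F.2 hinv
  rw [show F = ⟨D.inv' p K, D.inv'_mem p K⟩ from Subtype.ext hp, redAt_inv']
  exact mul_mem (pow_mem (Algebra.subset_adjoin (by simp)) K)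
    (aeval_mem_adjoin_pair D.rZ _ _)
where
  aeval_mem_adjoin_pair (z v : LaurentSeries κ) (p : κ[X]) :
      aeval z p ∈ Algebra.adjoin κ {z, v} := by
    rw [aeval_eq_sum_range]
    exact sum_mem fun i _ => Subalgebra.smul_mem _ (pow_mem (Algebra.subset_adjoin (by simp)) i) _

/-- An invariant function vanishing in reduction at infinity vanishes in reduction everywhere. -/
theorem redAt_eq_zero_of_invariant (F : BRing A N)
    (hinv : ∀ γ ∈ Gamma D.M, compHom γ (F : ℍ → ℂ) = F) (h : redAt 1 F = 0) (g : SL(2, ℤ)) :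
    redAt g F = 0 := by
  obtain ⟨p, K, hp⟩ := D.exists_inv'_of_invariant F.2 hinv
  have hF : F = ⟨_, D.W_mem⟩ ^ K * ⟨_, D.polyZ_mem p⟩ := Subtype.ext hp
  have hp0 : p.map (IsLocalRing.residue A) = 0 := by
    rw [show F = ⟨D.inv' p K, D.inv'_mem p K⟩ from Subtype.ext hp, redAt_inv', mul_eq_zero] at h
    by_contra hne
    rcases h with h | h
    · exact pow_ne_zero _ (inv_ne_zero D.aeval_rP_ne) h
    · exact aeval_ne_zero_of_order_neg D.rZ_order_neg hne h
  have hall : ∀ q : A[X], q.map (IsLocalRing.residue A) = 0 →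
      redAt g ⟨D.polyZ q, D.polyZ_mem q⟩ = 0 := fun q hq => by
    have hq' : ∀ i, IsLocalRing.residue A (q.coeff i) = 0 := fun i => by
      rw [← Polynomial.coeff_map, hq, Polynomial.coeff_zero]
    have : (⟨D.polyZ q, D.polyZ_mem q⟩ : BRing A N) =
        ∑ i ∈ q.support, ⟨_, const_mem_bRing (q.coeff i)⟩ * ⟨D.Z, D.Z_mem⟩ ^ i := by
      refine Subtype.ext ?_
      rw [AddSubmonoidClass.coe_finsetSum]
      show D.polyZ q = ∑ i ∈ q.support, algebraMap ℂ (ℍ → ℂ) (iota (q.coeff i : Qb)) * D.Z ^ i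
      simp [polyZ, Polynomial.eval₂_eq_sum, Polynomial.sum, iotaA_apply]
    rw [this, map_sum]
    exact Finset.sum_eq_zero fun i _ => by rw [map_mul, redAt_const, hq' i]; simp
  rw [hF, map_mul, hall p hp0, mul_zero]

theorem separ_fun {g g' : SL(2, ℤ)} (hg : g ∈ D.reps) (hg' : g' ∈ D.reps) :
    (∑ j, (⟨_, compHom_mem_bRing (D.u_mem j) g⟩ : BRing A N) *
      ⟨_, compHom_mem_bRing (D.w_mem j) g'⟩) = if g = g' then 1 else 0 := by
  refine Subtype.ext (funext fun τ => ?_)
  rw [AddSubmonoidClass.coe_finsetSum, Finset.sum_apply]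
  refine (D.separ g hg g' hg' τ).trans ?_
  split_ifs <;> rfl

theorem separ_redAt {g g' : SL(2, ℤ)} (hg : g ∈ D.reps) (hg' : g' ∈ D.reps) :
    (∑ j, redAt g ⟨D.u j, D.u_mem j⟩ * redAt g' ⟨D.w j, D.w_mem j⟩) =
      if g = g' then 1 else 0 := by
  have h := congrArg (redAt 1) (D.separ_fun hg hg')
  rw [map_sum] at h
  simp only [map_mul] at h
  rw [apply_ite (redAt 1), map_one, map_zero] at h
  rw [← h]
  refine Finset.sum_congr rfl fun j _ => ?_
  rw [← mul_one g, ← mul_one g', ← redAt_comp, ← redAt_comp, mul_one, mul_one]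

/-- The reduction at infinity of the trace of `F * G`. -/
theorem redAt_tr_mul (F G : BRing A N) :
    redAt 1 ⟨D.tr ((F : ℍ → ℂ) * G), D.tr_mem (mul_mem F.2 G.2)⟩ =
      ∑ h ∈ D.reps, redAt h F * redAt h G := by
  rw [show (⟨D.tr ((F : ℍ → ℂ) * G), D.tr_mem (mul_mem F.2 G.2)⟩ : BRing A N) =
      ∑ h ∈ D.reps, (⟨_, compHom_mem_bRing F.2 h⟩ : BRing A N) * ⟨_, compHom_mem_bRing G.2 h⟩
      from Subtype.ext (by
        rw [AddSubmonoidClass.coe_finsetSum]
        show (∑ h ∈ D.reps, compHom h ((F : ℍ → ℂ) * G)) = _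
        exact Finset.sum_congr rfl fun h _ => map_mul (compHom h) (F : ℍ → ℂ) G), map_sum]
  refine Finset.sum_congr rfl fun h _ => ?_
  rw [map_mul, redAt_comp, redAt_comp, mul_one]

theorem compHom_tr_mul (F G : BRing A N) :
    ∀ γ ∈ Gamma D.M, compHom γ (D.tr ((F : ℍ → ℂ) * G)) = D.tr ((F : ℍ → ℂ) * G) :=
  fun _ hγ => D.compHom_tr (mul_mem F.2 G.2 : (F : ℍ → ℂ) * G ∈ BRing A N).1 hγ

/-- A function with vanishing reductions at the representatives has zero reduction everywhere. -/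
theorem redAt_eq_zero_of_reps (F : BRing A N) (h : ∀ g ∈ D.reps, redAt g F = 0) (g : SL(2, ℤ)) :
    redAt g F = 0 := by
  have hF : F = ∑ j, ⟨D.tr ((F : ℍ → ℂ) * D.w j), D.tr_mem (mul_mem F.2 (D.w_mem j))⟩ *
      ⟨D.u j, D.u_mem j⟩ := Subtype.ext (by
    rw [AddSubmonoidClass.coe_finsetSum]; exact D.eq_sum_tr F)
  rw [hF, map_sum]
  refine Finset.sum_eq_zero fun j _ => ?_
  rw [map_mul, D.redAt_eq_zero_of_invariant _ (D.compHom_tr_mul F ⟨_, D.w_mem j⟩) ?_, zero_mul]
  rw [D.redAt_tr_mul F ⟨_, D.w_mem j⟩]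
  exact Finset.sum_eq_zero fun b hb => by rw [h b hb, zero_mul]

/-- Reductions at the representatives are integral over `R0`. -/
theorem isIntegral_redAt (F : BRing A N) {h : SL(2, ℤ)} (hh : h ∈ D.reps) :
    IsIntegral D.R0 (redAt h F) := by
  have hFn : (F : ℍ → ℂ) ∈ Fn N := F.2.1
  let G : BRing A N := ⟨compHom h F, compHom_mem_bRing F.2 h⟩
  have hG : redAt h F = redAt 1 G := by rw [redAt_comp, mul_one]
  let p : (BRing A N)[X] := ∏ g ∈ D.reps,
    (Polynomial.X - C (⟨compHom g F, compHom_mem_bRing F.2 g⟩ : BRing A N))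
  have hp : p.map (BRing A N).subtype = D.charp F := by
    rw [Polynomial.map_prod, charp]
    exact Finset.prod_congr rfl fun g _ => by simp
  have hmon : p.Monic := monic_prod_of_monic _ _ fun _ _ => monic_X_sub_C _
  have hev : p.eval G = 0 := by
    rw [Polynomial.eval_prod]
    exact Finset.prod_eq_zero hh (by simp [G])
  have hl : p.map (redAt 1) ∈ Polynomial.lifts (algebraMap D.R0 (LaurentSeries κ)) := by
    rw [Polynomial.lifts_iff_coeff_lifts]
    intro i
    rw [Polynomial.coeff_map]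
    refine ⟨⟨_, D.redAt_invariant_mem (p.coeff i) fun γ hγ => ?_⟩, rfl⟩
    have hc := D.charp_coeff_inv hFn hγ i
    rwa [← hp, Polynomial.coeff_map] at hc
  obtain ⟨q, hq, -, hqm⟩ := Polynomial.lifts_and_degree_eq_and_monic hl (hmon.map _)
  exact ⟨q, hqm, by
    rw [hG, ← Polynomial.eval_map, hq, Polynomial.eval_map, Polynomial.eval₂_hom, hev, map_zero]⟩

/-- Normality: a family of series integral over `R0` which is rational against an invariant
denominator is the family of reductions of an element of `BRing`. -/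
theorem exists_lift_of_isIntegral (x : SL(2, ℤ) → LaurentSeries κ) (Y S : BRing A N)
    (hS : ∀ γ ∈ Gamma D.M, compHom γ (S : ℍ → ℂ) = S) (hS0 : redAt 1 S ≠ 0)
    (hx : ∀ h ∈ D.reps, IsIntegral D.R0 (x h))
    (hY : ∀ h ∈ D.reps, x h * redAt 1 S = redAt h Y) :
    ∃ y : BRing A N, ∀ h ∈ D.reps, redAt h y = x h := by
  have key : ∀ j, ∃ t : BRing A N, (∀ γ ∈ Gamma D.M, compHom γ (t : ℍ → ℂ) = t) ∧
      redAt 1 t = ∑ h ∈ D.reps, x h * redAt h ⟨D.w j, D.w_mem j⟩ := by
    intro j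
    set t := ∑ h ∈ D.reps, x h * redAt h ⟨D.w j, D.w_mem j⟩ with ht
    have hint : IsIntegral D.R0 t := IsIntegral.sum _ fun h hh =>
      (hx h hh).mul (D.isIntegral_redAt _ hh)
    obtain ⟨p, K, hp⟩ := D.exists_inv'_of_invariant
      (D.tr_mem (mul_mem Y.2 (D.w_mem j))) (D.compHom_tr_mul Y ⟨_, D.w_mem j⟩)
    obtain ⟨q, L, hq⟩ := D.exists_inv'_of_invariant S.2 hS
    have hSq : redAt 1 S = (aeval D.rZ D.rP)⁻¹ ^ L * aeval D.rZ (q.map (IsLocalRing.residue A)) := by
      rw [show S = ⟨D.inv' q L, D.inv'_mem q L⟩ from Subtype.ext hq, redAt_inv']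
    have hq0 : q.map (IsLocalRing.residue A) ≠ 0 := fun h0 => hS0 (by rw [hSq, h0, map_zero, mul_zero])
    have hmul : t * redAt 1 S = redAt 1 ⟨D.inv' p K, D.inv'_mem p K⟩ := by
      rw [show (⟨D.inv' p K, D.inv'_mem p K⟩ : BRing A N) =
        ⟨D.tr ((Y : ℍ → ℂ) * D.w j), D.tr_mem (mul_mem Y.2 (D.w_mem j))⟩ from Subtype.ext hp.symm,
        D.redAt_tr_mul Y ⟨_, D.w_mem j⟩, ht, Finset.sum_mul]
      exact Finset.sum_congr rfl fun h hh => by rw [← hY h hh]; ring
    rw [hSq, redAt_inv'] at hmul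
    have hP := D.aeval_rP_ne
    have hmul' : t * aeval D.rZ (q.map (IsLocalRing.residue A) * D.rP ^ K) =
        aeval D.rZ (p.map (IsLocalRing.residue A) * D.rP ^ L) := by
      rw [map_mul, map_mul, map_pow, map_pow]
      rw [inv_pow, inv_pow] at hmul
      field_simp at hmul
      linear_combination hmul
    obtain ⟨r, K', hr⟩ := exists_eq_of_isIntegral_adjoin D.rZ_order_neg D.rP D.rP_monic.ne_zero
      (mul_ne_zero hq0 (pow_ne_zero _ D.rP_monic.ne_zero)) hmul' hint
    obtain ⟨r', hr'⟩ := Polynomial.map_surjective _ (IsLocalRing.residue_surjective (R := A)) r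
    refine ⟨⟨_, D.inv'_mem r' K'⟩, fun γ hγ => ?_, ?_⟩
    · funext τ
      simp only [compHom_apply, inv', Pi.mul_apply, Pi.pow_apply, D.polyZ_apply, D.W_inv γ hγ,
        D.Z_inv γ hγ]
    · rw [redAt_inv', hr', ← hr, inv_pow, mul_comm, mul_assoc,
        mul_inv_cancel₀ (pow_ne_zero _ hP), mul_one]
  choose t htinv ht using key
  refine ⟨∑ j, t j * ⟨D.u j, D.u_mem j⟩, fun h hh => ?_⟩
  rw [map_sum]
  simp only [map_mul]
  rw [Finset.sum_congr rfl fun j _ => by rw [D.redAt_invariant (t j) (htinv j) (D.reps_mem h hh)]]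
  simp only [ht, Finset.sum_mul]
  rw [Finset.sum_comm, Finset.sum_eq_single_of_mem h hh ?_]
  · have := D.separ_redAt hh hh
    rw [if_pos rfl] at this
    conv_rhs => rw [← mul_one (x h), ← this, Finset.mul_sum]
    exact Finset.sum_congr rfl fun j _ => by ring
  · intro b hb hne
    have := D.separ_redAt hh hb
    rw [if_neg (Ne.symm hne)] at this
    calc _ = x b * ∑ j, redAt h ⟨D.u j, D.u_mem j⟩ * redAt b ⟨D.w j, D.w_mem j⟩ := by
          rw [Finset.mul_sum]; exact Finset.sum_congr rfl fun j _ => by ring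
      _ = 0 := by rw [this, mul_zero]

end BaseData

end FLTA.DeligneSerre
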