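import Mathlib.RingTheory.LaurentSeries
import Mathlib.RingTheory.PowerSeries.Trunc
import Mathlib.Algebra.Ring.Subring.Basic

/-!
# Coefficients of an `n`-th root of a series
-/

set_option autoImplicit false

noncomputable section

open PowerSeries

namespace FLTA.DeligneSerre

variable {K : Type*} [Field K]

theorem exists_add_pow_eq {R : Type*} [CommRing R] (x y : R) (n : ℕ) :
    ∃ q : R, (x + y) ^ n = x ^ n + n * x ^ (n - 1) * y + q * y ^ 2 := by
  induction n with
  | zero => exact ⟨0, by simp⟩
  | succ m ih =>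
    obtain ⟨q, hq⟩ := ih
    rcases m with _ | m
    · exact ⟨0, by simp⟩
    refine ⟨q * (x + y) + (m + 1 : ℕ) * x ^ m, ?_⟩
    rw [pow_succ, hq]
    push_cast
    ring

/-- If `P ^ n` has coefficients in a subring containing the constant coefficient `p` of `P` and
`1 / (n p ^ (n - 1))`, so does `P`. -/
theorem coeff_mem_of_pow_mem (R : Subring K) (P : K⟦X⟧) {n : ℕ}
    (hne : ((n : K) * constantCoeff P ^ (n - 1)) ≠ 0) (h0 : constantCoeff P ∈ R)
    (hinv : ((n : K) * constantCoeff P ^ (n - 1))⁻¹ ∈ R) (hP : ∀ k, coeff k (P ^ n) ∈ R) (j : ℕ) :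
    coeff j P ∈ R := by
  induction j using Nat.strong_induction_on with
  | _ j ih =>
    rcases Nat.eq_zero_or_pos j with rfl | hj
    · rwa [coeff_zero_eq_constantCoeff_apply]
    set T : K⟦X⟧ := ((trunc j P : Polynomial K) : K⟦X⟧)
    have hT : ∀ i, coeff i T ∈ R := fun i => by
      rw [Polynomial.coeff_coe, coeff_trunc]
      split_ifs with hi
      · exact ih i hi
      · exact zero_mem _
    let T' : R⟦X⟧ := PowerSeries.mk fun i => (⟨coeff i T, hT i⟩ : R)
    have hTe : PowerSeries.map R.subtype T' = T := by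
      ext i
      simp [T']
    have hTn : coeff j (T ^ n) ∈ R := by
      rw [← hTe, ← map_pow, coeff_map]
      exact SetLike.coe_mem _
    have hc : ∀ i < j, coeff i (P - T) = 0 := fun i hi => by
      rw [map_sub, Polynomial.coeff_coe, coeff_trunc, if_pos hi, sub_self]
    obtain ⟨Y, hY⟩ := X_pow_dvd_iff.2 hc
    have hY0 : constantCoeff Y = coeff j P := by
      have h1 : coeff j (P - T) = coeff j (X ^ j * Y) := by rw [hY]
      rw [map_sub, Polynomial.coeff_coe, coeff_trunc, if_neg (lt_irrefl j), sub_zero,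
        coeff_X_pow_mul', if_pos le_rfl, Nat.sub_self, coeff_zero_eq_constantCoeff_apply] at h1
      exact h1.symm
    have hT0 : constantCoeff T = constantCoeff P := by
      rw [← coeff_zero_eq_constantCoeff_apply, ← coeff_zero_eq_constantCoeff_apply,
        Polynomial.coeff_coe, coeff_trunc, if_pos hj]
    obtain ⟨q, hq⟩ := exists_add_pow_eq T (P - T) n
    rw [add_sub_cancel, hY] at hq
    have hsplit : coeff j (P ^ n) =
        coeff j (T ^ n) + (n : K) * constantCoeff P ^ (n - 1) * coeff j P := by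
      rw [hq, map_add, map_add,
        show q * (X ^ j * Y) ^ 2 = X ^ (2 * j) * (q * Y ^ 2) by ring,
        coeff_X_pow_mul', if_neg (by omega), add_zero,
        show (n : K⟦X⟧) * T ^ (n - 1) * (X ^ j * Y) = X ^ j * ((n : K⟦X⟧) * T ^ (n - 1) * Y) by ring,
        coeff_X_pow_mul', if_pos le_rfl, Nat.sub_self, coeff_zero_eq_constantCoeff_apply]
      simp [hT0, hY0]
    have : coeff j P =
        ((n : K) * constantCoeff P ^ (n - 1))⁻¹ * (coeff j (P ^ n) - coeff j (T ^ n)) := by
      rw [hsplit, add_sub_cancel_left, ← mul_assoc, inv_mul_cancel₀ hne, one_mul]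
    rw [this]
    exact mul_mem hinv (sub_mem (hP j) hTn)

/-- The Laurent series version. -/
theorem laurent_coeff_mem_of_pow_mem (R : Subring K) (S : LaurentSeries K) {n : ℕ} (hn : (n : K) ≠ 0)
    (h0 : S.coeff S.order ∈ R) (hinv : ((n : K) * S.coeff S.order ^ (n - 1))⁻¹ ∈ R)
    (hS : ∀ k : ℤ, (S ^ n).coeff k ∈ R) (k : ℤ) : S.coeff k ∈ R := by
  rcases eq_or_ne S 0 with rfl | hne
  · simp
  set P := S.powerSeriesPart
  have hSP : HahnSeries.single S.order (1 : K) * HahnSeries.ofPowerSeries ℤ K P = S :=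
    LaurentSeries.single_order_mul_powerSeriesPart S
  have hP0 : constantCoeff P = S.coeff S.order := by
    rw [← coeff_zero_eq_constantCoeff_apply, LaurentSeries.powerSeriesPart_coeff]
    simp
  have hc0 : S.coeff S.order ≠ 0 := HahnSeries.coeff_order_eq_zero.not.2 hne
  have hmem : ∀ j, coeff j P ∈ R := by
    refine coeff_mem_of_pow_mem R P (by rw [hP0]; exact mul_ne_zero hn (pow_ne_zero _ hc0))
      (hP0 ▸ h0) (by rw [hP0]; exact hinv) fun j => ?_
    have e : (S ^ n).coeff ((j : ℤ) + n • S.order) = coeff j (P ^ n) := by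
      have hpow : S ^ n = HahnSeries.single (n • S.order) (1 : K) *
          HahnSeries.ofPowerSeries ℤ K (P ^ n) := by
        conv_lhs => rw [← hSP, mul_pow, HahnSeries.single_pow, one_pow, ← map_pow]
      rw [hpow, HahnSeries.coeff_single_mul, one_mul, add_sub_cancel_right,
        HahnSeries.ofPowerSeries_apply_coeff]
    rw [← e]
    exact hS _
  rcases lt_or_ge k S.order with hk | hk
  · rw [HahnSeries.coeff_eq_zero_of_lt_order hk]
    exact zero_mem _
  · obtain ⟨j, hj⟩ := Int.eq_ofNat_of_zero_le (show 0 ≤ k - S.order by omega)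
    rw [show k = S.order + j by omega, ← LaurentSeries.powerSeriesPart_coeff]
    exact hmem j

end FLTA.DeligneSerre
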