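import Fermat.Agent.DeligneSerre.Level.Series
import Mathlib.Algebra.Polynomial.BigOperators
import Mathlib.Algebra.BigOperators.Group.Finset.Basic

/-!
# The base curve, abstractly

`BaseData A N` collects what rigidity needs about `X(N) → X(M)`: the parameter `Z` with its only
pole at the cusp `∞`, the coset representatives, the separability element and the description of
invariant functions.  This file derives the formal consequences: traces, norms, characteristic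
polynomials.
-/

set_option autoImplicit false

noncomputable section

open scoped MatrixGroups
open UpperHalfPlane hiding I
open CongruenceSubgroup Polynomial

namespace FLTA.DeligneSerre

local notation "Qb" => AlgebraicClosure ℚ

/-- `g ∞` is `Γ(M)`-equivalent to `∞`. -/
def EqInfty (M : ℕ) (g : SL(2, ℤ)) : Prop :=
  ∃ k : ℤ, g * ModularGroup.T ^ k ∈ Gamma M ∨ -(g * ModularGroup.T ^ k) ∈ Gamma M

/-- Invariant functions of level `N` with integral expansions. -/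
def BRing (A : ValuationSubring Qb) (N : ℕ) [NeZero N] : Subring (ℍ → ℂ) :=
  (Fn N).toSubring ⊓ IntFn A N

/-- Invariant functions of level `N` with algebraic expansions. -/
def BAlg (N : ℕ) [NeZero N] : Subring (ℍ → ℂ) := (Fn N).toSubring ⊓ AlgFn N

/-- The data of the base curve used for rigidity. -/
structure BaseData (A : ValuationSubring Qb) (N : ℕ) [NeZero N] where
  M : ℕ
  e : ℕ
  hN : N = M * e
  hlev : Gamma N ≤ Gamma M
  reps : Finset SL(2, ℤ)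
  reps_mem : ∀ h ∈ reps, h ∈ Gamma M
  one_mem_reps : (1 : SL(2, ℤ)) ∈ reps
  reps_unique : ∀ γ ∈ Gamma M, ∃! h, h ∈ reps ∧ (γ * h⁻¹ ∈ Gamma N ∨ -(γ * h⁻¹) ∈ Gamma N)
  Z : ℍ → ℂ
  W : ℍ → ℂ
  P : A[X]
  P_monic : P.Monic
  P_zero : P.coeff 0 = 0
  Z_mem : Z ∈ BRing A N
  W_mem : W ∈ BRing A N
  Z_inv : ∀ γ ∈ Gamma M, ∀ τ : ℍ, Z (γ • τ) = Z τ
  W_mul : ∀ τ : ℍ, W τ * (P.map (iotaA A)).eval (Z τ) = 1
  Z_order : (cexp N Z 1).order = -(e : ℤ)
  Z_lead : ∃ a : A, IsUnit a ∧ iota (a : Qb) = (cexp N Z 1).coeff (-(e : ℤ))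
  Z_order_nonneg : ∀ g : SL(2, ℤ), ¬ EqInfty M g → 0 ≤ (cexp N Z g).order
  surj : ∀ z₀ : ℂ, (P.map (iotaA A)).eval z₀ ≠ 0 → ∃ τ : ℍ, Z τ = z₀
  deriv_ne : ∀ τ : ℍ, deriv (Z ∘ ofComplex) (τ : ℂ) ≠ 0
  repr_int : ∀ F ∈ BRing A N, (∀ γ ∈ Gamma M, ∀ τ : ℍ, F (γ • τ) = F τ) →
    ∃ (p : A[X]) (K : ℕ), ∀ τ, F τ = W τ ^ K * (p.map (iotaA A)).eval (Z τ)
  repr_alg : ∀ F ∈ BAlg N, (∀ γ ∈ Gamma M, ∀ τ : ℍ, F (γ • τ) = F τ) →
    ∃ (p : Qb[X]) (K : ℕ), ∀ τ, F τ = W τ ^ K * (p.map iota).eval (Z τ)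
  m : ℕ
  u : Fin m → ℍ → ℂ
  w : Fin m → ℍ → ℂ
  u_mem : ∀ j, u j ∈ BRing A N
  w_mem : ∀ j, w j ∈ BRing A N
  separ : ∀ g ∈ reps, ∀ g' ∈ reps, ∀ τ : ℍ,
    (∑ j, u j (g • τ) * w j (g' • τ)) = if g = g' then 1 else 0
  scale : ∀ F ∈ BAlg N, F ≠ 0 →
    ∃ c : Qb, c ≠ 0 ∧ iota c • F ∈ BRing A N ∧ ∃ g, redExp A N (iota c • F) g ≠ 0
  denom : ∀ F ∈ BAlg N, ∃ c : A, c ≠ 0 ∧ iota (c : Qb) • F ∈ BRing A N

variable {A : ValuationSubring Qb} {N : ℕ} [NeZero N]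

theorem bRing_le_bAlg : BRing A N ≤ BAlg N := fun _ h => ⟨h.1, intFn_le_algFn A h.2⟩

theorem fn_comp {F : ℍ → ℂ} (hF : F ∈ Fn N) (g : SL(2, ℤ)) :
    (fun τ : ℍ => F (g • τ)) ∈ Fn N := by
  refine ⟨comp_smul_mem_hol' hF.1 g, fun γ hγ τ => ?_, fun g' => ?_⟩
  · have h := hF.2.1 (g * γ * g⁻¹) ((Gamma_normal N).conj_mem _ hγ g) (g • τ)
    simpa [← mul_smul, mul_assoc] using h
  · simpa only [← mul_smul] using hF.2.2 (g * g')

/-- Composition with `g`, on `ℍ → ℂ`. -/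
def compHom (g : SL(2, ℤ)) : (ℍ → ℂ) →+* (ℍ → ℂ) :=
  Pi.ringHom fun τ : ℍ => Pi.evalRingHom (fun _ : ℍ => ℂ) (g • τ)

theorem compHom_apply (g : SL(2, ℤ)) (F : ℍ → ℂ) (τ : ℍ) : compHom g F τ = F (g • τ) := rfl

theorem compHom_comp (g h : SL(2, ℤ)) (F : ℍ → ℂ) :
    compHom g (compHom h F) = compHom (h * g) F :=
  funext fun τ => by simp [compHom_apply, mul_smul]

theorem compHom_one (F : ℍ → ℂ) : compHom 1 F = F := funext fun τ => by simp [compHom_apply]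

theorem compHom_mem_bRing {F : ℍ → ℂ} (hF : F ∈ BRing A N) (g : SL(2, ℤ)) :
    compHom g F ∈ BRing A N :=
  ⟨fn_comp hF.1 g, PerFn.comp hF.2.1 g, hF.2.2.comp g⟩

theorem compHom_mem_bAlg {F : ℍ → ℂ} (hF : F ∈ BAlg N) (g : SL(2, ℤ)) :
    compHom g F ∈ BAlg N :=
  ⟨fn_comp hF.1 g, PerFn.comp hF.2.1 g, hF.2.2.comp g⟩

theorem const_mem_bRing (a : A) : algebraMap ℂ (ℍ → ℂ) (iota (a : Qb)) ∈ BRing A N :=
  ⟨Subalgebra.algebraMap_mem _ _, const_mem_intFn a⟩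

theorem const_mem_bAlg (a : Qb) : algebraMap ℂ (ℍ → ℂ) (iota a) ∈ BAlg N :=
  ⟨Subalgebra.algebraMap_mem _ _, const_mem_algFn a⟩

theorem smul_mem_bRing (a : A) {F : ℍ → ℂ} (hF : F ∈ BRing A N) :
    iota (a : Qb) • F ∈ BRing A N := by
  have h := mul_mem (const_mem_bRing (N := N) a) hF
  rwa [← Algebra.smul_def] at h

theorem smul_mem_bAlg (a : Qb) {F : ℍ → ℂ} (hF : F ∈ BAlg N) : iota a • F ∈ BAlg N := by
  have h := mul_mem (const_mem_bAlg (N := N) a) hF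
  rwa [← Algebra.smul_def] at h

theorem eq_of_coset {F : ℍ → ℂ} (hF : F ∈ Fn N) {γ h : SL(2, ℤ)}
    (hm : γ * h⁻¹ ∈ Gamma N ∨ -(γ * h⁻¹) ∈ Gamma N) (τ : ℍ) : F (γ • τ) = F (h • τ) := by
  rcases hm with hm | hm
  · simpa [← mul_smul] using hF.2.1 _ hm (h • τ)
  · have := hF.2.1 _ hm (h • τ)
    rwa [ModularGroup.SL_neg_smul, ← mul_smul, inv_mul_cancel_right] at this

namespace BaseData

variable (D : BaseData A N)

/-- The representative of the coset of an element of `Γ(M)`. -/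
def rep (γ : SL(2, ℤ)) : SL(2, ℤ) :=
  open Classical in if hγ : γ ∈ Gamma D.M then (D.reps_unique γ hγ).exists.choose else 1

theorem rep_spec {γ : SL(2, ℤ)} (hγ : γ ∈ Gamma D.M) :
    D.rep γ ∈ D.reps ∧ (γ * (D.rep γ)⁻¹ ∈ Gamma N ∨ -(γ * (D.rep γ)⁻¹) ∈ Gamma N) := by
  rw [rep, dif_pos hγ]
  exact (D.reps_unique γ hγ).exists.choose_spec

theorem rep_unique {γ h : SL(2, ℤ)} (hγ : γ ∈ Gamma D.M) (hh : h ∈ D.reps)
    (hm : γ * h⁻¹ ∈ Gamma N ∨ -(γ * h⁻¹) ∈ Gamma N) : D.rep γ = h :=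
  (D.reps_unique γ hγ).unique (D.rep_spec hγ) ⟨hh, hm⟩

theorem rep_self {h : SL(2, ℤ)} (hh : h ∈ D.reps) : D.rep h = h :=
  D.rep_unique (D.reps_mem h hh) hh (Or.inl (by simp))

theorem apply_rep {F : ℍ → ℂ} (hF : F ∈ Fn N) {γ : SL(2, ℤ)} (hγ : γ ∈ Gamma D.M) (τ : ℍ) :
    F (γ • τ) = F (D.rep γ • τ) :=
  eq_of_coset hF (D.rep_spec hγ).2 τ

theorem rep_mul_bijOn {γ : SL(2, ℤ)} (hγ : γ ∈ Gamma D.M) :
    Set.BijOn (fun h => D.rep (h * γ)) D.reps D.reps := by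
  have hmem : ∀ h ∈ D.reps, h * γ ∈ Gamma D.M := fun h hh => mul_mem (D.reps_mem h hh) hγ
  have hinj : Set.InjOn (fun h => D.rep (h * γ)) D.reps := by
    intro a ha b hb hab
    simp only at hab
    have h1 := (D.rep_spec (hmem a ha)).2
    have h2 := (D.rep_spec (hmem b hb)).2
    rw [← hab] at h2
    set r := D.rep (a * γ)
    have h3 : a * b⁻¹ ∈ Gamma N ∨ -(a * b⁻¹) ∈ Gamma N := by
      have e : a * b⁻¹ = a * γ * r⁻¹ * (b * γ * r⁻¹)⁻¹ := by group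
      rcases h1 with h1 | h1 <;> rcases h2 with h2 | h2
      · exact Or.inl (e ▸ mul_mem h1 (inv_mem h2))
      · refine Or.inr ?_
        have : -(a * b⁻¹) = a * γ * r⁻¹ * (-(b * γ * r⁻¹))⁻¹ := by
          rw [e, inv_neg, mul_neg]
        exact this ▸ mul_mem h1 (inv_mem h2)
      · refine Or.inr ?_
        have : -(a * b⁻¹) = -(a * γ * r⁻¹) * (b * γ * r⁻¹)⁻¹ := by rw [e, neg_mul]
        exact this ▸ mul_mem h1 (inv_mem h2)
      · refine Or.inl ?_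
        have : a * b⁻¹ = -(a * γ * r⁻¹) * (-(b * γ * r⁻¹))⁻¹ := by
          rw [e, inv_neg, neg_mul_neg]
        exact this ▸ mul_mem h1 (inv_mem h2)
    exact (D.rep_self ha).symm.trans
      (D.rep_unique (D.reps_mem a ha) hb h3)
  exact ((Finset.finite_toSet _).injOn_iff_bijOn_of_mapsTo
    fun h hh => (D.rep_spec (hmem h hh)).1).1 hinj

theorem e_pos : 0 < D.e :=
  Nat.pos_of_ne_zero fun h => NeZero.ne N (by rw [D.hN, h, mul_zero])

theorem Z_mem_fn : D.Z ∈ Fn N := D.Z_mem.1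

theorem W_inv (γ : SL(2, ℤ)) (hγ : γ ∈ Gamma D.M) (τ : ℍ) : D.W (γ • τ) = D.W τ := by
  have h1 := D.W_mul (γ • τ)
  rw [D.Z_inv γ hγ] at h1
  exact mul_right_cancel₀ (right_ne_zero_of_mul_eq_one (D.W_mul τ)) (h1.trans (D.W_mul τ).symm)

/-- Evaluation of a polynomial at `Z`. -/
def polyZ : A[X] →+* (ℍ → ℂ) :=
  Polynomial.eval₂RingHom ((algebraMap ℂ (ℍ → ℂ)).comp (iotaA A)) D.Z

theorem polyZ_apply (p : A[X]) (τ : ℍ) : D.polyZ p τ = (p.map (iotaA A)).eval (D.Z τ) := by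
  induction p using Polynomial.induction_on' with
  | add p q hp hq => simp [hp, hq]
  | monomial k a => simp [polyZ, Pi.mul_apply, Pi.pow_apply]

theorem polyZ_mem (p : A[X]) : D.polyZ p ∈ BRing A N := by
  induction p using Polynomial.induction_on' with
  | add p q hp hq => rw [map_add]; exact add_mem hp hq
  | monomial k a =>
    simp only [polyZ, coe_eval₂RingHom, eval₂_monomial, RingHom.comp_apply, iotaA_apply]
    exact mul_mem (const_mem_bRing a) (pow_mem D.Z_mem k)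

/-- `W ^ K * p(Z)`. -/
def inv' (p : A[X]) (K : ℕ) : ℍ → ℂ := D.W ^ K * D.polyZ p

theorem inv'_mem (p : A[X]) (K : ℕ) : D.inv' p K ∈ BRing A N :=
  mul_mem (pow_mem D.W_mem K) (D.polyZ_mem p)

theorem W_mul_polyZ : D.W * D.polyZ D.P = 1 :=
  funext fun τ => by rw [Pi.mul_apply, polyZ_apply, Pi.one_apply]; exact D.W_mul τ

/-- `1 / Z`. -/
def Zi : ℍ → ℂ := D.W * D.polyZ D.P.divX

theorem Zi_mem : D.Zi ∈ BRing A N := mul_mem D.W_mem (D.polyZ_mem _)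

theorem Zi_mul : D.Zi * D.Z = 1 := by
  have hP : D.P.divX * Polynomial.X = D.P := by
    conv_rhs => rw [← Polynomial.divX_mul_X_add D.P, D.P_zero, map_zero, add_zero]
  have hX : D.polyZ Polynomial.X = D.Z := by simp [polyZ]
  rw [Zi, mul_assoc, ← hX, ← map_mul, hP, D.W_mul_polyZ]

theorem exists_inv'_of_invariant {F : ℍ → ℂ} (hF : F ∈ BRing A N)
    (hinv : ∀ γ ∈ Gamma D.M, compHom γ F = F) : ∃ p K, F = D.inv' p K := by
  obtain ⟨p, K, h⟩ := D.repr_int F hF fun γ hγ τ => congrFun (hinv γ hγ) τ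
  exact ⟨p, K, funext fun τ => by rw [h τ, inv', Pi.mul_apply, Pi.pow_apply, polyZ_apply]⟩

/-- The trace to level `M`. -/
def tr (F : ℍ → ℂ) : ℍ → ℂ := ∑ h ∈ D.reps, compHom h F

/-- The norm to level `M`. -/
def norm (F : ℍ → ℂ) : ℍ → ℂ := ∏ h ∈ D.reps, compHom h F

/-- The product of the conjugates other than the first. -/
def cofactor (F : ℍ → ℂ) : ℍ → ℂ := ∏ h ∈ D.reps.erase 1, compHom h F

theorem mul_cofactor (F : ℍ → ℂ) : F * D.cofactor F = D.norm F := by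
  rw [norm, ← Finset.mul_prod_erase _ _ D.one_mem_reps, compHom_one, cofactor]

theorem compHom_rep {F : ℍ → ℂ} (hF : F ∈ Fn N) {γ : SL(2, ℤ)} (hγ : γ ∈ Gamma D.M)
    {h : SL(2, ℤ)} (hh : h ∈ D.reps) :
    compHom γ (compHom h F) = compHom (D.rep (h * γ)) F :=
  funext fun τ => by
    rw [compHom_comp]
    exact D.apply_rep hF (mul_mem (D.reps_mem h hh) hγ) τ

theorem compHom_tr {F : ℍ → ℂ} (hF : F ∈ Fn N) {γ : SL(2, ℤ)} (hγ : γ ∈ Gamma D.M) :
    compHom γ (D.tr F) = D.tr F := by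
  rw [tr, map_sum, Finset.sum_congr rfl fun h hh => D.compHom_rep hF hγ hh]
  exact Finset.sum_bij (fun h _ => D.rep (h * γ)) (fun h hh => (D.rep_mul_bijOn hγ).mapsTo hh)
    (fun a ha b hb => (D.rep_mul_bijOn hγ).injOn ha hb)
    (fun b hb => by
      obtain ⟨a, ha, rfl⟩ := (D.rep_mul_bijOn hγ).surjOn hb
      exact ⟨a, ha, rfl⟩) fun _ _ => rfl

theorem prod_comp_eq {S : Type*} [CommMonoid S] (f : (ℍ → ℂ) → S) {F : ℍ → ℂ} (hF : F ∈ Fn N)
    {γ : SL(2, ℤ)} (hγ : γ ∈ Gamma D.M) :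
    (∏ h ∈ D.reps, f (compHom γ (compHom h F))) = ∏ h ∈ D.reps, f (compHom h F) := by
  rw [Finset.prod_congr rfl fun h hh => congrArg f (D.compHom_rep hF hγ hh)]
  exact Finset.prod_bij (fun h _ => D.rep (h * γ)) (fun h hh => (D.rep_mul_bijOn hγ).mapsTo hh)
    (fun a ha b hb => (D.rep_mul_bijOn hγ).injOn ha hb)
    (fun b hb => by
      obtain ⟨a, ha, rfl⟩ := (D.rep_mul_bijOn hγ).surjOn hb
      exact ⟨a, ha, rfl⟩) fun _ _ => rfl

theorem compHom_norm {F : ℍ → ℂ} (hF : F ∈ Fn N) {γ : SL(2, ℤ)} (hγ : γ ∈ Gamma D.M) :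
    compHom γ (D.norm F) = D.norm F := by
  rw [norm, map_prod]
  exact D.prod_comp_eq id hF hγ

theorem norm_mul (F G : ℍ → ℂ) : D.norm (F * G) = D.norm F * D.norm G := by
  simp only [norm, map_mul, Finset.prod_mul_distrib]

theorem tr_mem {F : ℍ → ℂ} (hF : F ∈ BRing A N) : D.tr F ∈ BRing A N :=
  sum_mem fun h _ => compHom_mem_bRing hF h

theorem tr_mem_bAlg {F : ℍ → ℂ} (hF : F ∈ BAlg N) : D.tr F ∈ BAlg N :=
  sum_mem fun h _ => compHom_mem_bAlg hF h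

theorem norm_mem {F : ℍ → ℂ} (hF : F ∈ BRing A N) : D.norm F ∈ BRing A N :=
  prod_mem fun h _ => compHom_mem_bRing hF h

theorem cofactor_mem {F : ℍ → ℂ} (hF : F ∈ BRing A N) : D.cofactor F ∈ BRing A N :=
  prod_mem fun h _ => compHom_mem_bRing hF h

/-- The separability identity on all of `Γ(M)`. -/
theorem separ_gamma {g g' : SL(2, ℤ)} (hg : g ∈ Gamma D.M) (hg' : g' ∈ Gamma D.M) (τ : ℍ) :
    (∑ j, D.u j (g • τ) * D.w j (g' • τ)) = if D.rep g = D.rep g' then 1 else 0 := by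
  rw [← D.separ _ (D.rep_spec hg).1 _ (D.rep_spec hg').1 τ]
  exact Finset.sum_congr rfl fun j _ => by
    rw [D.apply_rep (D.u_mem j).1 hg, D.apply_rep (D.w_mem j).1 hg']

/-- Expansion in the separability element. -/
theorem eq_sum_tr (F : ℍ → ℂ) : F = ∑ j, D.tr (F * D.w j) * D.u j := by
  funext τ
  rw [Finset.sum_apply]
  simp only [tr, Finset.sum_apply, Pi.mul_apply, compHom_apply, Finset.sum_mul]
  rw [Finset.sum_comm]
  have hkey : ∀ h ∈ D.reps, (∑ j, F (h • τ) * D.w j (h • τ) * D.u j τ) =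
      F (h • τ) * if (1 : SL(2, ℤ)) = h then 1 else 0 := fun h hh => by
    rw [← D.separ 1 D.one_mem_reps h hh τ, Finset.mul_sum, one_smul]
    exact Finset.sum_congr rfl fun j _ => by ring
  rw [Finset.sum_congr rfl hkey, Finset.sum_eq_single_of_mem 1 D.one_mem_reps
    fun b _ hb => by simp [Ne.symm hb]]
  simp

/-- The characteristic polynomial over level `M`. -/
def charp (F : ℍ → ℂ) : (ℍ → ℂ)[X] := ∏ h ∈ D.reps, (Polynomial.X - C (compHom h F))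

theorem charp_monic (F : ℍ → ℂ) : (D.charp F).Monic :=
  monic_prod_of_monic _ _ fun _ _ => monic_X_sub_C _

theorem charp_coeff_mem {F : ℍ → ℂ} (hF : F ∈ BRing A N) (i : ℕ) :
    (D.charp F).coeff i ∈ BRing A N := by
  let G : SL(2, ℤ) → BRing A N := fun h => ⟨compHom h F, compHom_mem_bRing hF h⟩
  have h : D.charp F =
      (∏ h ∈ D.reps, (Polynomial.X - C (G h))).map (BRing A N).subtype := by
    rw [Polynomial.map_prod, charp]
    exact Finset.prod_congr rfl fun h _ => by simp [G]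
  rw [h, Polynomial.coeff_map]
  exact SetLike.coe_mem _

theorem charp_coeff_inv {F : ℍ → ℂ} (hF : F ∈ Fn N) {γ : SL(2, ℤ)} (hγ : γ ∈ Gamma D.M)
    (i : ℕ) : compHom γ ((D.charp F).coeff i) = (D.charp F).coeff i := by
  have h : (D.charp F).map (compHom γ) = D.charp F := by
    rw [charp, Polynomial.map_prod]
    simp only [Polynomial.map_sub, Polynomial.map_X, Polynomial.map_C]
    exact D.prod_comp_eq (fun G => Polynomial.X - C G) hF hγ
  rw [← Polynomial.coeff_map, h]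

theorem charp_eval {F : ℍ → ℂ} {h : SL(2, ℤ)} (hh : h ∈ D.reps) :
    (D.charp F).eval (compHom h F) = 0 := by
  rw [charp, Polynomial.eval_prod]
  exact Finset.prod_eq_zero hh (by simp)

end BaseData

end FLTA.DeligneSerre
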