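import Fermat.Agent.DeligneSerre.Rigidity.Cusp
import Fermat.Agent.DeligneSerre.Rigidity.Root

/-!
# Integrality in a twist
-/

set_option autoImplicit false

noncomputable section

open scoped MatrixGroups
open UpperHalfPlane hiding I
open CongruenceSubgroup

namespace FLTA.DeligneSerre

local notation "Qb" => AlgebraicClosure ℚ

/-- Complex roots of polynomials with algebraic coefficients are algebraic. -/
theorem mem_range_iota_of_root {p : Polynomial Qb} (hp : p ≠ 0) {z : ℂ}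
    (hz : (p.map iota).IsRoot z) : ∃ a : Qb, iota a = z := by
  have h : z ∈ (p.map iota).roots :=
    (Polynomial.mem_roots (Polynomial.map_ne_zero hp)).2 hz
  rw [← Polynomial.roots_map_of_injective_of_card_eq_natDegree iota.injective
    (IsAlgClosed.card_roots_eq_natDegree), Multiset.mem_map] at h
  obtain ⟨a, -, ha⟩ := h
  exact ⟨a, ha⟩

variable {A : ValuationSubring Qb} {N : ℕ} [NeZero N]

theorem pow_mem_tw {δ : Gamma N →* ℂ} {f : ℍ → ℂ} (hf : f ∈ Tw N δ) (k : ℕ) :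
    f ^ k ∈ Tw N (δ ^ k) := by
  induction k with
  | zero => simpa using mem_tw_one_iff.2 (one_mem (Fn N))
  | succ m ih => rw [pow_succ, pow_succ]; exact mul_mem_tw ih hf

theorem monoidHom_pow_eq_one {δ : Gamma N →* ℂ} {n : ℕ} (hδ : ∀ γ, δ γ ^ n = 1) : δ ^ n = 1 :=
  MonoidHom.ext fun γ => by simpa using hδ γ

theorem pow_mem_fn {δ : Gamma N →* ℂ} {n : ℕ} (hδ : ∀ γ, δ γ ^ n = 1) {f : ℍ → ℂ}
    (hf : f ∈ Tw N δ) : f ^ n ∈ Fn N := by
  rw [← mem_tw_one_iff, ← monoidHom_pow_eq_one hδ]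
  exact pow_mem_tw hf n

theorem mul_pow_mem_fn {δ : Gamma N →* ℂ} {n : ℕ} [NeZero n] (hδ : ∀ γ, δ γ ^ n = 1)
    {f g : ℍ → ℂ} (hf : f ∈ Tw N δ) (hg : g ∈ Tw N δ) : f * g ^ (n - 1) ∈ Fn N := by
  rw [← mem_tw_one_iff]
  have e : δ * δ ^ (n - 1) = 1 := by
    rw [← pow_succ', Nat.sub_add_cancel (Nat.one_le_iff_ne_zero.2 (NeZero.ne n)),
      monoidHom_pow_eq_one hδ]
  rw [← e]
  exact mul_mem_tw hf (pow_mem_tw hg _)

/-- The leading coefficient of an `n`-th root is algebraic when that of the power is. -/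
theorem exists_iota_eq_of_pow {n : ℕ} [NeZero n] {z : ℂ} {a : Qb} (h : iota a = z ^ n) :
    ∃ r : Qb, iota r = z :=
  mem_range_iota_of_root (p := Polynomial.X ^ n - Polynomial.C a)
    (Polynomial.X_pow_sub_C_ne_zero (Nat.pos_of_ne_zero (NeZero.ne n)) a)
    (by simp [Polynomial.IsRoot, h])

theorem coeff_order_pow {R : Type*} [Field R] (S : LaurentSeries R) (n : ℕ) :
    (S ^ n).coeff (S ^ n).order = S.coeff S.order ^ n := by
  rw [← HahnSeries.leadingCoeff_eq, ← HahnSeries.leadingCoeff_eq]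
  induction n with
  | zero => simp
  | succ m ih => rw [pow_succ, HahnSeries.leadingCoeff_mul, ih, pow_succ]

/-- An `n`-th root of an algebraic expansion is algebraic. -/
theorem isAlgFn_of_pow {n : ℕ} [NeZero n] {f : ℍ → ℂ} (hf : f ∈ PerFn N)
    (ha : IsAlgFn N (f ^ n)) : IsAlgFn N f := by
  intro g
  have hS : ∀ k, ∃ a : Qb, iota a = ((cexp N f g) ^ n).coeff k := fun k => by
    rw [← cexp_pow hf]; exact ha g k
  obtain ⟨a, hae⟩ := hS ((cexp N f g) ^ n).order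
  rw [coeff_order_pow] at hae
  obtain ⟨r, hr⟩ := exists_iota_eq_of_pow hae
  intro k
  refine RingHom.mem_range.1 (laurent_coeff_mem_of_pow_mem iota.range _
    (Nat.cast_ne_zero.2 (NeZero.ne n)) ⟨r, hr⟩ ⟨((n : Qb) * r ^ (n - 1))⁻¹, ?_⟩
    (fun k => RingHom.mem_range.2 (hS k)) k)
  rw [map_inv₀, map_mul, map_pow, hr, map_natCast]

/-- An `n`-th root of an integral expansion with unit leading coefficient is of the same kind. -/
theorem root_unit_leading {l : ℕ} (hl : l.Prime) (hA : A.LiesOverPrime l) {n : ℕ} [NeZero n]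
    (hln : ¬ l ∣ n) {S : LaurentSeries ℂ} (hS : S ^ n ∈ intSeries A) {a : A} (ha : IsUnit a)
    (hlead : iota (a : Qb) = (S ^ n).coeff (S ^ n).order) :
    S ∈ intSeries A ∧ ∃ r : A, IsUnit r ∧ iota (r : Qb) = S.coeff S.order := by
  rw [coeff_order_pow] at hlead
  obtain ⟨r, hr⟩ := exists_iota_eq_of_pow hlead
  have hrn : r ^ n = (a : Qb) := iota.injective (by rw [map_pow, hr, hlead])
  have hrA : r ∈ A := mem_of_monic_root (Polynomial.X ^ n - Polynomial.C a)
    (Polynomial.monic_X_pow_sub_C a (NeZero.ne n)) (by simp [Polynomial.IsRoot, hrn])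
  have hu : IsUnit (⟨r, hrA⟩ : A) :=
    (isUnit_pow_iff (NeZero.ne n)).1 (show IsUnit ((⟨r, hrA⟩ : A) ^ n) by
      rwa [show (⟨r, hrA⟩ : A) ^ n = a from Subtype.ext hrn])
  refine ⟨mem_intSeries_iff.2 fun k => ?_, ⟨r, hrA⟩, hu, hr⟩
  obtain ⟨i, hi⟩ := ((isUnit_natCast hl hA hln).mul (hu.pow (n - 1))).exists_right_inv
  refine RingHom.mem_range.1 (laurent_coeff_mem_of_pow_mem (iotaA A).range _
    (Nat.cast_ne_zero.2 (NeZero.ne n)) ⟨⟨r, hrA⟩, hr⟩ ⟨i, ?_⟩
    (fun k => RingHom.mem_range.2 (mem_intSeries_iff.1 hS k)) k)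
  refine eq_inv_of_mul_eq_one_left ?_
  have := congrArg (iotaA A) hi
  rw [map_mul, map_mul, map_pow, map_natCast, map_one, iotaA_apply, hr] at this
  rw [mul_comm]
  exact this

namespace BaseData

variable (D : BaseData A N)
include D

/-- Gauss: cancelling a factor with nonzero reduction. -/
theorem mem_bRing_of_mul_mem {l : ℕ} (hl : l.Prime) (hA : A.LiesOverPrime l) {x : ℍ → ℂ}
    (hx : x ∈ BAlg N) (y : BRing A N) {g₀ : SL(2, ℤ)} (hy : redAt g₀ y ≠ 0)
    (hxy : x * (y : ℍ → ℂ) ∈ BRing A N) : x ∈ BRing A N := by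
  rcases eq_or_ne x 0 with rfl | hx0
  · exact zero_mem _
  obtain ⟨c, hc, hmem, g, hg⟩ := D.scale x hx hx0
  have hci : c⁻¹ ∈ A := by
    rcases A.mem_or_inv_mem c with hcA | hci
    · by_contra hci
      refine D.redAt_ne_zero hl hA y hy g ?_
      have hres : IsLocalRing.residue A ⟨c, hcA⟩ = 0 := by
        rw [IsLocalRing.residue_eq_zero_iff, IsLocalRing.mem_maximalIdeal, mem_nonunits_iff]
        intro hu
        obtain ⟨v, hv⟩ := hu.exists_right_inv
        apply hci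
        rw [inv_eq_of_mul_eq_one_right (congrArg Subtype.val hv : c * (v : Qb) = 1)]
        exact v.2
      have e := redAt_smul g (⟨c, hcA⟩ : A) (⟨_, hmem⟩ * y) ⟨_, hxy⟩
        (smul_mul_assoc (iota c) x (y : ℍ → ℂ))
      rw [hres, map_mul] at e
      simp only [HahnSeries.single_eq_zero, zero_mul, mul_eq_zero] at e
      refine e.resolve_left ?_
      rw [redAt_apply]
      exact hg
    · exact hci
  have := smul_mem_bRing (⟨c⁻¹, hci⟩ : A) hmem
  rwa [show iota ((⟨c⁻¹, hci⟩ : A) : Qb) • iota c • x = x by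
    rw [smul_smul, ← map_mul, inv_mul_cancel₀ hc, map_one, one_smul]] at this

/-- Gauss: integrality of an invariant function from that of a power. -/
theorem mem_bRing_of_pow_mem {x : ℍ → ℂ} (hx : x ∈ BAlg N) {n : ℕ} (hn : n ≠ 0)
    (hxn : x ^ n ∈ BRing A N) : x ∈ BRing A N := by
  rcases eq_or_ne x 0 with rfl | hx0
  · exact zero_mem _
  obtain ⟨c, hc, hmem, g, hg⟩ := D.scale x hx hx0
  have hci : c⁻¹ ∈ A := by
    rcases A.mem_or_inv_mem c with hcA | hci
    · by_contra hci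
      apply hg
      have hres : IsLocalRing.residue A ⟨c, hcA⟩ = 0 := by
        rw [IsLocalRing.residue_eq_zero_iff, IsLocalRing.mem_maximalIdeal, mem_nonunits_iff]
        intro hu
        obtain ⟨v, hv⟩ := hu.exists_right_inv
        apply hci
        rw [inv_eq_of_mul_eq_one_right (congrArg Subtype.val hv : c * (v : Qb) = 1)]
        exact v.2
      have e := redAt_smul g ((⟨c, hcA⟩ : A) ^ n) (⟨_, hmem⟩ ^ n) ⟨_, hxn⟩ (by
        show (iota c • x) ^ n = _
        rw [smul_pow, ← map_pow]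
        rfl)
      rw [map_pow (IsLocalRing.residue A), hres, zero_pow hn, map_pow] at e
      simp only [HahnSeries.single_eq_zero, zero_mul] at e
      rw [← redAt_apply g ⟨_, hmem⟩]
      exact (pow_eq_zero_iff hn).1 e
    · exact hci
  have := smul_mem_bRing (⟨c⁻¹, hci⟩ : A) hmem
  rwa [show iota ((⟨c⁻¹, hci⟩ : A) : Qb) • iota c • x = x by
    rw [smul_smul, ← map_mul, inv_mul_cancel₀ hc, map_one, one_smul]] at this

variable {δ : Gamma N →* ℂ} (hpar : ParTriv N δ) {l : ℕ} (hl : l.Prime) (hA : A.LiesOverPrime l)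
  {n : ℕ} [NeZero n] (hln : ¬ l ∣ n) (hδ : ∀ γ, δ γ ^ n = 1)

include hpar hl hA hln hδ

/-- A twisted function with integral `n`-th power is integral. -/
theorem isIntFn_of_pow_tw {f : ℍ → ℂ} (hf : f ∈ Tw N δ) (hi : IsIntFn A N (f ^ n)) :
    IsIntFn A N f := by
  rcases eq_or_ne f 0 with rfl | hf0
  · exact (zero_mem (IntFn A N) : (0 : ℍ → ℂ) ∈ IntFn A N).2
  have hP := Tw.mem_perFn hpar hf
  have ha := isAlgFn_of_pow hP hi.isAlgFn
  rw [isIntFn_iff]
  intro g
  obtain ⟨f₀, hf₀, ha₀, hi₀, a, hau, hae⟩ := D.exists_pow_unit_leading hpar hl hA hln hδ hf hf0 ha g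
  have hP₀ := Tw.mem_perFn hpar hf₀
  rw [cexp_pow hP₀] at hae
  obtain ⟨hS₀, r, hru, hre⟩ := root_unit_leading hl hA hln
    (by rw [← cexp_pow hP₀]; exact isIntFn_iff.1 hi₀ g) hau hae
  set x := f * f₀ ^ (n - 1) with hx
  have hxn : x ^ n = f ^ n * (f₀ ^ n) ^ (n - 1) := by rw [hx, mul_pow, ← pow_mul, ← pow_mul, mul_comm n]
  have hxB : x ∈ BRing A N := by
    refine D.mem_bRing_of_pow_mem ⟨mul_pow_mem_fn hδ hf hf₀,
      mul_mem (show f ∈ AlgFn N from ⟨hP, ha⟩) (pow_mem (show f₀ ∈ AlgFn N from ⟨hP₀, ha₀⟩) _)⟩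
      (NeZero.ne n) ?_
    rw [hxn]
    exact mul_mem (show f ^ n ∈ BRing A N from ⟨pow_mem_fn hδ hf, pow_mem hP n, hi⟩)
      (pow_mem (show f₀ ^ n ∈ BRing A N from ⟨pow_mem_fn hδ hf₀, pow_mem hP₀ n, hi₀⟩) _)
  obtain ⟨T, hT⟩ := hS₀
  have hne : T ≠ 0 := fun h0 => by
    rw [h0, map_zero] at hT
    rw [← hT] at hre
    exact hru.ne_zero (Subtype.ext (iota.injective (by simpa using hre)))
  have hord : (cexp N f₀ g).order = T.order := by
    refine le_antisymm (HahnSeries.order_le_of_coeff_ne_zero ?_)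
      (HahnSeries.order_le_of_coeff_ne_zero fun h0 => hru.ne_zero ?_)
    · rw [← hT, ModularCurve.coeffMap_coeff, map_ne_zero_iff _ (iotaA_injective A)]
      exact HahnSeries.coeff_order_eq_zero.not.2 hne
    · refine Subtype.ext (iota.injective ?_)
      rw [hre, ← hT, ModularCurve.coeffMap_coeff]
      rw [← hT] at h0
      rw [h0, map_zero]
      simp
  have hTu : IsUnit T := by
    rw [HahnSeries.isUnit_iff, HahnSeries.leadingCoeff_eq]
    have : T.coeff T.order = r := iotaA_injective A (by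
      rw [iotaA_apply A r, hre, hord, ← hT, ModularCurve.coeffMap_coeff])
    rwa [this]
  obtain ⟨u, hu⟩ := (hTu.pow (n - 1)).exists_right_inv
  refine ⟨intExp A g ⟨x, hxB.2⟩ * u, ?_⟩
  rw [map_mul, coeffMap_intExp]
  show cexp N x g * _ = _
  rw [hx, cexp_mul hP (pow_mem hP₀ _), cexp_pow hP₀, ← hT, ← map_pow, mul_assoc, ← map_mul, hu,
    map_one, mul_one]

/-- Bounded denominators in a twist. -/
theorem exists_denom_tw {f : ℍ → ℂ} (hf : f ∈ Tw N δ) (ha : IsAlgFn N f) :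
    ∃ c : A, c ≠ 0 ∧ IsIntFn A N (iota (c : Qb) • f) := by
  have hP := Tw.mem_perFn hpar hf
  obtain ⟨c, hc, hmem⟩ := D.denom (f ^ n)
    ⟨pow_mem_fn hδ hf, pow_mem (show f ∈ AlgFn N from ⟨hP, ha⟩) n⟩
  refine ⟨c, hc, D.isIntFn_of_pow_tw hpar hl hA hln hδ ((Tw N δ).smul_mem _ hf) ?_⟩
  have e : (iota (c : Qb) • f) ^ n = iota ((c ^ (n - 1) : A) : Qb) • iota (c : Qb) • f ^ n := by
    rw [smul_pow, smul_smul, ← map_mul]
    push_cast
    rw [← pow_succ, Nat.sub_add_cancel (Nat.one_le_iff_ne_zero.2 (NeZero.ne n)), map_pow]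
  rw [e]
  exact (smul_mem_bRing _ hmem).2.2

/-- A section with unit leading coefficient at each cusp. -/
theorem exists_unit_leading {f : ℍ → ℂ} (hf : f ∈ Tw N δ) (hf0 : f ≠ 0) (ha : IsAlgFn N f)
    (g : SL(2, ℤ)) :
    ∃ f' ∈ Tw N δ, IsIntFn A N f' ∧
      ∃ a : A, IsUnit a ∧ iota (a : Qb) = (cexp N f' g).coeff (cexp N f' g).order := by
  obtain ⟨f₀, hf₀, -, hi₀, a, hau, hae⟩ := D.exists_pow_unit_leading hpar hl hA hln hδ hf hf0 ha g
  have hP₀ := Tw.mem_perFn hpar hf₀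
  rw [cexp_pow hP₀] at hae
  obtain ⟨-, r, hru, hre⟩ := root_unit_leading hl hA hln
    (by rw [← cexp_pow hP₀]; exact isIntFn_iff.1 hi₀ g) hau hae
  exact ⟨f₀, hf₀, D.isIntFn_of_pow_tw hpar hl hA hln hδ hf₀ hi₀, r, hru, hre⟩

end BaseData

end FLTA.DeligneSerre
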